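import Fermat.Agent.HM.Raise.Separation
import Fermat.Agent.MF.Petersson.Hecke
import Fermat.Agent.MC.Lvl.CuspGenus

/-!
# Semisimplicity of the Hecke operators prime to the level from a spanning set of eigenforms

The main results are `heckeSemisimple` and `heckeSemisimple_over`, over a base level.
-/

namespace Fermat.HM

open scoped MatrixGroups
open Fermat.MC.Lvl

/-- An endomorphism with a spanning set of eigenvectors is semisimple. -/
theorem isSemisimple_of_span_eigen {K : Type*} [Field K] {V : Type*} [AddCommGroup V] [Module K V]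
    [FiniteDimensional K V] (g : Module.End K V) (S : Set V) (hS : Submodule.span K S = ⊤)
    (h : ∀ x ∈ S, ∃ c : K, g x = c • x) : g.IsSemisimple := by
  classical
  let R : Finset K := g.finite_hasEigenvalue.toFinset
  refine Module.End.isSemisimple_of_squarefree_aeval_eq_zero
    (p := ∏ c ∈ R, (Polynomial.X - Polynomial.C c))
    ((Polynomial.separable_prod_X_sub_C_iff'.mpr fun _ _ _ _ e => e).squarefree) ?_
  refine LinearMap.ext_on hS fun x hx => ?_
  obtain ⟨c, hc⟩ := h x hx
  rcases eq_or_ne x 0 with rfl | hx0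
  · simp
  have hev : g.HasEigenvector c x := ⟨Module.End.mem_eigenspace_iff.mpr hc, hx0⟩
  have hcR : c ∈ R := g.finite_hasEigenvalue.mem_toFinset.mpr
    (Module.End.hasEigenvalue_of_hasEigenvector hev)
  rw [Module.End.aeval_apply_of_hasEigenvector hev, Polynomial.eval_prod,
    Finset.prod_eq_zero hcR (by simp), zero_smul, LinearMap.zero_apply]

variable {K : ℕ} [NeZero K] {H : Subgroup (ZMod K)ˣ}

/-- Semisimplicity from a spanning set of common eigenforms of the operators prime to the level. -/
theorem heckeSemisimple_of_span [FiniteDimensional ℂ (CuspForm (GammaH K H) 2)]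
    (S : Set (CuspForm (GammaH K H) 2)) (hS : Submodule.span ℂ S = ⊤)
    (h : ∀ f ∈ S, ∀ l : Nat.Primes, ¬ (l : ℕ) ∣ K →
      ∃ c : ℂ, formOp K H (Sum.inl l) f = c • f) : HeckeSemisimple K H :=
  fun l hl => isSemisimple_of_span_eigen _ S hS fun f hf => h f hf l hl

/-- **The Hecke operators prime to the level are semisimple.** -/
theorem heckeSemisimple (K : ℕ) [NeZero K] (H : Subgroup (ZMod K)ˣ) [NegMem H] :
    HeckeSemisimple K H :=
  heckeSemisimple_of_span _ Fermat.MF.Petersson.span_anemic_eigen
    fun _ hf l hl => hf ⟨Sum.inl l, hl⟩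

/-- The semisimplicity needed for separation of points over a base level. -/
theorem heckeSemisimple_over {M₀ : ℕ} {H₀ : Subgroup (ZMod M₀)ˣ} (hneg : -1 ∈ H₀) (K : ℕ)
    [NeZero K] (hd : M₀ ∣ K) : HeckeSemisimple K (lvlH H₀ hd) :=
  haveI := negMem_lvlH hneg hd
  heckeSemisimple K _

end Fermat.HM
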