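import Fermat.Agent.HM.Raise.Act

/-!
# Descents commute with the families of operators

The main results are `NatDescent.sym_symAct` and `NatDescent.newDescent_newAct`.
-/

set_option linter.overlappingInstances false

namespace Fermat.HM

open scoped MatrixGroups
open MvPolynomial Fermat.MC.Lvl

/-- A label over `M₀` seen over a divisor. -/
noncomputable def Op.down {N₀ M₀ : ℕ} (h : N₀ ∣ M₀) : Op M₀ → Op N₀
  | .hecke l => .hecke l
  | .dia u => .dia (ZMod.unitsMap h u)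

variable {O : Type} [CommRing O] [IsLocalRing O] [IsDomain O] [IsDiscreteValuationRing O]
  [IsAdicComplete (IsLocalRing.maximalIdeal O) O] {σ : Type} {p : σ → ℕ}
  [hp : ∀ i, Fact (p i).Prime] {N : ℕ} [NeZero N] {H : Subgroup (ZMod N)ˣ} {ΔA : Type}
  [CommGroup ΔA] {D : DiamondQuot N ⊤ H ΔA} {M : ℕ} [NeZero M] {H₁ : Subgroup (ZMod M)ˣ}
  {Δ : Type} [CommGroup Δ] {D₁ : DiamondQuot M ⊤ H₁ (ΔA × Δ)} {hdvd : N ∣ M}
  {θ θ' : σ → IsLocalRing.ResidueField O} {L : List σ} [Module.Finite O (Homs O (GammaH N H))]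
  [Module.Finite O (Homs O (GammaH M H₁))] {M₀ N₀ : ℕ} {χ₀ : (ZMod M₀)ˣ →* ΔA × Δ}
  {χA : (ZMod N₀)ˣ →* ΔA} {v : ℕ → (ZMod M₀)ˣ} {v₀ : ℕ → (ZMod N₀)ˣ} {ε : ℕ → O} {J : List ℕ}
  {ι : Type}

/-- The descent commutes with a family of operators. -/
theorem NatDescent.desc_famAct (T : NatDescent p D D₁ hdvd θ θ' L) (hD : LevelChar χA D)
    (hD₁ : LevelChar χ₀ D₁) (hd₀ : N₀ ∣ M₀) (hχ : ∀ u, (χ₀ u).1 = χA (ZMod.unitsMap hd₀ u))
    (fam : ι → Op M₀)
    (hL : ∀ i (l : Nat.Primes), fam i = .hecke l → ∃ j, j ∉ L ∧ p j = (l : ℕ))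
    (P : MvPolynomial ι O) (x : D₁.LocMod p (sysIdeal θ')) :
    T.desc.t (famAct (sysIdeal θ') hD₁ fam P x)
      = famAct (sysIdeal θ) hD (Op.down hd₀ ∘ fam) P (T.desc.t x) := by
  induction P using MvPolynomial.induction_on generalizing x with
  | C a =>
    rw [← MvPolynomial.algebraMap_eq, AlgHom.commutes, AlgHom.commutes,
      Module.algebraMap_end_apply, Module.algebraMap_end_apply,
      ← algebraMap_smul (MonoidAlgebra O (ΔA × Δ)) a x, T.desc.map_smul, AlgHom.commutes,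
      algebraMap_smul]
  | add P Q hP hQ => simp only [map_add, LinearMap.add_apply, hP, hQ]
  | mul_X P i hP =>
    rw [map_mul, map_mul, Module.End.mul_apply, Module.End.mul_apply, hP, famAct_X, famAct_X,
      Function.comp_apply]
    refine congrArg _ ?_
    cases hi : fam i with
    | hecke l =>
      obtain ⟨j, hj, e⟩ := hL i l hi
      obtain rfl : (⟨p j, (hp j).out⟩ : Nat.Primes) = l := Subtype.ext e
      change _ = opEnd _ hD (.hecke ⟨p j, (hp j).out⟩) _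
      rw [opEnd_hecke, opEnd_hecke, T.act_X j hj]
    | dia u =>
      change _ = opEnd _ hD (.dia (ZMod.unitsMap hd₀ u)) _
      rw [opEnd_dia, opEnd_dia, T.desc.map_smul, ← hχ]
      congr 1
      simp [projRing]

/-- The descent on the symmetrised modules commutes with a family of operators. -/
theorem NatDescent.sym_symAct (T : NatDescent p D D₁ hdvd θ θ' L) (hD : LevelChar χA D)
    (hD₁ : LevelChar χ₀ D₁) (hc : CtrlData χ₀ v v₀ p N M J) (hJ : SymData χ₀ v ε M J)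
    (hd₀ : N₀ ∣ M₀) (hχ : ∀ u, (χ₀ u).1 = χA (ZMod.unitsMap hd₀ u)) (fam : ι → Op M₀)
    (hL : ∀ i (l : Nat.Primes), fam i = .hecke l → ∃ j, j ∉ L ∧ p j = (l : ℕ))
    (hfam : ∀ i (l : Nat.Primes), fam i = .hecke l → ∀ s ∈ J, (l : ℕ) ≠ s)
    (hfam₀ : ∀ i (l : Nat.Primes), (Op.down hd₀ ∘ fam) i = .hecke l → ∀ s ∈ J, (l : ℕ) ≠ s)
    (P : MvPolynomial ι O) (x : symMod (sysIdeal θ') ε hD₁ v J hc.family) :
    (T.sym hD hD₁ hc hJ).t (symAct (sysIdeal θ') hD₁ hc.family fam hfam P x)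
      = symAct (sysIdeal θ) hD hc.family (Op.down hd₀ ∘ fam) hfam₀ P
          ((T.sym hD hD₁ hc hJ).t x) :=
  Subtype.ext (T.desc_famAct hD hD₁ hd₀ hχ fam hL P x.1)

/-- The condition on a family of operators passes down to the base modulus. -/
theorem avoids_down {hd₀ : N₀ ∣ M₀} {fam : ι → Op M₀}
    (hfam : ∀ i (l : Nat.Primes), fam i = .hecke l → ∀ s ∈ J, (l : ℕ) ≠ s) :
    ∀ i (l : Nat.Primes), (Op.down hd₀ ∘ fam) i = .hecke l → ∀ s ∈ J, (l : ℕ) ≠ s := by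
  intro i l hi
  refine hfam i l ?_
  rw [Function.comp_apply] at hi
  cases h : fam i with
  | hecke l' =>
    rw [h] at hi
    have h' : (Op.hecke l' : Op N₀) = .hecke l := hi
    cases h'
    rfl
  | dia u =>
    rw [h] at hi
    have h' : (Op.dia (ZMod.unitsMap hd₀ u) : Op N₀) = .hecke l := hi
    cases h'

/-- The descent on the modules special at one prime commutes with a family of operators. -/
theorem NatDescent.newDescent_newAct [CharZero O] {N M q : ℕ} [NeZero N] [NeZero M]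
    [Fact q.Prime] [NeZero (M * q)] [NeZero (N * q)] {H : Subgroup (ZMod N)ˣ}
    {D : DiamondQuot N ⊤ H ΔA} {H₁ : Subgroup (ZMod M)ˣ} {D₁ : DiamondQuot M ⊤ H₁ (ΔA × Δ)}
    {hdvd : N * q ∣ M * q} [Module.Finite O (Homs O (GammaH N H))]
    [Module.Finite O (Homs O (GammaH (N * q) (upH H q)))]
    [Module.Finite O (Homs O (GammaH (M * q) (upH H₁ q)))]
    (T : NatDescent p (D.up q) (D₁.up q) hdvd θ θ' L) (hD : LevelChar χA D)
    (hD₁ : LevelChar χ₀ D₁) (hc : CtrlData χ₀ v v₀ p (N * q) (M * q) (q :: J))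
    (h₀ : StepData χA p v₀ ε N q J) (h₁ : StepData χ₀ p v ε M q J)
    (hΓ : GoodLevel O (GammaH N H)) (hΓ' : GoodLevel O (GammaH (N * q) (upH H q)))
    (hΓ₁ : GoodLevel O (GammaH M H₁)) (hΓ₁' : GoodLevel O (GammaH (M * q) (upH H₁ q)))
    (hne : NonEisenstein p (sysIdeal θ)) (hne' : NonEisenstein p (sysIdeal θ'))
    (hd₀ : N₀ ∣ M₀) (hχ : ∀ u, (χ₀ u).1 = χA (ZMod.unitsMap hd₀ u)) (fam : ι → Op M₀)
    (hL : ∀ i (l : Nat.Primes), fam i = .hecke l → ∃ j, j ∉ L ∧ p j = (l : ℕ))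
    (hfam : ∀ i (l : Nat.Primes), fam i = .hecke l → ∀ s ∈ q :: J, (l : ℕ) ≠ s)
    (P : MvPolynomial ι O) (x : newMod (sysIdeal θ') hD₁ h₁) :
    (T.newDescent hD hD₁ hc h₀ h₁ hΓ hΓ' hΓ₁ hΓ₁' hne hne').t
        (newAct (sysIdeal θ') hD₁ h₁ fam hfam P x)
      = newAct (sysIdeal θ) hD h₀ (Op.down hd₀ ∘ fam) (avoids_down hfam) P
          ((T.newDescent hD hD₁ hc h₀ h₁ hΓ hΓ' hΓ₁ hΓ₁' hne hne').t x) := by
  obtain ⟨x, rfl⟩ := Submodule.Quotient.mk_surjective _ x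
  exact congrArg Submodule.Quotient.mk
    (T.sym_symAct (hD.up q) (hD₁.up q) hc h₁.upper hd₀ hχ fam hL hfam (avoids_down hfam) P x)

end Fermat.HM
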