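import Fermat.Agent.HM.Raise.SymPoints
import Fermat.Agent.HM.Raise.ActDescent

/-!
# The chain of modules for raising the level at several primes

`RaiseCtx` collects what is assumed of one level (the base or an auxiliary one).  It gives, for each
list `J` of raised primes, the free module `eMod J`, for each step `q :: J` the free module
`xMod J q`, the equivariant maps `eMod (q :: J) → xMod J q → eMod J / t`, and separation of points;
two contexts related by an auxiliary level give descents.

This is the interface of `HM/Raise`: modularity lifting (`GR/RT/Lift/Modules`, `GR/RT/Lift/Raise`)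
builds its patching levels from it.
-/

set_option linter.overlappingInstances false
set_option linter.unusedSectionVars false

namespace Fermat.HM

open scoped MatrixGroups
open MvPolynomial Fermat.MC.Lvl

/-- A free module of finite rank over a group ring. -/
structure GMod (O A : Type) [CommRing O] [CommRing A] [Algebra O A] : Type 1 where
  /-- The underlying type of the module. -/
  X : Type
  /-- Its additive group. -/
  [addCommGroup : AddCommGroup X]
  /-- Its structure of module over the group ring. -/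
  [module : Module A X]
  /-- Its structure of module over the coefficients. -/
  [moduleO : Module O X]
  /-- The two module structures are compatible. -/
  [tower : IsScalarTower O A X]
  /-- It is free over the group ring. -/
  [free : Module.Free A X]
  /-- It is finite over the group ring. -/
  [finite : Module.Finite A X]

attribute [instance] GMod.addCommGroup GMod.module GMod.moduleO GMod.tower GMod.free GMod.finite

variable {O : Type} [CommRing O] [IsLocalRing O] [IsDomain O] [IsDiscreteValuationRing O]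
  [IsAdicComplete (IsLocalRing.maximalIdeal O) O] {pp : ℕ} [Fact pp.Prime]
  {σ : Type} {p : σ → ℕ} [hp : ∀ i, Fact (p i).Prime] {M : ℕ} [NeZero M]
  {H : Subgroup (ZMod M)ˣ} {Δ : Type} [CommGroup Δ] [Finite Δ] {D : DiamondQuot M ⊤ H Δ}
  {m : Ideal (MvPolynomial σ O)} [m.IsMaximal] {v : ℕ → (ZMod M)ˣ} {ε : ℕ → O} {qs : List ℕ}

/-- The hypotheses on one level. -/
structure RaiseCtx (pp : ℕ) (p : σ → ℕ) [∀ i, Fact (p i).Prime] (D : DiamondQuot M ⊤ H Δ)
    (m : Ideal (MvPolynomial σ O)) (v : ℕ → (ZMod M)ˣ) (ε : ℕ → O) (qs : List ℕ) : Prop where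
  /-- `pp` is zero in the residue field. -/
  pp_mem : (pp : O) ∈ IsLocalRing.maximalIdeal O
  /-- The diamond group is a `pp`-group. -/
  pgroup : IsPGroup pp Δ
  /-- `-1` belongs to `H`. -/
  neg_mem : -1 ∈ H
  /-- The level is good. -/
  good : GoodLevel O (GammaH M H)
  /-- The level without diamond condition is good. -/
  good_top : GoodLevel O (GammaH M ⊤)
  /-- The system is not Eisenstein. -/
  nonEis : NonEisenstein p m
  /-- The primes to be raised have signs and roots. -/
  roots : RootData D.chiTop p v ε qs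

/-- The data at the raised primes restrict to a sublist without repetition. -/
theorem RootData.of_subset {χ : (ZMod M)ˣ →* Δ} (h : RootData χ p v ε qs) {J : List ℕ}
    (hsub : J ⊆ qs) (hnd : J.Nodup) : RootData χ p v ε J :=
  ⟨h.two, ⟨hnd, fun s hs => h.good.2 s (hsub hs)⟩, fun s hs => h.family s (hsub hs),
    fun s hs => h.sign s (hsub hs), fun s hs => h.root s (hsub hs)⟩

/-- A list of raised primes: members of `qs`, without repetition. -/
def IsRaised (qs J : List ℕ) : Prop := J ⊆ qs ∧ J.Nodup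

/-- The tail of a raised list is raised. -/
theorem IsRaised.tail {q : ℕ} {J : List ℕ} (h : IsRaised qs (q :: J)) : IsRaised qs J :=
  ⟨List.subset_of_cons_subset h.1, (List.nodup_cons.mp h.2).2⟩

namespace RaiseCtx

variable (C : RaiseCtx pp p D m v ε qs) {J : List ℕ} {q : ℕ}

include C in
/-- The data of the primes of a raised list. -/
theorem rootData (hJ : IsRaised qs J) : RootData D.chiTop p v ε J :=
  C.roots.of_subset hJ.1 hJ.2

include C in
/-- A raised list consists of distinct primes prime to the level. -/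
theorem goodList (hJ : IsRaised qs J) : GoodList M J := (C.rootData hJ).good

include C in
/-- The level of the chain is not zero. -/
theorem neZero (hJ : IsRaised qs J) : NeZero (chainN M J) :=
  neZero_chainN M (C.goodList hJ).ne_zero

include C in
/-- The level of the chain is good. -/
theorem goodJ (hJ : IsRaised qs J) : haveI := C.neZero hJ
    GoodLevel O (GammaH (chainN M J) (chainH H J)) :=
  haveI := C.neZero hJ
  C.good.chain C.neg_mem J

include C in
/-- The level of `Γ₀` type of the chain is good. -/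
theorem goodTopJ (hJ : IsRaised qs J) : haveI := C.neZero hJ
    GoodLevel O (GammaH (chainN M J) ⊤) :=
  haveI := C.neZero hJ
  C.good_top.chainTop J

/-- At the level raised at `J` the character `χ₀` still gives the diamond quotient. -/
noncomputable abbrev lchar (hJ : IsRaised qs J) :=
  haveI := C.neZero hJ
  levelChar_chain D J (C.goodList hJ).ne_zero

/-- **The module of union type.** The summand `symMod` at the level raised at `J`, as a free module
over the group ring. -/
noncomputable def eMod (hJ : IsRaised qs J) : GMod O (MonoidAlgebra O Δ) :=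
  haveI := C.neZero hJ
  haveI := (free_symMod C.pp_mem C.pgroup (C.goodTopJ hJ) (C.goodJ hJ) C.nonEis (C.lchar hJ)
    (C.rootData hJ).symData (C.rootData hJ).family).1
  haveI := (free_symMod C.pp_mem C.pgroup (C.goodTopJ hJ) (C.goodJ hJ) C.nonEis (C.lchar hJ)
    (C.rootData hJ).symData (C.rootData hJ).family).2
  ⟨symMod m ε (C.lchar hJ) v J (C.rootData hJ).family⟩

variable {ι : Type}

/-- The primes of the labels avoid a list. -/
def Avoids (fam : ι → Op M) (J : List ℕ) : Prop :=
  ∀ i (l : Nat.Primes), fam i = .hecke l → ∀ s ∈ J, (l : ℕ) ≠ s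

/-- The action on the module of union type. -/
noncomputable def eAct (hJ : IsRaised qs J) (fam : ι → Op M) (hfam : Avoids fam J) :
    MvPolynomial ι O →ₐ[O] Module.End (MonoidAlgebra O Δ) (C.eMod hJ).X :=
  haveI := C.neZero hJ
  symAct m (C.lchar hJ) (C.rootData hJ).family fam hfam

section Step

include C in
/-- The head of a raised list is prime. -/
theorem fact_head (hJ : IsRaised qs (q :: J)) : Fact q.Prime :=
  ⟨((C.goodList hJ).2 q (List.mem_cons_self ..)).1⟩

variable [CharZero O]

/-- **The module special at `q`.** The module `newMod` of the step from `J` to `q :: J`, as a free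
module over the group ring. -/
noncomputable def xMod (hJ : IsRaised qs (q :: J)) : GMod O (MonoidAlgebra O Δ) :=
  haveI := C.fact_head hJ
  haveI := C.neZero hJ.tail
  haveI : NeZero (chainN M J * q) := C.neZero hJ
  haveI := (free_newMod m C.pp_mem C.pgroup (C.lchar hJ.tail) (C.rootData hJ).stepData
    (C.goodTopJ hJ.tail) (C.goodJ hJ.tail) (C.goodTopJ hJ) (C.goodJ hJ) C.nonEis).1
  haveI := (free_newMod m C.pp_mem C.pgroup (C.lchar hJ.tail) (C.rootData hJ).stepData
    (C.goodTopJ hJ.tail) (C.goodJ hJ.tail) (C.goodTopJ hJ) (C.goodJ hJ) C.nonEis).2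
  ⟨newMod m (C.lchar hJ.tail) (C.rootData hJ).stepData⟩

/-- The action on the module special at `q`. -/
noncomputable def xAct (hJ : IsRaised qs (q :: J)) (fam : ι → Op M) (hfam : Avoids fam (q :: J)) :
    MvPolynomial ι O →ₐ[O] Module.End (MonoidAlgebra O Δ) (C.xMod hJ).X :=
  -- in tactic mode, as every `haveI` of a term compares the two module structures again
  by
    haveI := C.fact_head hJ
    haveI := C.neZero hJ.tail
    haveI : NeZero (chainN M J * q) := C.neZero hJ
    exact (newAct m (C.lchar hJ.tail) (C.rootData hJ).stepData fam hfam :)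

/-- The operator `v T + ε (q + 1)` on the module of union type. -/
noncomputable def tEnd (hJ : IsRaised qs (q :: J)) :
    Module.End (MonoidAlgebra O Δ) (C.eMod hJ.tail).X :=
  haveI := C.fact_head hJ
  haveI := C.neZero hJ.tail
  haveI : NeZero (chainN M J * q) := C.neZero hJ
  tSym m (C.lchar hJ.tail) (C.rootData hJ).stepData

/-- `tEnd` is given by the labels at `q`. -/
theorem tEnd_eq (hJ : IsRaised qs (q :: J)) (fam : ι → Op M) (hfam : Avoids fam J) {i j : ι}
    (hi : fam i = .dia (v q)) (hj : fam j = .hecke ⟨q, (C.fact_head hJ).out⟩) :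
    C.tEnd hJ = C.eAct hJ.tail fam hfam (X i * X j + MvPolynomial.C (ε q * (q + 1 : ℕ))) := by
  have := C.fact_head hJ
  have := C.neZero hJ.tail
  have : NeZero (chainN M J * q) := C.neZero hJ
  refine LinearMap.ext fun x => Subtype.ext (DiamondQuot.LocMod.ext_val ?_)
  refine Eq.trans ?_ (coe_coe_symAct m (C.lchar hJ.tail) (C.rootData hJ.tail).family fam hfam
    _ x).symm
  rw [map_add, map_mul, LinearMap.add_apply, Module.End.mul_apply, ← MvPolynomial.algebraMap_eq,
    AlgHom.commutes, Module.algebraMap_end_apply, opsAct_X, opsAct_X, hi, hj]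
  rfl

/-- **The projection to the module special at `q`.** -/
noncomputable def proj (hJ : IsRaised qs (q :: J)) :
    (C.eMod hJ).X →ₗ[MonoidAlgebra O Δ] (C.xMod hJ).X := by
  haveI := C.fact_head hJ
  haveI := C.neZero hJ.tail
  haveI : NeZero (chainN M J * q) := C.neZero hJ
  exact Submodule.mkQ _

/-- The projection to the module special at `q` is surjective. -/
theorem proj_surjective (hJ : IsRaised qs (q :: J)) : Function.Surjective (C.proj hJ) := by
  have := C.fact_head hJ
  have := C.neZero hJ.tail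
  have : NeZero (chainN M J * q) := C.neZero hJ
  exact Submodule.mkQ_surjective _

/-- The projection is equivariant. -/
theorem proj_eAct (hJ : IsRaised qs (q :: J)) (fam : ι → Op M) (hfam : Avoids fam (q :: J))
    (P : MvPolynomial ι O) (x : (C.eMod hJ).X) :
    C.proj hJ (C.eAct hJ fam hfam P x) = C.xAct hJ fam hfam P (C.proj hJ x) := rfl

/-- **The map from the module special at `q` onto the cokernel of `t`**, lifted. -/
theorem exists_desc (hJ : IsRaised qs (q :: J)) (fam : ι → Op M) (hfam : Avoids fam (q :: J)) :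
    ∃ F : (C.xMod hJ).X →ₗ[MonoidAlgebra O Δ] (C.eMod hJ.tail).X,
      (∀ y, ∃ x z, y = F x + C.tEnd hJ z) ∧
      ∀ P x, ∃ z, F (C.xAct hJ fam hfam P x)
        - C.eAct hJ.tail fam (fun i l hi s hs => hfam i l hi s (List.mem_cons_of_mem q hs)) P (F x)
          = C.tEnd hJ z := by
  have := C.fact_head hJ
  have := C.neZero hJ.tail
  have : NeZero (chainN M J * q) := C.neZero hJ
  have hs := (C.rootData hJ).stepData
  have hfree := (free_newMod m C.pp_mem C.pgroup (C.lchar hJ.tail) hs (C.goodTopJ hJ.tail)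
    (C.goodJ hJ.tail) (C.goodTopJ hJ) (C.goodJ hJ) C.nonEis).1
  obtain ⟨F, hF⟩ := Module.projective_lifting_property
    (LinearMap.range (tSym m (C.lchar hJ.tail) hs)).mkQ (newToOld m (C.lchar hJ.tail) hs)
    (Submodule.mkQ_surjective _)
  refine ⟨F, fun y => ?_, fun P x => ?_⟩
  · obtain ⟨x, hx⟩ := newToOld_surjective m (C.lchar hJ.tail) hs (C.goodJ hJ.tail) (C.goodJ hJ)
      C.nonEis (Submodule.Quotient.mk y)
    rw [← LinearMap.congr_fun hF x] at hx
    obtain ⟨z, hz⟩ := (Submodule.Quotient.eq _).mp hx.symm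
    exact ⟨x, z, (sub_eq_iff_eq_add'.mp hz.symm)⟩
  · have h1 := newToOld_newAct m (C.lchar hJ.tail) hs fam hfam P x
    rw [← LinearMap.congr_fun hF x, ← LinearMap.congr_fun hF (newAct m _ hs fam hfam P x)] at h1
    obtain ⟨z, hz⟩ := (Submodule.Quotient.eq _).mp h1
    exact ⟨z, hz.symm⟩

end Step

section Points

variable [CharZero O]

include C in
/-- A raised list is a set of primes whose product gives the level of the chain. -/
theorem exists_primes (hJ : IsRaised qs J) :
    ∃ T : Finset Nat.Primes, (∀ s : Nat.Primes, s ∈ T ↔ (s : ℕ) ∈ J) ∧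
      chainN M J = M * ∏ s ∈ T, (s : ℕ) := by
  classical
  have hg := C.goodList hJ
  let f : {s // s ∈ J} → Nat.Primes := fun s => ⟨s.1, (hg.2 s.1 s.2).1⟩
  have hf : Function.Injective f := fun a b e =>
    Subtype.ext (congrArg (fun z : Nat.Primes => (z : ℕ)) e)
  refine ⟨(J.attach.map f).toFinset, fun s => ?_, ?_⟩
  · rw [List.mem_toFinset, List.mem_map]
    exact ⟨fun ⟨a, _, e⟩ => e ▸ a.2,
      fun hs => ⟨⟨s.1, hs⟩, List.mem_attach _ _, Subtype.ext rfl⟩⟩
  · rw [List.prod_toFinset (fun s : Nat.Primes => (s : ℕ))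
      ((List.nodup_attach.mpr hg.1).map hf), List.map_map, chainN_eq]
    congr 2
    exact (List.attach_map_subtype_val J).symm

include C in
/-- The hypotheses for separation of points on the chain of a raised list. -/
theorem raisedData (hJ : IsRaised qs J)
    (hsemi : ∀ (K : ℕ) [NeZero K] (hd : M ∣ K), HeckeSemisimple K (lvlH H hd))
    {T : Finset Nat.Primes} (hT : ∀ s : Nat.Primes, s ∈ T ↔ (s : ℕ) ∈ J) :
    RaisedData H v ε T :=
  ⟨C.neg_mem, fun s hs => ((C.goodList hJ).2 s ((hT s).mp hs)).2, hsemi⟩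

/-- **Separation of points on the module of union type.** -/
theorem eAct_eq_zero (hJ : IsRaised qs J) (fam : ι → Op M) (hfam : Avoids fam J)
    (hgood : ∀ i (l : Nat.Primes), fam i = .hecke l → ¬ (l : ℕ) ∣ M)
    (hsemi : ∀ (K : ℕ) [NeZero K] (hd : M ∣ K), HeckeSemisimple K (lvlH H hd))
    {u : O →+* ℂ} (hu : Function.Injective u) (h : MvPolynomial ι O)
    (hh : ∀ T : Finset Nat.Primes, (∀ t ∈ T, (t : ℕ) ∈ J) → KillsPoints H v ε fam T h) :
    C.eAct hJ fam hfam h = 0 := by
  have := C.neZero hJ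
  obtain ⟨T, hT, hK⟩ := C.exists_primes hJ
  exact symAct_eq_zero_of_killsPoints m fam (C.lchar hJ) (C.rootData hJ).family hfam
    (dvd_chainN M J) (chainH_eq H J) (C.raisedData hJ hsemi hT) C.nonEis hT
    (fun i l hi => ⟨hgood i l hi, fun hl => hfam i l hi _ ((hT l).mp hl) rfl⟩) hu hK
    (C.rootData hJ).symData h fun T' hT' => hh T' fun t ht => (hT t).mp (hT' ht)

/-- **Separation of points on the module special at `q`.** -/
theorem xAct_eq_zero (hJ : IsRaised qs (q :: J)) (fam : ι → Op M) (hfam : Avoids fam (q :: J))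
    (hgood : ∀ i (l : Nat.Primes), fam i = .hecke l → ¬ (l : ℕ) ∣ M)
    (hsemi : ∀ (K : ℕ) [NeZero K] (hd : M ∣ K), HeckeSemisimple K (lvlH H hd))
    {u : O →+* ℂ} (hu : Function.Injective u) (h : MvPolynomial ι O)
    (hh : ∀ T : Finset Nat.Primes, (∀ t ∈ T, (t : ℕ) ∈ q :: J) →
      (⟨q, (C.fact_head hJ).out⟩ : Nat.Primes) ∈ T → KillsPoints H v ε fam T h) :
    C.xAct hJ fam hfam h = 0 := by
  have := C.fact_head hJ
  have := C.neZero hJ.tail
  have : NeZero (chainN M J * q) := C.neZero hJ
  obtain ⟨T, hT, hK⟩ := C.exists_primes hJ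
  exact (newAct_eq_zero_of_killsPoints m fam (C.lchar hJ.tail) (C.rootData hJ).stepData hfam
    C.pp_mem C.pgroup (C.goodTopJ hJ.tail) (C.goodJ hJ.tail) (C.goodTopJ hJ) (C.goodJ hJ)
    (dvd_chainN M J) (chainH_eq H J) (dvd_chainN M (q :: J)) (C.raisedData hJ hsemi hT) C.nonEis
    hT (fun i l hi => ⟨hgood i l hi, fun hl => hfam i l hi _ ((hT l).mp hl) rfl⟩) hu hK h
    fun T' hT' hq => hh T' (fun t ht => (hT t).mp (hT' ht)) hq :)

end Points

end RaiseCtx

section Aux

variable [CharZero O] {N : ℕ} [NeZero N] {H₀ : Subgroup (ZMod N)ˣ} {ΔA : Type} [CommGroup ΔA]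
  [Finite ΔA] {D₀ : DiamondQuot N ⊤ H₀ ΔA} {θ : σ → IsLocalRing.ResidueField O}
  {α : σ → IsLocalRing.ResidueField O} {L : List σ} {ΔQ : Type} [CommGroup ΔQ] [Finite ΔQ]
  {χQ : (ZMod (levN N p L))ˣ →* ΔQ} {v₀ : ℕ → (ZMod N)ˣ}

/-- The base level as a context. -/
theorem BaseData.raiseCtx (B : BaseData O pp p D₀ θ) (h₀ : RootData D₀.chiTop p v₀ ε qs) :
    RaiseCtx pp p D₀ (sysIdeal θ) v₀ ε qs :=
  ⟨B.pp_mem, B.pgroup, B.neg_mem, B.goodLevel, B.good, B.nonEis, h₀⟩

/-- An auxiliary level as a context. -/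
theorem BaseData.exists_auxRaiseCtx (B : BaseData O pp p D₀ θ)
    (h₀ : RootData D₀.chiTop p v₀ ε qs) [NeZero (levN N p L)] (hΔ : IsPGroup pp ΔQ)
    (h : JointSurj (dvd_levN N p L) χQ) :
    ∃ v : ℕ → (ZMod (levN N p L))ˣ,
      RaiseCtx pp p (auxQuot D₀ h) (sysIdeal (sysUpd θ α L)) v ε qs ∧
      ∀ s ∈ qs, ZMod.unitsMap (dvd_levN N p L) (v s) = v₀ s := by
  obtain ⟨v, hv, hvs⟩ := exists_auxRoot B.pp_ne hΔ h h₀
  have hne := nonEisenstein_sysUpd α L B.nonEis
  have hneg : -1 ∈ auxH D₀ (dvd_levN N p L) χQ :=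
    neg_one_mem_of_chiTop (auxQuot D₀ h) B.pp_ne (isPGroup_prod B.pgroup hΔ)
  exact ⟨v, ⟨B.pp_mem, isPGroup_prod B.pgroup hΔ, hneg,
    B.good.gammaH (dvd_levN N p L) le_top hneg,
    B.good.gammaH (dvd_levN N p L) le_top (Subgroup.mem_top _), hne, hv⟩, hvs⟩

variable [NeZero (levN N p L)] {h : JointSurj (dvd_levN N p L) χQ}
  {v : ℕ → (ZMod (levN N p L))ˣ} {J : List ℕ} {q : ℕ} {ι : Type}

/-- **Descent of the module of union type.** -/
theorem exists_eDesc (B : BaseData O pp p D₀ θ) (hnd : L.Nodup)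
    (hL : ∀ i ∈ L, IsTWPrime N p θ α i) (hΔ : IsPGroup pp ΔQ)
    (C₀ : RaiseCtx pp p D₀ (sysIdeal θ) v₀ ε qs)
    (C₁ : RaiseCtx pp p (auxQuot D₀ h) (sysIdeal (sysUpd θ α L)) v ε qs)
    (hv : ∀ s ∈ qs, ZMod.unitsMap (dvd_levN N p L) (v s) = v₀ s) (hJ : IsRaised qs J)
    (fam : ι → Op (levN N p L))
    (hfL : ∀ i (l : Nat.Primes), fam i = .hecke l → ∃ j, j ∉ L ∧ p j = (l : ℕ)) :
    ∃ T : Twist.Descent (projRing O ΔA ΔQ) (C₁.eMod hJ).X (C₀.eMod hJ).X,
      ∀ (hfam : RaiseCtx.Avoids fam J) P x,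
        T.t (C₁.eAct hJ fam hfam P x)
          = C₀.eAct hJ (Op.down (dvd_levN N p L) ∘ fam) (avoids_down hfam) P (T.t x) := by
  have := C₀.neZero hJ
  have := C₁.neZero hJ
  have := (C₀.goodJ hJ).moduleFinite
  have := (C₁.goodJ hJ).moduleFinite
  have hr := C₀.rootData hJ
  obtain ⟨T⟩ := exists_natDescent_chain B hnd hL hΔ h hr.good hr.family
  have hc := ctrlData_chain (v₀ := v₀) (C₁.rootData hJ) fun s hs => hv s (hJ.1 hs)
  exact ⟨T.sym (C₀.lchar hJ) (C₁.lchar hJ) hc (C₁.rootData hJ).symData, fun hfam P x =>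
    T.sym_symAct (C₀.lchar hJ) (C₁.lchar hJ) hc (C₁.rootData hJ).symData (dvd_levN N p L)
      (fun u => rfl) fam hfL hfam (avoids_down hfam) P x⟩

/-- **Descent of the module special at `q`.** -/
theorem exists_xDesc (B : BaseData O pp p D₀ θ) (hnd : L.Nodup)
    (hL : ∀ i ∈ L, IsTWPrime N p θ α i) (hΔ : IsPGroup pp ΔQ)
    (C₀ : RaiseCtx pp p D₀ (sysIdeal θ) v₀ ε qs)
    (C₁ : RaiseCtx pp p (auxQuot D₀ h) (sysIdeal (sysUpd θ α L)) v ε qs)
    (hv : ∀ s ∈ qs, ZMod.unitsMap (dvd_levN N p L) (v s) = v₀ s) (hJ : IsRaised qs (q :: J))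
    (fam : ι → Op (levN N p L))
    (hfL : ∀ i (l : Nat.Primes), fam i = .hecke l → ∃ j, j ∉ L ∧ p j = (l : ℕ)) :
    ∃ T : Twist.Descent (projRing O ΔA ΔQ) (C₁.xMod hJ).X (C₀.xMod hJ).X,
      ∀ (hfam : RaiseCtx.Avoids fam (q :: J)) P x,
        T.t (C₁.xAct hJ fam hfam P x)
          = C₀.xAct hJ (Op.down (dvd_levN N p L) ∘ fam) (avoids_down hfam) P (T.t x) := by
  have := C₀.fact_head hJ
  have := C₀.neZero hJ.tail
  have := C₁.neZero hJ.tail
  have : NeZero (chainN N (q :: J)) := C₀.neZero hJ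
  have : NeZero (chainN (levN N p L) (q :: J)) := C₁.neZero hJ
  have : NeZero (chainN N J * q) := C₀.neZero hJ
  have : NeZero (chainN (levN N p L) J * q) := C₁.neZero hJ
  have := (C₀.goodJ hJ.tail).moduleFinite
  have := (C₀.goodJ hJ).moduleFinite
  have := (C₁.goodJ hJ).moduleFinite
  have : Module.Finite O (Homs O (GammaH (chainN N J * q) (upH (chainH H₀ J) q))) :=
    (C₀.goodJ hJ).moduleFinite
  have : Module.Finite O (Homs O (GammaH (chainN (levN N p L) J * q)
      (upH (chainH (auxH D₀ (dvd_levN N p L) χQ) J) q))) := (C₁.goodJ hJ).moduleFinite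
  have hr := C₀.rootData hJ
  obtain ⟨T⟩ := exists_natDescent_chain B hnd hL hΔ h hr.good hr.family
  have hc := ctrlData_chain (v₀ := v₀) (C₁.rootData hJ) fun s hs => hv s (hJ.1 hs)
  refine ⟨(NatDescent.newDescent T (C₀.lchar hJ.tail) (C₁.lchar hJ.tail) hc hr.stepData
    (C₁.rootData hJ).stepData (C₀.goodJ hJ.tail) (C₀.goodJ hJ) (C₁.goodJ hJ.tail) (C₁.goodJ hJ)
    C₀.nonEis C₁.nonEis :), fun hfam P x => ?_⟩
  exact NatDescent.newDescent_newAct T (C₀.lchar hJ.tail) (C₁.lchar hJ.tail) hc hr.stepData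
    (C₁.rootData hJ).stepData (C₀.goodJ hJ.tail) (C₀.goodJ hJ) (C₁.goodJ hJ.tail) (C₁.goodJ hJ)
    C₀.nonEis C₁.nonEis (dvd_levN N p L) (fun u => rfl) fam hfL hfam P x

end Aux

end Fermat.HM
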