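import Fermat.Agent.HM.GroupRingFree
import Fermat.Agent.HM.Twist

/-!
# Algebra over group rings of `p`-groups: summands, split injections, descent to summands

Among them are `isLocalRing_monoidAlgebra`, `free_range_of_idem`, `Descent.range` and
`Descent.quotient`.
-/

namespace Fermat.HM

section Local

variable {O : Type} [CommRing O] [IsLocalRing O] {p : ℕ} [hp : Fact p.Prime] {Δ : Type}
  [CommGroup Δ] [Finite Δ]

/-- The only maximal ideal of the group ring is the preimage of that of `O` under augmentation. -/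
theorem maximal_eq_ker_aug (hpm : (p : O) ∈ IsLocalRing.maximalIdeal O) (hΔ : IsPGroup p Δ)
    {P : Ideal (MonoidAlgebra O Δ)} (hP : P.IsMaximal) :
    P = RingHom.ker ((IsLocalRing.residue O).comp (aug O Δ : MonoidAlgebra O Δ →+* O)) := by
  symm
  have := RingHom.ker_isMaximal_of_surjective
    ((IsLocalRing.residue O).comp (aug O Δ : MonoidAlgebra O Δ →+* O))
    (IsLocalRing.residue_surjective.comp fun c => ⟨algebraMap O _ c, (aug O Δ).commutes c⟩)
  refine Ideal.IsMaximal.eq_of_le ‹_› hP.ne_top fun a ha => ?_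
  have hjac : Ideal.jacobson (⊥ : Ideal (MonoidAlgebra O Δ)) ≤ P := sInf_le ⟨bot_le, hP⟩
  have h1 : algebraMap O (MonoidAlgebra O Δ) (aug O Δ a) ∈ P :=
    hjac (map_maximalIdeal_le_jacobson (Ideal.mem_map_of_mem _
      ((IsLocalRing.residue_eq_zero_iff _).mp ha)))
  have h2 := hjac (span_augSet_le_jacobson hpm hΔ (sub_aug_mem a))
  simpa using add_mem h2 h1

/-- The group ring of a `p`-group over a local ring of residue characteristic `p` is local. -/
theorem isLocalRing_monoidAlgebra (hpm : (p : O) ∈ IsLocalRing.maximalIdeal O)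
    (hΔ : IsPGroup p Δ) : IsLocalRing (MonoidAlgebra O Δ) :=
  IsLocalRing.of_unique_max_ideal ⟨_, RingHom.ker_isMaximal_of_surjective
    ((IsLocalRing.residue O).comp (aug O Δ : MonoidAlgebra O Δ →+* O))
    (IsLocalRing.residue_surjective.comp fun c => ⟨algebraMap O _ c, (aug O Δ).commutes c⟩),
    fun _ hP => maximal_eq_ker_aug hpm hΔ hP⟩

/-- An element of the group ring is in the maximal ideal when its augmentation is. -/
theorem mem_maximalIdeal_monoidAlgebra (hpm : (p : O) ∈ IsLocalRing.maximalIdeal O)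
    (hΔ : IsPGroup p Δ) [IsLocalRing (MonoidAlgebra O Δ)] {a : MonoidAlgebra O Δ} :
    a ∈ IsLocalRing.maximalIdeal (MonoidAlgebra O Δ) ↔ aug O Δ a ∈ IsLocalRing.maximalIdeal O := by
  rw [maximal_eq_ker_aug hpm hΔ (IsLocalRing.maximalIdeal.isMaximal _), RingHom.mem_ker]
  exact IsLocalRing.residue_eq_zero_iff _

/-- The norm element. -/
noncomputable def normElt (O : Type) [CommRing O] (Δ : Type) [CommGroup Δ] [Fintype Δ] :
    MonoidAlgebra O Δ :=
  ∑ δ, MonoidAlgebra.of O Δ δ

omit [IsLocalRing O] hp [Finite Δ] in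
/-- Group elements fix the norm element. -/
theorem of_mul_normElt [Fintype Δ] (δ : Δ) :
    MonoidAlgebra.of O Δ δ * normElt O Δ = normElt O Δ := by
  simp only [normElt, Finset.mul_sum, ← map_mul]
  exact Fintype.sum_bijective _ (Group.mulLeft_bijective δ) _ _ fun _ => rfl

omit [IsLocalRing O] hp in
/-- The group ring acts on the norm element through the augmentation. -/
theorem mul_normElt [Fintype Δ] (a : MonoidAlgebra O Δ) :
    a * normElt O Δ = algebraMap O _ (aug O Δ a) * normElt O Δ := by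
  rw [← sub_eq_zero, ← sub_mul]
  have key : ∀ b ∈ Ideal.span (augSet O Δ), b * normElt O Δ = 0 := fun b hb => by
    induction hb using Submodule.span_induction with
    | mem b hb => obtain ⟨δ, rfl⟩ := hb; rw [sub_mul, of_mul_normElt, one_mul, sub_self]
    | zero => rw [zero_mul]
    | add b c _ _ hb hc => rw [add_mul, hb, hc, add_zero]
    | smul c b _ hb => rw [smul_eq_mul, mul_assoc, hb, mul_zero]
  exact key _ (sub_aug_mem a)

/-- A direct summand of a finite free module is free. -/
theorem free_range_of_idem (hpm : (p : O) ∈ IsLocalRing.maximalIdeal O) (hΔ : IsPGroup p Δ)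
    {X : Type} [AddCommGroup X] [Module (MonoidAlgebra O Δ) X]
    [Module.Free (MonoidAlgebra O Δ) X] [Module.Finite (MonoidAlgebra O Δ) X]
    (e : X →ₗ[MonoidAlgebra O Δ] X) (he : ∀ x, e (e x) = e x) :
    Module.Free (MonoidAlgebra O Δ) (LinearMap.range e) ∧
      Module.Finite (MonoidAlgebra O Δ) (LinearMap.range e) := by
  have := isLocalRing_monoidAlgebra hpm hΔ
  have : Module.Finite (MonoidAlgebra O Δ) (LinearMap.range e) := Module.Finite.range e
  have : Module.Projective (MonoidAlgebra O Δ) (LinearMap.range e) :=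
    Module.Projective.of_split (LinearMap.range e).subtype e.rangeRestrict
      (LinearMap.ext fun x => Subtype.ext (by
        obtain ⟨y, hy⟩ := x.2
        change e x = x
        rw [← hy, he]))
  exact ⟨Module.free_of_flat_of_isLocalRing, inferInstance⟩

/-- Injectivity modulo the maximal ideal of `O` gives a left inverse. -/
theorem exists_leftInverse_of_inj_mod
    (hpm : (p : O) ∈ IsLocalRing.maximalIdeal O) (hΔ : IsPGroup p Δ)
    {X Y : Type} [AddCommGroup X] [Module O X] [Module (MonoidAlgebra O Δ) X]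
    [IsScalarTower O (MonoidAlgebra O Δ) X]
    [Module.Free (MonoidAlgebra O Δ) X] [Module.Finite (MonoidAlgebra O Δ) X]
    [AddCommGroup Y] [Module O Y] [Module (MonoidAlgebra O Δ) Y]
    [IsScalarTower O (MonoidAlgebra O Δ) Y] [Module.Finite (MonoidAlgebra O Δ) Y]
    [Module.Free (MonoidAlgebra O Δ) Y] (f : X →ₗ[MonoidAlgebra O Δ] Y)
    (hf : ∀ x, f x ∈ IsLocalRing.maximalIdeal O • (⊤ : Submodule O Y) →
      x ∈ IsLocalRing.maximalIdeal O • (⊤ : Submodule O X)) :
    ∃ g : Y →ₗ[MonoidAlgebra O Δ] X, g.comp f = LinearMap.id := by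
  classical
  have := Fintype.ofFinite Δ
  have := isLocalRing_monoidAlgebra hpm hΔ
  set Λ := MonoidAlgebra O Δ
  set J := IsLocalRing.maximalIdeal Λ with hJ
  set I := IsLocalRing.maximalIdeal O
  have hN : ∀ a ∈ J, ∃ c ∈ I, normElt O Δ * a = algebraMap O Λ c * normElt O Δ := fun a ha =>
    ⟨aug O Δ a, (mem_maximalIdeal_monoidAlgebra hpm hΔ).mp ha, by rw [mul_comm, mul_normElt]⟩
  -- injective modulo `𝔪` gives injective modulo the maximal ideal: multiply by the norm element
  have hker : ∀ x, f x ∈ J • (⊤ : Submodule Λ Y) → x ∈ J • (⊤ : Submodule Λ X) := by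
    intro x hx
    have h1 : normElt O Δ • f x ∈ I • (⊤ : Submodule O Y) := by
      refine Submodule.smul_induction_on hx (fun a ha y _ => ?_) fun y z h1 h2 => by
        rw [smul_add]; exact add_mem h1 h2
      obtain ⟨c, hc, e⟩ := hN a ha
      rw [smul_smul, e, mul_smul, algebraMap_smul]
      exact Submodule.smul_mem_smul hc Submodule.mem_top
    rw [← map_smul] at h1
    have h2 := mem_map_algebraMap_smul (Δ := Δ) I (hf _ h1)
    set b := Module.Free.chooseBasis Λ X
    have := Fintype.ofFinite (Module.Free.ChooseBasisIndex Λ X)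
    rw [← b.sum_repr x]
    refine sum_mem fun j _ => Submodule.smul_mem_smul ?_ Submodule.mem_top
    have h3 : b.coord j (normElt O Δ • x) ∈ Ideal.map (algebraMap O Λ) I := by
      have h4 : b.coord j (normElt O Δ • x) ∈
          Submodule.map (b.coord j) (Ideal.map (algebraMap O Λ) I • ⊤) := ⟨_, h2, rfl⟩
      rw [Submodule.map_smul''] at h4
      have h5 := Submodule.smul_mono le_rfl (le_top (a := Submodule.map (b.coord j) ⊤)) h4
      rwa [smul_eq_mul, Ideal.mul_top] at h5
    rw [map_smul, smul_eq_mul, Module.Basis.coord_apply, mul_comm, mul_normElt] at h3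
    have h6 := coeff_mem_of_mem_map h3 (1 : Δ)
    refine (mem_maximalIdeal_monoidAlgebra hpm hΔ).mpr ?_
    have h7 : MonoidAlgebra.coeff (normElt O Δ) (1 : Δ) = 1 := by
      simp [normElt, MonoidAlgebra.of_apply, MonoidAlgebra.coeff_sum, MonoidAlgebra.coeff_single,
        Finsupp.single_apply]
    simp [MonoidAlgebra.coe_algebraMap, MonoidAlgebra.coeff_single_mul_apply, h7] at h6
    exact h6
  -- a map of free modules injective on residue fields splits
  refine ((IsLocalRing.split_injective_iff_lTensor_residueField_injective f).mpr ?_)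
  rw [injective_iff_map_eq_zero]
  intro t ht
  obtain ⟨x, rfl⟩ := TensorProduct.mk_surjective Λ X (IsLocalRing.ResidueField Λ)
    IsLocalRing.residue_surjective t
  rw [TensorProduct.mk_apply, LinearMap.lTensor_tmul] at ht
  rw [TensorProduct.mk_apply]
  have e : ∀ {Z : Type} [AddCommGroup Z] [Module Λ Z] (z : Z),
      (1 : IsLocalRing.ResidueField Λ) ⊗ₜ[Λ] z = 0 ↔ z ∈ J • (⊤ : Submodule Λ Z) :=
        fun {Z} _ _ z => by
    refine Iff.trans ?_ (Submodule.Quotient.mk_eq_zero _)
    rw [← show TensorProduct.quotTensorEquivQuotSMul Z J ((Ideal.Quotient.mk J (1 : Λ)) ⊗ₜ[Λ] z)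
      = Submodule.Quotient.mk z from
        (TensorProduct.quotTensorEquivQuotSMul_mk_tmul J 1 z).trans (by rw [one_smul])]
    exact ((TensorProduct.quotTensorEquivQuotSMul Z J).map_eq_zero_iff).symm
  exact (e x).mpr (hker x ((e (f x)).mp ht))

end Local

namespace Twist

variable {O : Type} [CommRing O] {A : Type} [CommRing A] [Algebra O A] {A₀ : Type} [CommRing A₀]
  [Algebra O A₀] {s : A →ₐ[O] A₀} {X X₀ : Type} [AddCommGroup X] [Module A X] [AddCommGroup X₀]
  [Module A₀ X₀]

/-- Descent to a direct summand cut out by compatible idempotents. -/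
noncomputable def Descent.range (D : Descent s X X₀) (e : X →ₗ[A] X) (e₀ : X₀ →ₗ[A₀] X₀)
    (he : ∀ x, e (e x) = e x)
    (hc : ∀ x, D.t (e x) = e₀ (D.t x)) :
    Descent s (LinearMap.range e) (LinearMap.range e₀) where
  t := (D.t.comp (LinearMap.range e).subtype.toAddMonoidHom).codRestrict
    (LinearMap.range e₀) fun x => by
      obtain ⟨y, hy⟩ := x.2
      exact ⟨D.t y, by rw [← hc, hy]; rfl⟩
  map_smul a x := Subtype.ext (D.map_smul a x)
  surj y := by
    obtain ⟨z, hz⟩ := y.2
    obtain ⟨x, rfl⟩ := D.surj z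
    exact ⟨⟨e x, x, rfl⟩, Subtype.ext ((hc x).trans hz)⟩
  surjS := D.surjS
  ker_le x hx := by
    have h1 : (x : X) ∈ RingHom.ker s • (⊤ : Submodule A X) := D.ker_le _ (congrArg Subtype.val hx)
    have h2 : e.rangeRestrict (x : X) ∈ Submodule.map e.rangeRestrict (RingHom.ker s • ⊤) :=
      ⟨_, h1, rfl⟩
    rw [Submodule.map_smul''] at h2
    obtain ⟨y, hy⟩ := x.2
    have h3 : e.rangeRestrict (x : X) = x := Subtype.ext (show e x = x by rw [← hy, he])
    exact h3 ▸ Submodule.smul_mono le_rfl le_top h2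

/-- Descent to the cokernels of compatible maps. -/
noncomputable def Descent.quotient {Y Y₀ : Type} [AddCommGroup Y] [Module A Y] [AddCommGroup Y₀]
    [Module A₀ Y₀] (D : Descent s X X₀) (D' : Descent s Y Y₀) (f : X →ₗ[A] Y)
    (f₀ : X₀ →ₗ[A₀] Y₀) (hc : ∀ x, D'.t (f x) = f₀ (D.t x)) :
    Descent s (Y ⧸ LinearMap.range f) (Y₀ ⧸ LinearMap.range f₀) where
  t := QuotientAddGroup.lift (LinearMap.range f).toAddSubgroup
    ((LinearMap.range f₀).mkQ.toAddMonoidHom.comp D'.t) fun y hy => by
      obtain ⟨x, rfl⟩ := hy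
      rw [AddMonoidHom.mem_ker, AddMonoidHom.comp_apply, hc]
      exact (Submodule.Quotient.mk_eq_zero _).mpr ⟨_, rfl⟩
  map_smul a y := by
    obtain ⟨y, rfl⟩ := Submodule.Quotient.mk_surjective _ y
    change Submodule.Quotient.mk (D'.t (a • y)) = s a • Submodule.Quotient.mk (D'.t y)
    rw [D'.map_smul, Submodule.Quotient.mk_smul]
  surj y₀ := by
    obtain ⟨y₀, rfl⟩ := Submodule.Quotient.mk_surjective _ y₀
    obtain ⟨y, rfl⟩ := D'.surj y₀
    exact ⟨Submodule.Quotient.mk y, rfl⟩
  surjS := D.surjS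
  ker_le y hy := by
    obtain ⟨y, rfl⟩ := Submodule.Quotient.mk_surjective _ y
    obtain ⟨x₀, hx₀⟩ := (Submodule.Quotient.mk_eq_zero _).mp hy
    obtain ⟨x, rfl⟩ := D.surj x₀
    have h1 : y - f x ∈ RingHom.ker s • (⊤ : Submodule A Y) :=
      D'.ker_le _ (by rw [map_sub, hc, hx₀, sub_self])
    have h2 : (LinearMap.range f).mkQ (y - f x) ∈
        Submodule.map (LinearMap.range f).mkQ (RingHom.ker s • ⊤) := ⟨_, h1, rfl⟩
    rw [Submodule.map_smul''] at h2
    have h3 : (LinearMap.range f).mkQ (y - f x) = Submodule.Quotient.mk y := by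
      rw [map_sub, Submodule.mkQ_apply, Submodule.mkQ_apply,
        (Submodule.Quotient.mk_eq_zero _).mpr (LinearMap.mem_range_self f x), sub_zero]
    exact h3 ▸ Submodule.smul_mono le_rfl le_top h2

end Twist

end Fermat.HM
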