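import Fermat.Agent.HM.Raise.Step
import Fermat.Agent.HM.Raise.Algebra
import Fermat.Agent.HM.LocMod
import Fermat.Agent.HM.TWDescent

/-!
# The summands cut out by symmetrised Atkin-Lehner involutions

At a level over `M₀` whose diamond group is the quotient of `χ₀`, and for a list `J` of primes with
signs `ε`, the summand `symMod` of the localised module is where each `wTw s` is `ε s`.  Its systems
are unramified or special of sign given by `ε s` at each `s ∈ J`.
-/

set_option linter.overlappingInstances false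

namespace Fermat.HM

open scoped MatrixGroups
open MvPolynomial Fermat.MC.Lvl

variable {M₀ : ℕ} {Δ : Type} [CommGroup Δ]

/-- A diamond quotient given by a character modulo `M₀`. -/
structure LevelChar (χ₀ : (ZMod M₀)ˣ →* Δ) {M : ℕ} {H : Subgroup (ZMod M)ˣ}
    (D : DiamondQuot M ⊤ H Δ) : Prop where
  /-- The level lies over `M₀`. -/
  lvl : LevelOver M₀ M H
  /-- The quotient map is `χ₀` after reduction modulo `M₀`. -/
  chi : ∀ x, D.chiTop x = χ₀ (ZMod.unitsMap lvl.dvd x)

/-- The diamond quotient with one prime added to the level. -/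
noncomputable def DiamondQuot.up {M : ℕ} [NeZero M] {H : Subgroup (ZMod M)ˣ}
    (D : DiamondQuot M ⊤ H Δ) (q : ℕ) [NeZero (M * q)] :
    DiamondQuot (M * q) ⊤ (upH H q) Δ where
  le := le_top
  chi := (D.chiTop.comp (ZMod.unitsMap (dvd_mul_right M q))).comp (Subgroup.subtype ⊤)
  surj := fun d => by
    obtain ⟨a, ha⟩ := D.surj d
    obtain ⟨x, hx⟩ := ZMod.unitsMap_surjective (dvd_mul_right M q) (a : (ZMod M)ˣ)
    refine ⟨⟨x, Subgroup.mem_top x⟩, ?_⟩
    change D.chiTop (ZMod.unitsMap _ x) = d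
    rw [hx]
    exact ha
  ker_iff x := D.chiTop_eq_one _

variable {χ₀ : (ZMod M₀)ˣ →* Δ} {M : ℕ} [NeZero M] {H : Subgroup (ZMod M)ˣ}
  {D : DiamondQuot M ⊤ H Δ}

/-- The character still gives the diamond quotient with a prime added. -/
theorem LevelChar.up (hD : LevelChar χ₀ D) (q : ℕ) [NeZero (M * q)] :
    LevelChar χ₀ (D.up q) :=
  ⟨hD.lvl.up q, fun x => (hD.chi (ZMod.unitsMap _ x)).trans (congrArg χ₀ (by
    rw [← MonoidHom.comp_apply, ZMod.unitsMap_comp]))⟩

/-- The diamond operator of a unit is that of its image in the quotient. -/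
theorem LevelChar.diaOp_eq {R : Type} [CommRing R] (hD : LevelChar χ₀ D) (u : (ZMod M₀)ˣ)
    (φ : Homs R (GammaH M H)) : diaOp hD.lvl u φ = D.dia (χ₀ u) φ := by
  obtain ⟨h1, h2⟩ := (exists_diaLift hD.lvl.dvd u).choose_spec
  have hg : (exists_diaLift hD.lvl.dvd u).choose ∈ GammaH M ⊤ := by rw [GammaH_top]; exact h1
  rw [diaOp, D.pull_gamma0_eq h1 hg]
  congr 2
  change D.chiTop ((diagHom M ⊤ ⟨_, hg⟩ : (⊤ : Subgroup (ZMod M)ˣ)) : (ZMod M)ˣ) = _
  rw [hD.chi]
  refine congrArg χ₀ (Units.ext ?_)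
  rw [ZMod.unitsMap_def, Units.coe_map]
  refine (congrArg (ZMod.castHom hD.lvl.dvd (ZMod M₀)) (coe_diagHom _)).trans ?_
  rw [map_intCast]
  exact h2

omit [NeZero M] in
/-- The character is surjective. -/
theorem LevelChar.exists_eq (hD : LevelChar χ₀ D) (δ : Δ) : ∃ u, χ₀ u = δ := by
  obtain ⟨x, hx⟩ := D.surj δ
  refine ⟨ZMod.unitsMap hD.lvl.dvd (x : (ZMod M)ˣ), ?_⟩
  rw [← hD.chi]
  exact hx

section Lift

variable {O : Type} [CommRing O] [IsLocalRing O] [IsDomain O] [IsDiscreteValuationRing O]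
  [IsAdicComplete (IsLocalRing.maximalIdeal O) O] {σ : Type} {p : σ → ℕ}
  [∀ i, Fact (p i).Prime] {m : Ideal (MvPolynomial σ O)} {M' : ℕ} [NeZero M']
  {H' : Subgroup (ZMod M')ˣ} {D' : DiamondQuot M' ⊤ H' Δ}

/-- A map commuting with the Hecke and diamond operators, on the localised modules. -/
noncomputable def DiamondQuot.LocMod.map (F : Homs O (GammaH M H) →ₗ[O] Homs O (GammaH M' H'))
    (hF : ∀ a x, F (heckeAct O O M H p a x) = heckeAct O O M' H' p a (F x))
    (hFd : ∀ δ x, F (D.dia δ x) = D'.dia δ (F x)) :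
    D.LocMod p m →ₗ[MonoidAlgebra O Δ] D'.LocMod p m where
  toFun x := ⟨⟨F x.val, apply_mem_locPart hF x.val.2⟩⟩
  map_add' x y := DiamondQuot.LocMod.ext_val (map_add F _ _)
  map_smul' a x := by
    induction a using MonoidAlgebra.induction_linear with
    | zero =>
      refine DiamondQuot.LocMod.ext_val ?_
      simp only [zero_smul, DiamondQuot.LocMod.val_zero, ZeroMemClass.coe_zero, map_zero]
    | add f g hf hg =>
      simp only [RingHom.id_apply] at hf hg ⊢
      rw [add_smul, add_smul, ← hf, ← hg]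
      exact DiamondQuot.LocMod.ext_val (map_add F _ _)
    | single δ c =>
      simp only [RingHom.id_apply]
      refine DiamondQuot.LocMod.ext_val ?_
      rw [← MonoidAlgebra.smul_of δ c]
      simp only [smul_assoc, DiamondQuot.LocMod.val_smul, SetLike.val_smul,
        DiamondQuot.LocMod.of_smul]
      rw [D.coe_diaLoc, D'.coe_diaLoc, map_smul, hFd]

omit [IsLocalRing O] [IsDomain O] [IsDiscreteValuationRing O]
  [IsAdicComplete (IsLocalRing.maximalIdeal O) O] in
/-- The induced map of localised modules is given by the map. -/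
theorem DiamondQuot.LocMod.coe_map (F : Homs O (GammaH M H) →ₗ[O] Homs O (GammaH M' H'))
    (hF : ∀ a x, F (heckeAct O O M H p a x) = heckeAct O O M' H' p a (F x))
    (hFd : ∀ δ x, F (D.dia δ x) = D'.dia δ (F x)) (x : D.LocMod p m) :
    ((DiamondQuot.LocMod.map F hF hFd x).val : Homs O (GammaH M' H'))
      = F (x.val : Homs O (GammaH M H)) := rfl

end Lift

section Operators

variable {O : Type} [CommRing O]

open scoped Classical in
/-- The symmetrised involution at `s`, or the identity if `s` is not admissible. -/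
noncomputable def wAll (hH : LevelOver M₀ M H) (v : ℕ → (ZMod M₀)ˣ) (s : ℕ) :
    Module.End O (Homs O (GammaH M H)) :=
  if h : WPrime M₀ M s then wTw hH h (v s) else 1

/-- Half of `1 + ε wTw`. -/
noncomputable def halfProj (hH : LevelOver M₀ M H) (v : ℕ → (ZMod M₀)ˣ) (ε : ℕ → O) (s : ℕ) :
    Module.End O (Homs O (GammaH M H)) :=
  Ring.inverse (2 : O) • (1 + ε s • wAll hH v s)

/-- The product of the half projectors. -/
noncomputable def symProj (hH : LevelOver M₀ M H) (v : ℕ → (ZMod M₀)ˣ) (ε : ℕ → O) (J : List ℕ) :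
    Module.End O (Homs O (GammaH M H)) :=
  (J.map (halfProj hH v ε)).prod

/-- The hypotheses on the symmetrised primes. -/
structure SymData (χ₀ : (ZMod M₀)ˣ →* Δ) (v : ℕ → (ZMod M₀)ˣ) (ε : ℕ → O) (M : ℕ)
    (J : List ℕ) : Prop where
  /-- Two is invertible. -/
  two : IsUnit (2 : O)
  /-- Each prime has Atkin-Lehner matrices at level `M`. -/
  wprime : ∀ s ∈ J, WPrime M₀ M s
  /-- The signs square to one. -/
  sign : ∀ s ∈ J, ε s * ε s = 1
  /-- `χ₀ (v s) ^ 2 = χ₀ s` for each of the primes. -/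
  root : ∀ s ∈ J, ∃ u : (ZMod M₀)ˣ, (u : ZMod M₀) * s = 1 ∧ χ₀ (v s * v s * u) = 1

variable (hH : LevelOver M₀ M H) {v : ℕ → (ZMod M₀)ˣ} {ε : ℕ → O}

/-- At an admissible prime the involution is the symmetrised one. -/
theorem wAll_eq {s : ℕ} (h : WPrime M₀ M s) : wAll (O := O) hH v s = wTw hH h (v s) := by
  rw [wAll, dif_pos h]

/-- The involutions commute. -/
theorem wAll_comm (s t : ℕ) (φ : Homs O (GammaH M H)) :
    wAll hH v s (wAll hH v t φ) = wAll hH v t (wAll hH v s φ) := by
  by_cases hs : WPrime M₀ M s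
  · by_cases ht : WPrime M₀ M t
    · simp only [wAll_eq hH hs, wAll_eq hH ht, wTw, Module.End.mul_apply]
      rw [wOp_diaOp, wOp_diaOp, wOp_comm hH hs ht, diaOp_mul, diaOp_mul, mul_comm]
    · simp [wAll, ht]
  · simp [wAll, hs]

/-- The involutions commute with the diamond operators. -/
theorem wAll_diaOp (s : ℕ) (u : (ZMod M₀)ˣ) (φ : Homs O (GammaH M H)) :
    wAll hH v s (diaOp hH u φ) = diaOp hH u (wAll hH v s φ) := by
  by_cases hs : WPrime M₀ M s
  · simp only [wAll_eq hH hs, wTw, Module.End.mul_apply]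
    rw [wOp_diaOp, diaOp_mul, diaOp_mul, mul_comm]
  · simp [wAll, hs]

/-- The involution at `s` commutes with the Hecke operators of the other primes. -/
theorem wAll_heckeT (s : ℕ) {ℓ : ℕ} [Fact ℓ.Prime] (hne : ℓ ≠ s) (φ : Homs O (GammaH M H)) :
    wAll hH v s (heckeT O M H ℓ φ) = heckeT O M H ℓ (wAll hH v s φ) := by
  by_cases hs : WPrime M₀ M s
  · simp only [wAll_eq hH hs, wTw, Module.End.mul_apply]
    rw [← wOp_heckeT _ _ hne, diaOp_heckeT]
  · simp [wAll, hs]

/-- The involution at `s` commutes with the Hecke action away from `s`. -/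
theorem wAll_heckeAct {σ : Type} {p : σ → ℕ} [∀ i, Fact (p i).Prime] (s : ℕ)
    (hp : ∀ i, p i ≠ s) (a : MvPolynomial σ O) (φ : Homs O (GammaH M H)) :
    wAll hH v s (heckeAct O O M H p a φ) = heckeAct O O M H p a (wAll hH v s φ) :=
  intertwine_of_X (wAll hH v s) (fun i x => by
    rw [heckeAct_X, heckeAct_X, wAll_heckeT hH s (hp i)]) a φ

/-- The value of the half projector. -/
theorem halfProj_apply (s : ℕ) (φ : Homs O (GammaH M H)) :
    halfProj hH v ε s φ = Ring.inverse (2 : O) • (φ + ε s • wAll hH v s φ) := rfl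

/-- A map commuting with the involutions of two moduli commutes with the projectors. -/
theorem symProj_comm_modulus {N₀ : ℕ} {M' : ℕ} [NeZero M'] {H' : Subgroup (ZMod M')ˣ}
    (hH' : LevelOver N₀ M' H') {v' : ℕ → (ZMod N₀)ˣ}
    (F : Homs O (GammaH M H) →ₗ[O] Homs O (GammaH M' H')) {J : List ℕ}
    (hF : ∀ s ∈ J, ∀ φ, F (wAll hH v s φ) = wAll hH' v' s (F φ)) (φ : Homs O (GammaH M H)) :
    F (symProj hH v ε J φ) = symProj hH' v' ε J (F φ) := by
  induction J with
  | nil => rfl
  | cons s J ih =>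
    simp only [symProj, List.map_cons, List.prod_cons, Module.End.mul_apply] at ih ⊢
    rw [halfProj_apply, halfProj_apply, map_smul, map_add, map_smul, hF s (List.mem_cons_self ..),
      ih fun t ht => hF t (List.mem_cons_of_mem s ht)]

/-- An operator commuting with all involutions commutes with the projector. -/
theorem symProj_comm {M' : ℕ} [NeZero M'] {H' : Subgroup (ZMod M')ˣ} (hH' : LevelOver M₀ M' H')
    (F : Homs O (GammaH M H) →ₗ[O] Homs O (GammaH M' H')) {J : List ℕ}
    (hF : ∀ s ∈ J, ∀ φ, F (wAll hH v s φ) = wAll hH' v s (F φ)) (φ : Homs O (GammaH M H)) :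
    F (symProj hH v ε J φ) = symProj hH' v ε J (F φ) :=
  symProj_comm_modulus hH hH' F hF φ

/-- The involutions commute with the projector. -/
theorem wAll_symProj (t : ℕ) (J : List ℕ) (φ : Homs O (GammaH M H)) :
    wAll hH v t (symProj hH v ε J φ) = symProj hH v ε J (wAll hH v t φ) :=
  symProj_comm hH hH _ (fun s _ x => wAll_comm hH t s x) φ

end Operators

section Projector

variable {O : Type} [CommRing O] {v : ℕ → (ZMod M₀)ˣ} {ε : ℕ → O} {J : List ℕ}

/-- Under the hypotheses the involutions square to one. -/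
theorem LevelChar.wAll_wAll (hD : LevelChar χ₀ D) (hJ : SymData χ₀ v ε M J) {s : ℕ} (hs : s ∈ J)
    (φ : Homs O (GammaH M H)) : wAll hD.lvl v s (wAll hD.lvl v s φ) = φ := by
  obtain ⟨u, hu, hχ⟩ := hJ.root s hs
  rw [wAll_eq _ (hJ.wprime s hs), wTw_wTw _ _ hu, hD.diaOp_eq, hχ, map_one, Module.End.one_apply]

omit [NeZero M] in
/-- Halving undoes doubling. -/
theorem SymData.smul_two (hJ : SymData χ₀ v ε M J) {X : Type} [AddCommGroup X] [Module O X]
    (x : X) : Ring.inverse (2 : O) • (x + x) = x := by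
  rw [← two_smul O x, smul_smul, Ring.inverse_mul_cancel _ hJ.two, one_smul]

/-- The half projector lands where the involution is its sign. -/
theorem LevelChar.wAll_halfProj (hD : LevelChar χ₀ D) (hJ : SymData χ₀ v ε M J) {s : ℕ}
    (hs : s ∈ J) (φ : Homs O (GammaH M H)) :
    wAll hD.lvl v s (halfProj hD.lvl v ε s φ) = ε s • halfProj hD.lvl v ε s φ := by
  rw [halfProj_apply, map_smul, map_add, map_smul, hD.wAll_wAll hJ hs,
    smul_comm (ε s) (Ring.inverse (2 : O)), smul_add (ε s), smul_smul (ε s), hJ.sign s hs, one_smul,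
    add_comm]

/-- The projector lands where every involution of the list is its sign. -/
theorem LevelChar.wAll_symProj_eq (hD : LevelChar χ₀ D) (hJ : SymData χ₀ v ε M J) :
    ∀ {L : List ℕ}, L ⊆ J → ∀ {s : ℕ}, s ∈ L → ∀ φ : Homs O (GammaH M H),
      wAll hD.lvl v s (symProj hD.lvl v ε L φ) = ε s • symProj hD.lvl v ε L φ := by
  intro L
  induction L with
  | nil => intro _ s hs; exact absurd hs List.not_mem_nil
  | cons t L ih =>
    intro hLJ s hs φ
    simp only [symProj, List.map_cons, List.prod_cons, Module.End.mul_apply] at ih ⊢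
    rcases List.mem_cons.mp hs with rfl | hs'
    · exact hD.wAll_halfProj hJ (hLJ hs) _
    · rw [halfProj_apply, map_smul, map_add, map_smul, wAll_comm _ s t,
        ih (List.subset_of_cons_subset hLJ) hs', map_smul]
      module

/-- The projector fixes what has all these signs. -/
theorem LevelChar.symProj_eq_self (hD : LevelChar χ₀ D) (hJ : SymData χ₀ v ε M J) :
    ∀ {L : List ℕ}, L ⊆ J → ∀ {φ : Homs O (GammaH M H)},
      (∀ s ∈ L, wAll hD.lvl v s φ = ε s • φ) → symProj hD.lvl v ε L φ = φ := by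
  intro L
  induction L with
  | nil => intros; rfl
  | cons t L ih =>
    intro hLJ φ h
    simp only [symProj, List.map_cons, List.prod_cons, Module.End.mul_apply] at ih ⊢
    rw [ih (List.subset_of_cons_subset hLJ) fun s hs => h s (List.mem_cons_of_mem t hs),
      halfProj_apply, h t (List.mem_cons_self ..), smul_smul,
      hJ.sign t (hLJ (List.mem_cons_self ..)),
      one_smul, hJ.smul_two]

/-- The projector is idempotent. -/
theorem LevelChar.symProj_idem (hD : LevelChar χ₀ D) (hJ : SymData χ₀ v ε M J)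
    (φ : Homs O (GammaH M H)) :
    symProj hD.lvl v ε J (symProj hD.lvl v ε J φ) = symProj hD.lvl v ε J φ :=
  hD.symProj_eq_self hJ (List.Subset.refl J) fun _ hs =>
    hD.wAll_symProj_eq hJ (List.Subset.refl J) hs φ

end Projector

section Modules

variable {O : Type} [CommRing O] [IsLocalRing O] [IsDomain O] [IsDiscreteValuationRing O]
  [IsAdicComplete (IsLocalRing.maximalIdeal O) O] {σ : Type} {p : σ → ℕ}
  [∀ i, Fact (p i).Prime] (m : Ideal (MvPolynomial σ O))
  {v : ℕ → (ZMod M₀)ˣ} (ε : ℕ → O) {J : List ℕ}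

/-- The projector on the localised module. -/
noncomputable def symEnd (hD : LevelChar χ₀ D) (v : ℕ → (ZMod M₀)ˣ) (J : List ℕ)
    (hp : ∀ s ∈ J, ∀ i, p i ≠ s) :
    D.LocMod p m →ₗ[MonoidAlgebra O Δ] D.LocMod p m :=
  DiamondQuot.LocMod.map (symProj hD.lvl v ε J)
    (fun a x => (symProj_comm hD.lvl hD.lvl (heckeAct O O M H p a)
      (fun s hs φ => (wAll_heckeAct hD.lvl s (hp s hs) a φ).symm) x).symm)
    (fun δ x => by
      obtain ⟨u, rfl⟩ := hD.exists_eq δ
      rw [← hD.diaOp_eq, ← hD.diaOp_eq]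
      exact (symProj_comm hD.lvl hD.lvl (diaOp hD.lvl u)
        (fun s _ φ => (wAll_diaOp hD.lvl s u φ).symm) x).symm)

/-- **The symmetrised, or union-type, module**: where every involution of `J` is its sign. -/
noncomputable abbrev symMod (hD : LevelChar χ₀ D) (v : ℕ → (ZMod M₀)ˣ) (J : List ℕ)
    (hp : ∀ s ∈ J, ∀ i, p i ≠ s) : Submodule (MonoidAlgebra O Δ) (D.LocMod p m) :=
  LinearMap.range (symEnd m ε hD v J hp)

variable {m ε}

omit [IsLocalRing O] [IsDomain O] [IsDiscreteValuationRing O]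
  [IsAdicComplete (IsLocalRing.maximalIdeal O) O] in
/-- The projector on the localised module is idempotent. -/
theorem symEnd_idem (hD : LevelChar χ₀ D) (hJ : SymData χ₀ v ε M J)
    (hp : ∀ s ∈ J, ∀ i, p i ≠ s) (x : D.LocMod p m) :
    symEnd m ε hD v J hp (symEnd m ε hD v J hp x) = symEnd m ε hD v J hp x :=
  DiamondQuot.LocMod.ext_val (hD.symProj_idem hJ _)

omit [IsLocalRing O] [IsDomain O] [IsDiscreteValuationRing O]
  [IsAdicComplete (IsLocalRing.maximalIdeal O) O] in
/-- An element lies in `symMod` exactly when every involution of the list acts on it by its sign. -/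
theorem mem_symMod_iff (hD : LevelChar χ₀ D) (hJ : SymData χ₀ v ε M J)
    (hp : ∀ s ∈ J, ∀ i, p i ≠ s) (x : D.LocMod p m) :
    x ∈ symMod m ε hD v J hp ↔ ∀ s ∈ J,
      wAll hD.lvl v s (x.val : Homs O (GammaH M H)) = ε s • (x.val : Homs O (GammaH M H)) := by
  constructor
  · rintro ⟨y, rfl⟩ s hs
    exact hD.wAll_symProj_eq hJ (List.Subset.refl J) hs _
  · exact fun h => ⟨x, DiamondQuot.LocMod.ext_val (hD.symProj_eq_self hJ (List.Subset.refl J) h)⟩

/-- **The union-type module is free.** The summand `symMod` is finite free over the diamond group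
ring at a non-Eisenstein ideal. -/
theorem free_symMod {pp : ℕ} [Fact pp.Prime] (hpm : (pp : O) ∈ IsLocalRing.maximalIdeal O)
    [Finite Δ] (hΔ : IsPGroup pp Δ) (hΓ₀ : GoodLevel O (GammaH M ⊤))
    (hΓ : GoodLevel O (GammaH M H)) [m.IsMaximal] (hne : NonEisenstein p m)
    (hD : LevelChar χ₀ D) (hJ : SymData χ₀ v ε M J) (hp : ∀ s ∈ J, ∀ i, p i ≠ s) :
    Module.Free (MonoidAlgebra O Δ) (symMod m ε hD v J hp) ∧
      Module.Finite (MonoidAlgebra O Δ) (symMod m ε hD v J hp) := by
  obtain ⟨_, _⟩ := DiamondQuot.LocMod.free (D := D) hpm hΔ hΓ₀ hΓ hne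
  exact free_range_of_idem hpm hΔ _ (symEnd_idem hD hJ hp)

end Modules

end Fermat.HM
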