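import Fermat.Agent.HM.Raise.FormPoints
import Fermat.Agent.HM.Raise.Module

/-!
# Separation of points on the symmetrised modules

Let `J` be primes not dividing `M₀` and `x` a homomorphism of level `M₀ ∏ J` at a non-Eisenstein
ideal which is fixed, up to the sign, by the symmetrised involutions of `J` and on which
`v U + ε` vanishes at the primes of `T ⊆ J`.  An operator `h` kills `x` once, for all `T ⊆ T' ⊆ J`,
it vanishes at the eigenforms of level `M₀ ∏ T'` on which `v U + ε` vanishes at all primes of `T'`.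
-/

namespace Fermat.HM

open scoped MatrixGroups
open MvPolynomial Fermat.MC.Lvl

section OneStep

variable {M₀ K : ℕ} [NeZero K] {H : Subgroup (ZMod K)ˣ} {O : Type} [CommRing O]
  {v : ℕ → (ZMod M₀)ˣ} {ε : ℕ → O}

/-- The operator `v U + ε` at a prime. -/
noncomputable def tPoly (v : ℕ → (ZMod M₀)ˣ) (ε : ℕ → O) (t : Nat.Primes) :
    MvPolynomial (Op M₀) O :=
  X (.dia (v t)) * X (.hecke t) + C (ε t)

/-- The value of `v U + ε`. -/
theorem opsAct_tPoly (hH : LevelOver M₀ K H) (t : Nat.Primes) (x : Homs O (GammaH K H)) :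
    opsAct O O hH id (tPoly v ε t) x
      = diaOp hH (v t) (opLin O hH (.hecke t) x) + ε t • x := by
  rw [tPoly, map_add, map_mul, LinearMap.add_apply, Module.End.mul_apply,
    ← MvPolynomial.algebraMap_eq, AlgHom.commutes, Module.algebraMap_end_apply, opsAct_X,
    opsAct_X]
  rfl

/-- The involution commutes with operators away from its prime. -/
theorem wAll_opsAct (hH : LevelOver M₀ K H) (s : ℕ) {ι : Type} (fam : ι → Op M₀)
    (hfam : ∀ i (l : Nat.Primes), fam i = .hecke l → (l : ℕ) ≠ s) (P : MvPolynomial ι O)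
    (x : Homs O (GammaH K H)) :
    wAll hH v s (opsAct O O hH fam P x) = opsAct O O hH fam P (wAll hH v s x) :=
  intertwine_of_X (wAll hH v s) (fun i y => by
    rw [opsAct_X, opsAct_X]
    cases h : fam i with
    | hecke l =>
      have : Fact (l : ℕ).Prime := ⟨l.2⟩
      exact wAll_heckeT hH s (hfam i l h) y
    | dia u => exact wAll_diaOp hH s u y) P x

/-- The operators preserve the local part. -/
theorem opsAct_mem_locPart (hH : LevelOver M₀ K H) {σ : Type} {p : σ → ℕ}
    [hp : ∀ i, Fact (p i).Prime] {m : Ideal (MvPolynomial σ O)} {ι : Type} (fam : ι → Op M₀)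
    (P : MvPolynomial ι O) {x : Homs O (GammaH K H)}
    (hx : x ∈ locPart m (heckeAct O O K H p)) :
    opsAct O O hH fam P x ∈ locPart m (heckeAct O O K H p) :=
  apply_mem_locPart (f := opsAct O O hH fam P) (fun a y => intertwine_of_X _ (fun i z => by
    rw [← opsAct_hecke hH p, ← opsAct_hecke hH p, opsAct_X, opsAct_X]
    refine intertwine_of_X (ρ := opsAct O O hH fam) (ρ' := opsAct O O hH fam)
      (opLin O hH (Op.hecke ⟨p i, (hp i).out⟩)) (fun j w => ?_) P z |>.symm
    rw [opsAct_X, opsAct_X]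
    exact LinearMap.congr_fun
      (opLin_comm hH (Op.hecke ⟨p i, (hp i).out⟩) (fam j)) w) a y) hx

/-- The operators commute. -/
theorem opsAct_opsAct_comm (hH : LevelOver M₀ K H) {ι : Type} (fam : ι → Op M₀)
    (P : MvPolynomial ι O) (Q : MvPolynomial (Op M₀) O) (x : Homs O (GammaH K H)) :
    opsAct O O hH id Q (opsAct O O hH fam P x) = opsAct O O hH fam P (opsAct O O hH id Q x) := by
  have key : ∀ y, opsAct O O hH fam P y = opsAct O O hH id (rename fam P) y := fun y =>
    (opsAct_rename hH id fam P y).symm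
  simp only [key]
  rw [← Module.End.mul_apply, ← Module.End.mul_apply, ← map_mul, ← map_mul, mul_comm]

variable [IsDomain O] [CharZero O] {q : ℕ} [hq : Fact q.Prime] [NeZero (K * q)]

/-- The trace commutes with the operators away from its prime. -/
theorem psi_opsAct (hqK : ¬ q ∣ K) (hH : LevelOver M₀ K H) {ι : Type} (fam : ι → Op M₀)
    (hfam : ∀ i (l : Nat.Primes), fam i = .hecke l → (l : ℕ) ≠ q) (P : MvPolynomial ι O)
    (x : Homs O (GammaH (K * q) (upH H q))) :
    psi H hqK (opsAct O O (hH.up q) fam P x) = opsAct O O hH fam P (psi H hqK x) :=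
  intertwine_of_X (psi H hqK) (fun i y => by
    rw [opsAct_X, opsAct_X]
    cases h : fam i with
    | hecke l =>
      have : Fact (l : ℕ).Prime := ⟨l.2⟩
      exact psi_heckeT hqK hH (hfam i l h) y
    | dia u => exact psi_diaOp hqK hH u y) P x

/-- The trace commutes with the involutions of the other primes. -/
theorem wAll_psi_of (hqK : ¬ q ∣ K) (hH : LevelOver M₀ K H) {s : ℕ} (hne : s ≠ q)
    (hw : WPrime M₀ K s) (hw' : WPrime M₀ (K * q) s) (x : Homs O (GammaH (K * q) (upH H q))) :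
    psi H hqK (wAll (hH.up q) v s x) = wAll hH v s (psi H hqK x) := by
  rw [wAll_eq _ hw, wAll_eq _ hw']
  simp only [wTw, Module.End.mul_apply]
  rw [psi_diaOp hqK hH, psi_wOp hqK hH _ _ hne]

omit [IsDomain O] [CharZero O] in
/-- On a symmetrised element killed by the trace, `v U + ε` vanishes. -/
theorem tPoly_eq_zero_of_psi (hqK : ¬ q ∣ K) (hH : LevelOver M₀ K H)
    {x : Homs O (GammaH (K * q) (upH H q))} (hw : wAll (hH.up q) v q x = ε q • x)
    (h : psi H hqK x = 0) :
    opsAct O O (hH.up q) id (tPoly v ε (⟨q, hq.out⟩ : Nat.Primes)) x = 0 := by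
  have e := res_psi hqK x
  rw [h, map_zero, wq_eq_wOp hqK hH] at e
  refine (opsAct_tPoly _ _ _).trans ?_
  change diaOp (hH.up q) (v q) (heckeT O (K * q) (upH H q) q x) + ε q • x = 0
  rw [eq_neg_of_add_eq_zero_left e.symm, map_neg]
  rw [wAll_eq _ (WPrime.self hqK hH.dvd)] at hw
  simp only [wTw, Module.End.mul_apply] at hw
  rw [hw, neg_add_cancel]

end OneStep

section Raised

variable {M₀ : ℕ}

/-- The level subgroup over `M₀`. -/
abbrev lvlH (H₀ : Subgroup (ZMod M₀)ˣ) {K : ℕ} (hd : M₀ ∣ K) : Subgroup (ZMod K)ˣ :=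
  H₀.comap (ZMod.unitsMap hd)

/-- The level subgroup lies over `M₀`. -/
theorem levelOver_lvlH (H₀ : Subgroup (ZMod M₀)ˣ) {K : ℕ} (hd : M₀ ∣ K) :
    LevelOver M₀ K (lvlH H₀ hd) :=
  ⟨hd, fun _ hx => Subgroup.mem_comap.mpr (by rw [hx]; exact one_mem H₀)⟩

/-- Adding a prime keeps the level subgroup of the same form. -/
theorem upH_lvlH (H₀ : Subgroup (ZMod M₀)ˣ) {K : ℕ} (hd : M₀ ∣ K) (q : ℕ) :
    upH (lvlH H₀ hd) q = lvlH H₀ (hd.mul_right q) := by
  rw [upH, lvlH, lvlH, Subgroup.comap_comap, ZMod.unitsMap_comp]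

/-- The level subgroup contains `-1` if the base one does. -/
theorem negMem_lvlH {H₀ : Subgroup (ZMod M₀)ˣ} (h : -1 ∈ H₀) {K : ℕ} (hd : M₀ ∣ K) :
    NegMem (lvlH H₀ hd) := by
  refine ⟨Subgroup.mem_comap.mpr ?_⟩
  convert h
  exact Units.ext (by simp [ZMod.unitsMap_def])

variable {O : Type} [CommRing O]

/-- The data of the raised primes. -/
structure RaisedData (H₀ : Subgroup (ZMod M₀)ˣ) (v : ℕ → (ZMod M₀)ˣ) (ε : ℕ → O)
    (J : Finset Nat.Primes) : Prop where
  /-- `-1` belongs to `H₀`. -/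
  neg_mem : -1 ∈ H₀
  /-- The primes are prime to `M₀`. -/
  not_dvd : ∀ s ∈ J, ¬ (s : ℕ) ∣ M₀
  /-- The Hecke operators are semisimple at every level over `M₀`. -/
  semisimple : ∀ (K : ℕ) [NeZero K] (hd : M₀ ∣ K), HeckeSemisimple K (lvlH H₀ hd)

/-- `h` vanishes at every eigenform of level `M₀ ∏ T` at which `v U + ε` vanishes on `T`. -/
def KillsPoints (H₀ : Subgroup (ZMod M₀)ˣ) (v : ℕ → (ZMod M₀)ˣ) (ε : ℕ → O) {ι : Type}
    (fam : ι → Op M₀) (T : Finset Nat.Primes) (h : MvPolynomial ι O) : Prop :=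
  ∀ (K : ℕ) [NeZero K] (hd : M₀ ∣ K), K = M₀ * ∏ t ∈ T, (t : ℕ) →
    ∀ u : O →+* ℂ, Function.Injective u → ∀ f : CuspForm (GammaH K (lvlH H₀ hd)) 2, f ≠ 0 →
      ∀ μ : Op M₀ → ℂ, (∀ a, formOpOver (levelOver_lvlH H₀ hd) a f = μ a • f) →
        (∀ t ∈ T, u (ε t) + μ (.dia (v t)) * μ (.hecke t) = 0) →
          MvPolynomial.eval₂ u (μ ∘ fam) h = 0

variable [IsDomain O] [CharZero O] {σ : Type} {p : σ → ℕ} [∀ i, Fact (p i).Prime]
  {m : Ideal (MvPolynomial σ O)} {H₀ : Subgroup (ZMod M₀)ˣ} {v : ℕ → (ZMod M₀)ˣ} {ε : ℕ → O}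
  {J : Finset Nat.Primes} {ι : Type}

/-- A raised prime is admissible at the raised level. -/
theorem wPrime_of_mem {T : Finset Nat.Primes} {s : Nat.Primes} (hs : s ∈ T)
    (hnd : ¬ (s : ℕ) ∣ M₀) {K : ℕ} (hK : K = M₀ * ∏ t ∈ T, (t : ℕ)) : WPrime M₀ K s := by
  classical
  have : Fact (s : ℕ).Prime := ⟨s.2⟩
  refine WPrime.of_eq_mul (M' := M₀ * ∏ t ∈ T.erase s, (t : ℕ)) ?_ ?_ (dvd_mul_right _ _)
  · rw [hK, ← Finset.mul_prod_erase T _ hs]
    ring
  · intro h
    rcases s.2.dvd_mul.mp h with h | h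
    · exact hnd h
    · obtain ⟨t, ht, hst⟩ := (Prime.dvd_finsetProd_iff s.2.prime _).mp h
      exact (Finset.mem_erase.mp ht).1
        (Subtype.ext ((Nat.prime_dvd_prime_iff_eq s.2 t.2).mp hst).symm)

open scoped Classical in
/-- Separation by induction on the primes not yet special: an operator vanishing at the raised
eigenforms kills `x`. -/
theorem opsAct_eq_zero_of_raised_aux (hdata : RaisedData H₀ v ε J) (hm : NonEisenstein p m)
    (hp : ∀ s ∈ J, ∀ i, p i ≠ (s : ℕ)) (fam : ι → Op M₀)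
    (hfam : ∀ i (l : Nat.Primes), fam i = .hecke l → ¬ (l : ℕ) ∣ M₀ ∧ l ∉ J)
    {u : O →+* ℂ} (hu : Function.Injective u) (h : MvPolynomial ι O) (n : ℕ) :
    ∀ J' ⊆ J, ∀ T ⊆ J', (J' \ T).card = n → ∀ (K : ℕ) [NeZero K] (hd : M₀ ∣ K),
      K = M₀ * ∏ s ∈ J', (s : ℕ) → ∀ x : Homs O (GammaH K (lvlH H₀ hd)),
      x ∈ locPart m (heckeAct O O K (lvlH H₀ hd) p) →
      (∀ s ∈ J', wAll (levelOver_lvlH H₀ hd) v s x = ε s • x) →
      (∀ t ∈ T, opsAct O O (levelOver_lvlH H₀ hd) id (tPoly v ε t) x = 0) →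
      (∀ T', T ⊆ T' → T' ⊆ J' → KillsPoints H₀ v ε fam T' h) →
      opsAct O O (levelOver_lvlH H₀ hd) fam h x = 0 := by
  induction n using Nat.strong_induction_on with
  | h n ih =>
    intro J' hJ' T hT hn K _ hd hK x hx hw hP hh
    have : NegMem (lvlH H₀ hd) := negMem_lvlH hdata.neg_mem hd
    have hgood : ∀ i (l : Nat.Primes), fam i = .hecke l → ¬ (l : ℕ) ∣ K := by
      intro i l hi hl
      obtain ⟨h1, h2⟩ := hfam i l hi
      rw [hK] at hl
      rcases l.2.dvd_mul.mp hl with h3 | h3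
      · exact h1 h3
      · obtain ⟨t, ht, hlt⟩ := (Prime.dvd_finsetProd_iff l.2.prime _).mp h3
        exact h2 (Subtype.ext ((Nat.prime_dvd_prime_iff_eq l.2 t.2).mp hlt) ▸ hJ' ht)
    by_cases hJT : J' ⊆ T
    · obtain rfl : T = J' := Finset.Subset.antisymm hT hJT
      refine opsAct_eq_zero_of_points fam (hdata.semisimple K hd) (levelOver_lvlH H₀ hd) hgood hm hu
        (fun t : T => tPoly v ε t.1) h (fun u' hu' f hf μ hμ hk => ?_) hx fun t => hP t.1 t.2
      refine hh T (Finset.Subset.refl T) (Finset.Subset.refl T) K hd hK u' hu' f hf μ hμ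
        fun t ht => ?_
      have := hk ⟨t, ht⟩
      simpa [tPoly, add_comm] using this
    · obtain ⟨s, hs, hsT⟩ := Finset.not_subset.mp hJT
      have hsp : Fact (s : ℕ).Prime := ⟨s.2⟩
      have hsne : ∀ i (l : Nat.Primes), fam i = .hecke l → (l : ℕ) ≠ (s : ℕ) := fun i l hi e =>
        (hfam i l hi).2 ((Subtype.ext e : l = s) ▸ hJ' hs)
      have hlt : ((J'.erase s) \ T).card < n ∧ (J' \ insert s T).card < n := by
        have hmem : s ∈ J' \ T := Finset.mem_sdiff.mpr ⟨hs, hsT⟩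
        constructor <;> rw [← hn] <;> refine Finset.card_lt_card ?_ <;>
          rw [Finset.ssubset_iff_of_subset (by intro a; simp +contextual)] <;>
          exact ⟨s, hmem, by simp⟩
      -- the element `h x` is symmetrised and of the type `T`
      set y := opsAct O O (levelOver_lvlH H₀ hd) fam h x with hy
      have hyx : y ∈ locPart m (heckeAct O O K (lvlH H₀ hd) p) := opsAct_mem_locPart _ fam h hx
      have hyw : ∀ r ∈ J', wAll (levelOver_lvlH H₀ hd) v r y = ε r • y := fun r hr => by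
        rw [hy, wAll_opsAct _ _ fam (fun i l hi e => (hfam i l hi).2
          ((Subtype.ext e : l = r) ▸ hJ' hr)), hw r hr, map_smul]
      have hyT : ∀ t ∈ T, opsAct O O (levelOver_lvlH H₀ hd) id (tPoly v ε t) y = 0 := fun t ht => by
        rw [hy, opsAct_opsAct_comm, hP t ht, map_zero]
      suffices hkey : opsAct O O (levelOver_lvlH H₀ hd) id (tPoly v ε s) y = 0 by
        refine opsAct_eq_zero_of_sq fam (hdata.semisimple K hd) (levelOver_lvlH H₀ hd) hgood hm hu
          h hx ?_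
        refine ih _ hlt.2 J' hJ' _ (Finset.insert_subset hs hT) rfl K hd hK y hyx hyw ?_
          fun T' h1 h2 => hh T' ((Finset.subset_insert s T).trans h1) h2
        intro t ht
        rcases Finset.mem_insert.mp ht with rfl | ht
        · exact hkey
        · exact hyT t ht
      -- the level without `s`
      clear_value y
      have hKs : K = (M₀ * ∏ t ∈ J'.erase s, (t : ℕ)) * s := by
        rw [hK, ← Finset.mul_prod_erase J' _ hs]
        ring
      set K' := M₀ * ∏ t ∈ J'.erase s, (t : ℕ) with hK'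
      subst hKs
      have : NeZero K' := ⟨left_ne_zero_of_mul (NeZero.ne (K' * (s : ℕ)))⟩
      have hd' : M₀ ∣ K' := dvd_mul_right _ _
      have hsK' : ¬ (s : ℕ) ∣ K' := by
        intro h'
        rcases s.2.dvd_mul.mp h' with h3 | h3
        · exact hdata.not_dvd s (hJ' hs) h3
        · obtain ⟨t, ht, hst⟩ := (Prime.dvd_finsetProd_iff s.2.prime _).mp h3
          exact (Finset.mem_erase.mp ht).1
            (Subtype.ext ((Nat.prime_dvd_prime_iff_eq s.2 t.2).mp hst).symm)
      suffices key : ∀ HK, HK = upH (lvlH H₀ hd') (s : ℕ) →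
          ∀ (hH : LevelOver M₀ (K' * (s : ℕ)) HK) (x : Homs O (GammaH (K' * (s : ℕ)) HK)),
            x ∈ locPart m (heckeAct O O (K' * (s : ℕ)) HK p) →
            (∀ r ∈ J', wAll hH v r x = ε r • x) →
            (∀ t ∈ T, opsAct O O hH id (tPoly v ε t) x = 0) →
            (∀ r ∈ J', wAll hH v r (opsAct O O hH fam h x) = ε r • opsAct O O hH fam h x) →
              opsAct O O hH id (tPoly v ε s) (opsAct O O hH fam h x) = 0 by
        rw [hy]
        exact key _ (upH_lvlH H₀ hd' s).symm _ x hx hw hP (fun r hr => hy ▸ hyw r hr)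
      clear hy hyx hyw hyT y hx hw hP x
      rintro HK rfl hH x hx hw hP hyw
      refine tPoly_eq_zero_of_psi hsK' (levelOver_lvlH H₀ hd') (hyw s hs) ?_
      rw [psi_opsAct hsK' (levelOver_lvlH H₀ hd') fam hsne]
      refine ih _ hlt.1 (J'.erase s) ((Finset.erase_subset _ _).trans hJ') T
        (fun t ht => Finset.mem_erase.mpr ⟨fun e => hsT (e ▸ ht), hT ht⟩) rfl K' hd' rfl
        (psi (lvlH H₀ hd') hsK' x) ?_ ?_ ?_
        fun T' h1 h2 => hh T' h1 (h2.trans (Finset.erase_subset _ _))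
      · exact apply_mem_locPart (psi_heckeAct hsK' (levelOver_lvlH H₀ hd') (hp s (hJ' hs))) hx
      · intro r hr
        obtain ⟨hne, hr'⟩ := Finset.mem_erase.mp hr
        rw [← wAll_psi_of hsK' (levelOver_lvlH H₀ hd') (fun e => hne (Subtype.ext e))
          (wPrime_of_mem hr (hdata.not_dvd r (hJ' hr')) rfl)
          (wPrime_of_mem hr' (hdata.not_dvd r (hJ' hr')) hK), hw r hr', map_smul]
      · intro t ht
        have hts : (t : ℕ) ≠ s := fun e => hsT ((Subtype.ext e : t = s) ▸ ht)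
        rw [opsAct_tPoly]
        have : Fact (t : ℕ).Prime := ⟨t.2⟩
        have e := congrArg (psi (lvlH H₀ hd') hsK') (hP t ht)
        have hT' : psi (lvlH H₀ hd') hsK' (opLin O hH (.hecke t) x)
            = opLin O (levelOver_lvlH H₀ hd') (.hecke t) (psi (lvlH H₀ hd') hsK' x) :=
          psi_heckeT hsK' (levelOver_lvlH H₀ hd') hts x
        rw [opsAct_tPoly, map_add, map_smul, psi_diaOp hsK' (levelOver_lvlH H₀ hd'), hT',
          map_zero] at e
        exact e

open scoped Classical in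
/-- **Separation of points on the symmetrised homomorphisms.** -/
theorem opsAct_eq_zero_of_raised (hdata : RaisedData H₀ v ε J) (hm : NonEisenstein p m)
    (hp : ∀ s ∈ J, ∀ i, p i ≠ (s : ℕ)) (fam : ι → Op M₀)
    (hfam : ∀ i (l : Nat.Primes), fam i = .hecke l → ¬ (l : ℕ) ∣ M₀ ∧ l ∉ J)
    {u : O →+* ℂ} (hu : Function.Injective u) {T : Finset Nat.Primes} (hT : T ⊆ J)
    (h : MvPolynomial ι O) (hh : ∀ T', T ⊆ T' → T' ⊆ J → KillsPoints H₀ v ε fam T' h)
    {K : ℕ} [NeZero K] (hd : M₀ ∣ K) (hK : K = M₀ * ∏ s ∈ J, (s : ℕ))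
    {x : Homs O (GammaH K (lvlH H₀ hd))}
    (hx : x ∈ locPart m (heckeAct O O K (lvlH H₀ hd) p))
    (hw : ∀ s ∈ J, wAll (levelOver_lvlH H₀ hd) v s x = ε s • x)
    (hP : ∀ t ∈ T, opsAct O O (levelOver_lvlH H₀ hd) id (tPoly v ε t) x = 0) :
    opsAct O O (levelOver_lvlH H₀ hd) fam h x = 0 :=
  opsAct_eq_zero_of_raised_aux hdata hm hp fam hfam hu h _ J (Finset.Subset.refl J) T hT rfl K hd
    hK x hx hw hP hh

end Raised

end Fermat.HM
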