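import Fermat.Agent.HM.Raise.AuxChain
import Fermat.Agent.HM.Raise.Separation

/-!
# Families of operators on the symmetrised modules and their quotients

For a family of labels of operators over the base modulus the module, its symmetrised summand and
the module special at one prime carry an action, and the maps between them and the descent from an
auxiliary level commute with it.
-/

set_option linter.overlappingInstances false
set_option linter.unusedSectionVars false

namespace Fermat.HM

open scoped MatrixGroups
open MvPolynomial Fermat.MC.Lvl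

variable {M₀ : ℕ} {Δ : Type} [CommGroup Δ] {χ₀ : (ZMod M₀)ˣ →* Δ} {M : ℕ} [NeZero M]
  {H : Subgroup (ZMod M)ˣ} {D : DiamondQuot M ⊤ H Δ}
  {O : Type} [CommRing O] [IsLocalRing O] [IsDomain O] [IsDiscreteValuationRing O]
  [IsAdicComplete (IsLocalRing.maximalIdeal O) O] {σ : Type} {p : σ → ℕ}
  [hp' : ∀ i, Fact (p i).Prime] (m : Ideal (MvPolynomial σ O)) {v : ℕ → (ZMod M₀)ˣ} {ε : ℕ → O}
  {J : List ℕ} {ι : Type}

/-- An operator over the base modulus on the localised module. -/
noncomputable def opEnd (hD : LevelChar χ₀ D) (a : Op M₀) :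
    Module.End (MonoidAlgebra O Δ) (D.LocMod p m) :=
  DiamondQuot.LocMod.map (opLin O hD.lvl a)
    (fun P x => intertwine_of_X _ (fun i y => by
      rw [heckeAct_X, heckeAct_X, ← opLin_hecke hD.lvl (p i)]
      exact LinearMap.congr_fun (opLin_comm hD.lvl a (.hecke ⟨p i, (hp' i).out⟩)) y) P x)
    (fun δ x => by
      obtain ⟨u, rfl⟩ := hD.exists_eq δ
      rw [← hD.diaOp_eq, ← hD.diaOp_eq]
      exact LinearMap.congr_fun (opLin_comm hD.lvl a (.dia u)) x)

/-- The operators of the labels commute on the localised module. -/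
theorem opEnd_comm (hD : LevelChar χ₀ D) (a b : Op M₀) :
    opEnd (p := p) m hD a * opEnd m hD b = opEnd m hD b * opEnd m hD a :=
  LinearMap.ext fun x => DiamondQuot.LocMod.ext_val
    (LinearMap.congr_fun (opLin_comm hD.lvl a b) (x.val : Homs O (GammaH M H)))

/-- A family of operators on the localised module. -/
noncomputable def famAct (hD : LevelChar χ₀ D) (fam : ι → Op M₀) :
    MvPolynomial ι O →ₐ[O] Module.End (MonoidAlgebra O Δ) (D.LocMod p m) :=
  commAeval (fun i => opEnd m hD (fam i)) fun i j => opEnd_comm m hD (fam i) (fam j)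

/-- The variable of a label acts as its operator. -/
theorem famAct_X (hD : LevelChar χ₀ D) (fam : ι → Op M₀) (i : ι) :
    famAct (p := p) m hD fam (X i) = opEnd m hD (fam i) :=
  commAeval_X _ _ i

/-- The action on the localised module is the action on homomorphisms. -/
theorem coe_famAct (hD : LevelChar χ₀ D) (fam : ι → Op M₀) (P : MvPolynomial ι O)
    (x : D.LocMod p m) :
    ((famAct m hD fam P x).val : Homs O (GammaH M H))
      = opsAct O O hD.lvl fam P (x.val : Homs O (GammaH M H)) := by
  induction P using MvPolynomial.induction_on generalizing x with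
  | C a =>
    rw [← MvPolynomial.algebraMap_eq, AlgHom.commutes, AlgHom.commutes,
      Module.algebraMap_end_apply, Module.algebraMap_end_apply]
    rfl
  | add P Q hP hQ =>
    rw [map_add, map_add, LinearMap.add_apply, LinearMap.add_apply, ← hP, ← hQ]
    rfl
  | mul_X P i hP =>
    rw [map_mul, map_mul, Module.End.mul_apply, Module.End.mul_apply, hP, famAct_X, opsAct_X]
    rfl

/-- A diamond label acts by its value in the group ring. -/
theorem opEnd_dia (hD : LevelChar χ₀ D) (u : (ZMod M₀)ˣ) (x : D.LocMod p m) :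
    opEnd m hD (.dia u) x = MonoidAlgebra.of O Δ (χ₀ u) • x := by
  refine DiamondQuot.LocMod.ext_val ?_
  rw [DiamondQuot.LocMod.of_smul, D.coe_diaLoc]
  exact hD.diaOp_eq u _

/-- A Hecke label in the family acts as the family does. -/
theorem opEnd_hecke (hD : LevelChar χ₀ D) [m.IsMaximal]
    [Module.Finite O (Homs O (GammaH M H))] (i : σ) (x : D.LocMod p m) :
    opEnd m hD (.hecke ⟨p i, (hp' i).out⟩) x = DiamondQuot.LocMod.act D p m (X i) x := by
  refine DiamondQuot.LocMod.ext_val ?_
  rw [DiamondQuot.LocMod.act_apply, coe_locAct, heckeAct_X, ← opLin_hecke hD.lvl (p i)]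
  rfl

/-- The projector commutes with the action away from its primes. -/
theorem symEnd_famAct (hD : LevelChar χ₀ D) (hp : ∀ s ∈ J, ∀ i, p i ≠ s) (fam : ι → Op M₀)
    (hfam : ∀ i (l : Nat.Primes), fam i = .hecke l → ∀ s ∈ J, (l : ℕ) ≠ s)
    (P : MvPolynomial ι O) (x : D.LocMod p m) :
    symEnd m ε hD v J hp (famAct m hD fam P x) = famAct m hD fam P (symEnd m ε hD v J hp x) := by
  refine DiamondQuot.LocMod.ext_val ?_
  rw [coe_famAct]
  change symProj hD.lvl v ε J _ = opsAct O O hD.lvl fam P (symProj hD.lvl v ε J _)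
  rw [coe_famAct]
  exact (symProj_comm hD.lvl hD.lvl (opsAct O O hD.lvl fam P)
    (fun s hs φ => (wAll_opsAct hD.lvl s fam (fun i l hi => hfam i l hi s hs) P φ).symm) _).symm

/-- The action away from the primes preserves the union-type module. -/
theorem famAct_mem_symMod (hD : LevelChar χ₀ D) (hp : ∀ s ∈ J, ∀ i, p i ≠ s) (fam : ι → Op M₀)
    (hfam : ∀ i (l : Nat.Primes), fam i = .hecke l → ∀ s ∈ J, (l : ℕ) ≠ s)
    (P : MvPolynomial ι O) {x : D.LocMod p m} (hx : x ∈ symMod m ε hD v J hp) :
    famAct m hD fam P x ∈ symMod m ε hD v J hp := by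
  obtain ⟨y, rfl⟩ := hx
  exact ⟨famAct m hD fam P y, symEnd_famAct m hD hp fam hfam P y⟩

/-- **The action on the symmetrised module.** -/
noncomputable def symAct (hD : LevelChar χ₀ D) (hp : ∀ s ∈ J, ∀ i, p i ≠ s) (fam : ι → Op M₀)
    (hfam : ∀ i (l : Nat.Primes), fam i = .hecke l → ∀ s ∈ J, (l : ℕ) ≠ s) :
    MvPolynomial ι O →ₐ[O] Module.End (MonoidAlgebra O Δ) (symMod m ε hD v J hp) where
  toFun P := (famAct m hD fam P).restrict fun _ hx => famAct_mem_symMod m hD hp fam hfam P hx
  map_one' := LinearMap.ext fun x => Subtype.ext (by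
    rw [LinearMap.coe_restrict_apply, map_one]; rfl)
  map_mul' P Q := LinearMap.ext fun x => Subtype.ext (by
    rw [LinearMap.coe_restrict_apply, map_mul]; rfl)
  map_zero' := LinearMap.ext fun x => Subtype.ext (by
    rw [LinearMap.coe_restrict_apply, map_zero]; rfl)
  map_add' P Q := LinearMap.ext fun x => Subtype.ext (by
    rw [LinearMap.coe_restrict_apply, map_add]; rfl)
  commutes' c := LinearMap.ext fun x => Subtype.ext (by
    rw [LinearMap.coe_restrict_apply, AlgHom.commutes]; rfl)

/-- The action on the union-type module is that on the localised module. -/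
theorem coe_symAct (hD : LevelChar χ₀ D) (hp : ∀ s ∈ J, ∀ i, p i ≠ s) (fam : ι → Op M₀)
    (hfam : ∀ i (l : Nat.Primes), fam i = .hecke l → ∀ s ∈ J, (l : ℕ) ≠ s)
    (P : MvPolynomial ι O) (x : symMod m ε hD v J hp) :
    (symAct m hD hp fam hfam P x).1 = famAct m hD fam P x.1 := rfl

/-- The action on the union-type module is that on homomorphisms. -/
theorem coe_coe_symAct (hD : LevelChar χ₀ D) (hp : ∀ s ∈ J, ∀ i, p i ≠ s) (fam : ι → Op M₀)
    (hfam : ∀ i (l : Nat.Primes), fam i = .hecke l → ∀ s ∈ J, (l : ℕ) ≠ s)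
    (P : MvPolynomial ι O) (x : symMod m ε hD v J hp) :
    ((symAct m hD hp fam hfam P x).1.val : Homs O (GammaH M H))
      = opsAct O O hD.lvl fam P (x.1.val : Homs O (GammaH M H)) :=
  coe_famAct m hD fam P x.1

section Step

variable {q : ℕ} [hq : Fact q.Prime] [NeZero (M * q)] (hD : LevelChar χ₀ D)
  (h : StepData χ₀ p v ε M q J) (fam : ι → Op M₀)
  (hfam : ∀ i (l : Nat.Primes), fam i = .hecke l → ∀ s ∈ q :: J, (l : ℕ) ≠ s)

include hfam in
/-- Labels avoiding a list avoid its tail. -/
theorem avoids_tail : ∀ i (l : Nat.Primes), fam i = .hecke l → ∀ s ∈ J, (l : ℕ) ≠ s :=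
  fun i l hi s hs => hfam i l hi s (List.mem_cons_of_mem q hs)

/-- The symmetrised degeneracy map commutes with the operators away from `q`. -/
theorem raiseMap_opsAct (P : MvPolynomial ι O) (x : Homs O (GammaH M H))
    (hne : ∀ i (l : Nat.Primes), fam i = .hecke l → (l : ℕ) ≠ q) :
    raiseMap h.not_dvd hD.lvl (v q) (ε q) (opsAct O O hD.lvl fam P x)
      = opsAct O O (hD.lvl.up q) fam P (raiseMap h.not_dvd hD.lvl (v q) (ε q) x) :=
  intertwine_of_X (raiseMap h.not_dvd hD.lvl (v q) (ε q)) (fun i y => by
    rw [opsAct_X, opsAct_X]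
    cases hi : fam i with
    | hecke l =>
      have : Fact (l : ℕ).Prime := ⟨l.2⟩
      exact raiseMap_heckeT h.not_dvd hD.lvl (v q) (ε q) (hne i l hi) y
    | dia u => exact raiseMap_diaOp h.not_dvd hD.lvl (v q) (ε q) u y) P x

/-- The split injection commutes with the action. -/
theorem alphaSym_symAct (P : MvPolynomial ι O) (x : symMod m ε hD v J h.family_tail) :
    alphaSym m hD h (symAct m hD h.family_tail fam (avoids_tail fam hfam) P x)
      = symAct m (hD.up q) h.family fam hfam P (alphaSym m hD h x) :=
  Subtype.ext (DiamondQuot.LocMod.ext_val (by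
    rw [coe_alphaSym, coe_coe_symAct, coe_coe_symAct, coe_alphaSym]
    exact raiseMap_opsAct hD h fam P _ fun i l hi => hfam i l hi q (List.mem_cons_self ..)))

/-- `t` commutes with the action. -/
theorem tSym_symAct (P : MvPolynomial ι O) (x : symMod m ε hD v J h.family_tail) :
    tSym m hD h (symAct m hD h.family_tail fam (avoids_tail fam hfam) P x)
      = symAct m hD h.family_tail fam (avoids_tail fam hfam) P (tSym m hD h x) := by
  refine Subtype.ext (DiamondQuot.LocMod.ext_val ?_)
  rw [coe_coe_symAct]
  change (diaOp hD.lvl (v q) * heckeT O M H q + (ε q * (q + 1 : ℕ)) • 1 :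
    Module.End O (Homs O (GammaH M H)))
      ((symAct m hD h.family_tail fam (avoids_tail fam hfam) P x).1.val : Homs O (GammaH M H))
    = opsAct O O hD.lvl fam P ((diaOp hD.lvl (v q) * heckeT O M H q + (ε q * (q + 1 : ℕ)) • 1 :
      Module.End O (Homs O (GammaH M H))) (x.1.val : Homs O (GammaH M H)))
  rw [coe_coe_symAct]
  refine intertwine_of_X _ (fun i y => ?_) P _
  simp only [opsAct_X, LinearMap.add_apply, LinearMap.smul_apply, Module.End.mul_apply,
    Module.End.one_apply, map_add, map_smul]
  congr 1
  change opLin O hD.lvl (.dia (v q)) (opLin O hD.lvl (.hecke ⟨q, hq.out⟩)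
      (opLin O hD.lvl (fam i) y))
    = opLin O hD.lvl (fam i)
      (opLin O hD.lvl (.dia (v q)) (opLin O hD.lvl (.hecke ⟨q, hq.out⟩) y))
  exact (congrArg (opLin O hD.lvl (.dia (v q)))
    (LinearMap.congr_fun (opLin_comm hD.lvl (.hecke ⟨q, hq.out⟩) (fam i)) y)).trans
    (LinearMap.congr_fun (opLin_comm hD.lvl (.dia (v q)) (fam i))
      (opLin O hD.lvl (.hecke ⟨q, hq.out⟩) y))

section CharZero

variable [CharZero O]

/-- The surjection commutes with the action. -/
theorem psiSym_symAct (P : MvPolynomial ι O) (x : symMod m ε (hD.up q) v (q :: J) h.family) :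
    psiSym m hD h (symAct m (hD.up q) h.family fam hfam P x)
      = symAct m hD h.family_tail fam (avoids_tail fam hfam) P (psiSym m hD h x) :=
  Subtype.ext (DiamondQuot.LocMod.ext_val (by
    rw [coe_psiSym, coe_coe_symAct, coe_coe_symAct, coe_psiSym]
    exact psi_opsAct h.not_dvd hD.lvl fam (fun i l hi =>
      hfam i l hi q (List.mem_cons_self ..)) P _))

end CharZero

/-- The action on the module special at `q`. -/
noncomputable def newAct : MvPolynomial ι O →ₐ[O] Module.End (MonoidAlgebra O Δ)
    (newMod m hD h) where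
  toFun P := Submodule.mapQ _ _ (symAct m (hD.up q) h.family fam hfam P) (by
    rintro _ ⟨z, rfl⟩
    exact ⟨symAct m hD h.family_tail fam (avoids_tail fam hfam) P z,
      alphaSym_symAct m hD h fam hfam P z⟩)
  map_one' := Submodule.linearMap_qext _ (LinearMap.ext fun x => by simp)
  map_mul' P Q := Submodule.linearMap_qext _ (LinearMap.ext fun x => by simp [map_mul])
  map_zero' := Submodule.linearMap_qext _ (LinearMap.ext fun x => by simp)
  map_add' P Q := Submodule.linearMap_qext _ (LinearMap.ext fun x => by simp [map_add])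
  commutes' c := Submodule.linearMap_qext _ (LinearMap.ext fun x => by
    simp [Module.algebraMap_end_apply])

/-- The projection to the module special at `q` commutes with the action. -/
theorem newAct_mk (P : MvPolynomial ι O) (x : symMod m ε (hD.up q) v (q :: J) h.family) :
    newAct m hD h fam hfam P (Submodule.Quotient.mk x)
      = Submodule.Quotient.mk (symAct m (hD.up q) h.family fam hfam P x) := rfl

/-- The action on the cokernel of `t`. -/
noncomputable def tQuotAct : MvPolynomial ι O →ₐ[O] Module.End (MonoidAlgebra O Δ)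
    (symMod m ε hD v J h.family_tail ⧸ LinearMap.range (tSym m hD h)) where
  toFun P := Submodule.mapQ _ _ (symAct m hD h.family_tail fam (avoids_tail fam hfam) P) (by
    rintro _ ⟨z, rfl⟩
    exact ⟨symAct m hD h.family_tail fam (avoids_tail fam hfam) P z,
      tSym_symAct m hD h fam hfam P z⟩)
  map_one' := Submodule.linearMap_qext _ (LinearMap.ext fun x => by simp)
  map_mul' P Q := Submodule.linearMap_qext _ (LinearMap.ext fun x => by simp [map_mul])
  map_zero' := Submodule.linearMap_qext _ (LinearMap.ext fun x => by simp)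
  map_add' P Q := Submodule.linearMap_qext _ (LinearMap.ext fun x => by simp [map_add])
  commutes' c := Submodule.linearMap_qext _ (LinearMap.ext fun x => by
    simp [Module.algebraMap_end_apply])

/-- **The surjection to the cokernel of `t` commutes with the action.** -/
theorem newToOld_newAct [CharZero O] (P : MvPolynomial ι O) (x : newMod m hD h) :
    newToOld m hD h (newAct m hD h fam hfam P x)
      = tQuotAct m hD h fam hfam P (newToOld m hD h x) := by
  obtain ⟨x, rfl⟩ := Submodule.Quotient.mk_surjective _ x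
  rw [newAct_mk]
  exact congrArg Submodule.Quotient.mk (psiSym_symAct m hD h fam hfam P x)

end Step

end Fermat.HM
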