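import Fermat.Agent.HM.Raise.Chain
import Fermat.Agent.HM.Package

/-!
# The chains over auxiliary levels: roots, good levels, descents

The main result is `exists_natDescent_chain`, descent along the chains for Taylor–Wiles primes.
-/

set_option linter.overlappingInstances false
set_option linter.unusedSectionVars false

namespace Fermat.HM

open scoped MatrixGroups
open Fermat.MC.Lvl

/-- Transport of a level map along an equality of levels. -/
theorem HasLevMap.cast {O : Type} [CommRing O] [IsLocalRing O] [IsDomain O]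
    [IsDiscreteValuationRing O] [IsAdicComplete (IsLocalRing.maximalIdeal O) O]
    {σ : Type} {p : σ → ℕ}
    [∀ i, Fact (p i).Prime] {N : ℕ} [NeZero N] {H : Subgroup (ZMod N)ˣ}
    {θ θ' : σ → IsLocalRing.ResidueField O} {L : List σ} {M M' : ℕ} [NeZero M] [NeZero M']
    [Module.Finite O (Homs O (GammaH N H))] (e : M = M') (hd : N ∣ M) (hd' : N ∣ M')
    [Module.Finite O (Homs O (GammaH M (H.comap (ZMod.unitsMap hd))))]
    [Module.Finite O (Homs O (GammaH M' (H.comap (ZMod.unitsMap hd'))))]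
    (h : HasLevMap p H θ L M (H.comap (ZMod.unitsMap hd)) θ') :
    HasLevMap p H θ L M' (H.comap (ZMod.unitsMap hd')) θ' := by
  subst e
  exact h

/-- Joint surjectivity is kept when a prime is added to both levels. -/
theorem JointSurj.mul_prime {Δ : Type} [CommGroup Δ] {N M q : ℕ} [hq : Fact q.Prime] {hd : N ∣ M}
    {χ : (ZMod M)ˣ →* Δ} (h : JointSurj hd χ) (hqM : ¬ q ∣ M) :
    JointSurj (mul_dvd_mul_right hd q) (χ.comp (ZMod.unitsMap (dvd_mul_right M q))) := by
  intro a d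
  -- lift the component at `N` of `a` to `x` modulo `M`, by hypothesis
  obtain ⟨x, hx, hxd⟩ := h (ZMod.unitsMap (dvd_mul_right N q) a) d
  have hcopM : M.Coprime q := (hq.out.coprime_iff_not_dvd.mpr hqM).symm
  have hcop : N.Coprime q := Nat.Coprime.coprime_dvd_left hd hcopM
  -- by the Chinese remainder theorem take `y` equal to `x` modulo `M` and to `a` modulo `q`
  let e := ZMod.chineseRemainder hcopM
  let b : (ZMod q)ˣ := ZMod.unitsMap (dvd_mul_left q N) a
  obtain ⟨y, hy⟩ : ∃ y : (ZMod (M * q))ˣ, e (y : ZMod (M * q)) = ((x : ZMod M), (b : ZMod q)) :=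
    ⟨Units.map e.symm.toMonoidHom (MulEquiv.prodUnits.symm (x, b)), e.apply_symm_apply _⟩
  have hfst : ∀ z : ZMod (M * q), (e z).1 = ZMod.castHom (dvd_mul_right M q) (ZMod M) z := fun z =>
    RingHom.congr_fun (Subsingleton.elim ((RingHom.fst (ZMod M) (ZMod q)).comp e.toRingHom) _) z
  have hsnd : ∀ z : ZMod (M * q), (e z).2 = ZMod.castHom (dvd_mul_left q M) (ZMod q) z := fun z =>
    RingHom.congr_fun (Subsingleton.elim ((RingHom.snd (ZMod M) (ZMod q)).comp e.toRingHom) _) z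
  have hy₁ : ZMod.unitsMap (dvd_mul_right M q) y = x := by
    refine Units.ext ?_
    rw [ZMod.unitsMap_def, Units.coe_map]
    exact (hfst _).symm.trans (congrArg Prod.fst hy)
  have hy₂ : ZMod.unitsMap (dvd_mul_left q M) y = b := by
    refine Units.ext ?_
    rw [ZMod.unitsMap_def, Units.coe_map]
    exact (hsnd _).symm.trans (congrArg Prod.snd hy)
  -- `y` maps to `a`, checked modulo `N` and modulo `q`, and to `d`
  refine ⟨y, Units.ext ((ZMod.chineseRemainder hcop).injective (Prod.ext ?_ ?_)), ?_⟩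
  · have e1 : ∀ z : ZMod (N * q), (ZMod.chineseRemainder hcop z).1
        = ZMod.castHom (dvd_mul_right N q) (ZMod N) z := fun z => RingHom.congr_fun
      (Subsingleton.elim
        ((RingHom.fst (ZMod N) (ZMod q)).comp (ZMod.chineseRemainder hcop).toRingHom) _) z
    have h1 : ZMod.unitsMap (dvd_mul_right N q) (ZMod.unitsMap (mul_dvd_mul_right hd q) y)
        = ZMod.unitsMap (dvd_mul_right N q) a := by
      rw [← hx, ← hy₁, ← MonoidHom.comp_apply, ← MonoidHom.comp_apply, ZMod.unitsMap_comp,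
        ZMod.unitsMap_comp]
    rw [e1, e1]
    exact congrArg Units.val h1
  · have e2 : ∀ z : ZMod (N * q), (ZMod.chineseRemainder hcop z).2
        = ZMod.castHom (dvd_mul_left q N) (ZMod q) z := fun z => RingHom.congr_fun
      (Subsingleton.elim
        ((RingHom.snd (ZMod N) (ZMod q)).comp (ZMod.chineseRemainder hcop).toRingHom) _) z
    have h2 : ZMod.unitsMap (dvd_mul_left q N) (ZMod.unitsMap (mul_dvd_mul_right hd q) y) = b := by
      rw [← hy₂, ← MonoidHom.comp_apply, ZMod.unitsMap_comp]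
    rw [e2, e2]
    exact congrArg Units.val h2
  · rw [MonoidHom.comp_apply, hy₁, hxd]

/-- Joint surjectivity of the diamond character passes to the chains of good primes. -/
theorem jointSurj_chain {Δ : Type} [CommGroup Δ] {N M : ℕ} {hd : N ∣ M} {χ : (ZMod M)ˣ →* Δ}
    (h : JointSurj hd χ) : ∀ (J : List ℕ), GoodList M J →
      JointSurj (chainN_dvd_chainN hd J) (χ.comp (ZMod.unitsMap (dvd_chainN M J)))
  | [], _ => by
    intro a d
    obtain ⟨x, hx, hxd⟩ := h a d
    refine ⟨x, hx, ?_⟩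
    change χ (ZMod.unitsMap (dvd_refl M) x) = d
    rw [ZMod.unitsMap_self]
    exact hxd
  | q :: J, hJ => by
    have : Fact q.Prime := ⟨(hJ.2 q (List.mem_cons_self ..)).1⟩
    intro a d
    obtain ⟨x, hx, hxd⟩ := (jointSurj_chain h J hJ.tail).mul_prime hJ.head_not_dvd a d
    refine ⟨x, hx, hxd ▸ congrArg χ ?_⟩
    exact (DFunLike.congr_fun (ZMod.unitsMap_comp (dvd_chainN M J) (dvd_mul_right _ q)) x).symm

/-- An element of a `pp`-group is a square when `pp` is odd. -/
theorem exists_sq_eq_of_pgroup {Δ : Type} [CommGroup Δ] {pp : ℕ} [hpp : Fact pp.Prime]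
    (hne : pp ≠ 2) (h : IsPGroup pp Δ) (d : Δ) : ∃ r, r * r = d := by
  obtain ⟨e, he⟩ := h d
  obtain ⟨k, hk⟩ := (hpp.out.odd_of_ne_two hne).pow (n := e)
  refine ⟨d ^ (k + 1), ?_⟩
  rw [← pow_add, show k + 1 + (k + 1) = pp ^ e + 1 by omega, pow_add, he, one_mul, pow_one]

/-- The level structures of the chain contain `-1` if the base one does. -/
theorem neg_mem_chainH {M : ℕ} {H : Subgroup (ZMod M)ˣ} (h : -1 ∈ H) (J : List ℕ) :
    -1 ∈ chainH H J := by
  rw [chainH_eq]
  refine Subgroup.mem_comap.mpr ?_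
  convert h
  exact Units.ext (by simp [ZMod.unitsMap_def])

/-- The members of a chain over a good level are good. -/
theorem GoodLevel.chain {R : Type*} [CommRing R] {M : ℕ} [NeZero M] {H : Subgroup (ZMod M)ˣ}
    (hΓ : GoodLevel R (GammaH M H)) (hneg : -1 ∈ H) (J : List ℕ) [NeZero (chainN M J)] :
    GoodLevel R (GammaH (chainN M J) (chainH H J)) :=
  hΓ.gammaH (dvd_chainN M J) (by rw [chainH_eq]; exact Subgroup.map_comap_le _ _)
    (neg_mem_chainH hneg J)

/-- The members of `Γ₀` type of a chain over a good level are good. -/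
theorem GoodLevel.chainTop {R : Type*} [CommRing R] {M : ℕ} [NeZero M]
    (hΓ : GoodLevel R (GammaH M ⊤)) (J : List ℕ) [NeZero (chainN M J)] :
    GoodLevel R (GammaH (chainN M J) ⊤) :=
  hΓ.gammaH (dvd_chainN M J) le_top (Subgroup.mem_top _)

variable {O : Type} [CommRing O] [IsLocalRing O] [IsDomain O] [IsDiscreteValuationRing O]
  [IsAdicComplete (IsLocalRing.maximalIdeal O) O] [CharZero O] {pp : ℕ} [Fact pp.Prime]
  {σ : Type} {p : σ → ℕ} [hp : ∀ i, Fact (p i).Prime] {N : ℕ} [NeZero N]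
  {H : Subgroup (ZMod N)ˣ} {ΔA : Type} [CommGroup ΔA] {D : DiamondQuot N ⊤ H ΔA}
  {θ : σ → IsLocalRing.ResidueField O} {α : σ → IsLocalRing.ResidueField O} {L : List σ}
  {Δ : Type} [CommGroup Δ] {χQ : (ZMod (levN N p L))ˣ →* Δ} {qs : List ℕ}
  {v₀ : ℕ → (ZMod N)ˣ} {ε : ℕ → O}

/-- A good list avoiding the family stays good at the auxiliary level. -/
theorem goodList_aux (hN : GoodList N qs) (hfam : ∀ s ∈ qs, ∀ i, p i ≠ s) :
    GoodList (levN N p L) qs := by
  refine ⟨hN.1, fun s hs => ⟨(hN.2 s hs).1, fun hd => ?_⟩⟩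
  rw [levN_eq] at hd
  rcases (hN.2 s hs).1.dvd_mul.mp hd with h1 | h1
  · exact (hN.2 s hs).2 h1
  · obtain ⟨a, ha, hsa⟩ := (Prime.dvd_prod_iff (hN.2 s hs).1.prime).mp h1
    obtain ⟨j, -, rfl⟩ := List.mem_map.mp ha
    exact hfam s hs j ((Nat.prime_dvd_prime_iff_eq (hN.2 s hs).1 (hp j).out).mp hsa).symm

/-- **Roots at an auxiliary level**, compatible with those of the base. -/
theorem exists_auxRoot (hpp : pp ≠ 2) (hΔ : IsPGroup pp Δ)
    (h : JointSurj (dvd_levN N p L) χQ) (h₀ : RootData D.chiTop p v₀ ε qs) :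
    ∃ v : ℕ → (ZMod (levN N p L))ˣ, RootData (auxQuot D h).chiTop p v ε qs ∧
      ∀ s ∈ qs, ZMod.unitsMap (dvd_levN N p L) (v s) = v₀ s := by
  classical
  have hgood := goodList_aux (L := L) h₀.good h₀.family
  have key : ∀ s, ∃ x : (ZMod (levN N p L))ˣ, s ∈ qs →
      ZMod.unitsMap (dvd_levN N p L) x = v₀ s ∧ ∃ u : (ZMod (levN N p L))ˣ,
        (u : ZMod (levN N p L)) * s = 1 ∧ (auxQuot D h).chiTop (x * x * u) = 1 := by
    intro s
    by_cases hs : s ∈ qs
    swap
    · exact ⟨1, fun h' => absurd h' hs⟩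
    obtain ⟨u₀, hu₀, hχ₀⟩ := h₀.root s hs
    have hcop : s.Coprime (levN N p L) :=
      (hgood.2 s hs).1.coprime_iff_not_dvd.mpr (hgood.2 s hs).2
    set u : (ZMod (levN N p L))ˣ := (ZMod.unitOfCoprime s hcop)⁻¹
    have hu : (u : ZMod (levN N p L)) * s = 1 := by
      rw [← ZMod.coe_unitOfCoprime s hcop, ← Units.val_mul, inv_mul_cancel, Units.val_one]
    have hu' : ZMod.unitsMap (dvd_levN N p L) u = u₀ := by
      refine Units.ext (left_inv_eq_right_inv ?_ (by rw [mul_comm]; exact hu₀))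
      have e := congrArg (ZMod.castHom (dvd_levN N p L) (ZMod N)) hu
      rwa [map_mul, map_natCast, map_one] at e
    obtain ⟨r, hr⟩ := exists_sq_eq_of_pgroup hpp hΔ (χQ u)⁻¹
    obtain ⟨x, hx, hxr⟩ := h (v₀ s) r
    refine ⟨x, fun _ => ⟨hx, u, hu, ?_⟩⟩
    refine Prod.ext ?_ ?_
    · change D.chiTop (ZMod.unitsMap _ (x * x * u)) = 1
      simp only [map_mul, hx, hu']
      simpa only [map_mul] using hχ₀
    · change χQ (x * x * u) = 1
      simp only [map_mul, hxr, hr, inv_mul_cancel]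
  choose v hv using key
  exact ⟨v, ⟨h₀.two, hgood, h₀.family, h₀.sign, fun s hs => (hv s hs).2⟩, fun s hs => (hv s hs).1⟩

/-- The compatibility of the chains over an auxiliary level and over the base. -/
theorem ctrlData_chain {v : ℕ → (ZMod (levN N p L))ˣ} {J : List ℕ}
    {χ₀ : (ZMod (levN N p L))ˣ →* ΔA × Δ} (hJ : RootData χ₀ p v ε J)
    (hv : ∀ s ∈ J, ZMod.unitsMap (dvd_levN N p L) (v s) = v₀ s) :
    CtrlData χ₀ v v₀ p (chainN N J) (chainN (levN N p L) J) J :=
  ⟨dvd_levN N p L, hv, wprime_chain hJ.good, fun _ hs => mul_dvd_chainN hs, hJ.family⟩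

/-- **Descent along the chains.** For Taylor–Wiles primes the chains over the base and the auxiliary
level are related by natural descents. -/
theorem exists_natDescent_chain [Finite Δ] [Finite ΔA] (B : BaseData O pp p D θ) (hnd : L.Nodup)
    (hL : ∀ i ∈ L, IsTWPrime N p θ α i) [NeZero (levN N p L)] (hΔ : IsPGroup pp Δ)
    (h : JointSurj (dvd_levN N p L) χQ) {J : List ℕ} (hJ : GoodList N J)
    (hfam : ∀ s ∈ J, ∀ i, p i ≠ s) [NeZero (chainN N J)] [NeZero (chainN (levN N p L) J)]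
    [Module.Finite O (Homs O (GammaH (chainN N J) (chainH H J)))]
    [Module.Finite O (Homs O (GammaH (chainN (levN N p L) J)
      (chainH (auxH D (dvd_levN N p L) χQ) J)))] :
    Nonempty (NatDescent p (chainD D J hJ.ne_zero)
      (chainD (auxQuot D h) J hJ.ne_zero) (chainN_dvd_chainN (dvd_levN N p L) J)
      θ (sysUpd θ α L) L) := by
  set Nc := chainN N J
  set Hc := chainH H J
  have hnegH : -1 ∈ Hc := neg_mem_chainH B.neg_mem J
  have hgood : GoodList (levN N p L) J := goodList_aux hJ hfam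
  obtain ⟨e, he⟩ : ∃ e, ∀ u : (ZMod Nc)ˣ, u ^ pp ^ e ∈ Hc := by
    have := Fintype.ofFinite ΔA
    choose f hf using B.pgroup
    refine ⟨∑ a, f a, fun u => ((chainD D J hJ.ne_zero).chiTop_eq_one _).mp ?_⟩
    obtain ⟨c, hc⟩ := pow_dvd_pow pp (Finset.single_le_sum (f := f) (fun _ _ => Nat.zero_le _)
      (Finset.mem_univ ((chainD D J hJ.ne_zero).chiTop u)))
    rw [map_pow, hc, pow_mul, hf, one_pow]
  -- The auxiliary primes stay Taylor-Wiles primes at the chain level.
  have hL' : ∀ i ∈ L, IsTWPrime Nc p θ α i := fun i hi =>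
    ⟨hJ.not_dvd (hp i).out (fun hm => hfam _ hm i rfl) (hL i hi).not_dvd, (hL i hi).ne_zero,
      (hL i hi).root, (hL i hi).simple, (hL i hi).sq⟩
  have := neZero_levN (N := Nc) p L
  have hdvd := chainN_dvd_chainN (dvd_levN N p L) J
  have hΓc : GoodLevel O (GammaH Nc ⊤) := B.good.chainTop J
  have hneg₂ : ∀ {M : ℕ} (hd : Nc ∣ M), -1 ∈ Hc.comap (ZMod.unitsMap hd) := fun hd => by
    refine Subgroup.mem_comap.mpr ?_
    convert hnegH
    exact Units.ext (by simp [ZMod.unitsMap_def])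
  have : Module.Finite O (Homs O (GammaH (levN Nc p L) (levH Hc p L))) :=
    (hΓc.gammaH (dvd_levN Nc p L) le_top (hneg₂ _)).moduleFinite
  have : Module.Finite O (Homs O (GammaH (chainN (levN N p L) J)
      (Hc.comap (ZMod.unitsMap hdvd)))) :=
    (hΓc.gammaH hdvd le_top (hneg₂ _)).moduleFinite
  have hmap := HasLevMap.cast (by simp only [Nc, levN_eq, chainN_eq]; ring)
    (dvd_levN Nc p L) hdvd (hasLevMap_levN B.injective B.nonEis B.pp_mem hΓc hnegH he L hnd hL')
  have hne' := nonEisenstein_sysUpd α L B.nonEis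
  -- Descend at the chain level.
  refine exists_natDescent
    (χQ := χQ.comp (ZMod.unitsMap (dvd_chainN (levN N p L) J))) (fun x => ?_)
    (jointSurj_chain h J hgood) B.pp_mem B.pp_ne B.pgroup hΔ hΓc hne' hmap
  rw [chiTop_chainD]
  refine Prod.ext ?_ rfl
  change D.chiTop (ZMod.unitsMap _ (ZMod.unitsMap _ x))
    = (chainD D J hJ.ne_zero).chiTop (ZMod.unitsMap _ x)
  rw [chiTop_chainD]
  change _ = D.chiTop (ZMod.unitsMap _ (ZMod.unitsMap _ x))
  refine congrArg D.chiTop ?_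
  rw [← MonoidHom.comp_apply, ← MonoidHom.comp_apply, ZMod.unitsMap_comp, ZMod.unitsMap_comp]

/-- Descents transported along linear equivalences. -/
noncomputable def Twist.Descent.congr {R : Type} [CommRing R] {A A₀ : Type} [CommRing A]
    [CommRing A₀] [Algebra R A] [Algebra R A₀] {s : A →ₐ[R] A₀} {X X₀ Y Y₀ : Type}
    [AddCommGroup X] [Module A X] [AddCommGroup X₀] [Module A₀ X₀] [AddCommGroup Y] [Module A Y]
    [AddCommGroup Y₀] [Module A₀ Y₀] (T : Twist.Descent s X X₀) (e : X ≃ₗ[A] Y)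
    (e₀ : X₀ ≃ₗ[A₀] Y₀) : Twist.Descent s Y Y₀ where
  t := (e₀.toAddEquiv.toAddMonoidHom.comp T.t).comp e.symm.toAddEquiv.toAddMonoidHom
  map_smul a x := by
    change e₀ (T.t (e.symm (a • x))) = s a • e₀ (T.t (e.symm x))
    rw [e.symm.map_smul, T.map_smul, e₀.map_smul]
  surj y := by
    obtain ⟨x, hx⟩ := T.surj (e₀.symm y)
    refine ⟨e x, ?_⟩
    change e₀ (T.t (e.symm (e x))) = y
    rw [e.symm_apply_apply, hx, e₀.apply_symm_apply]
  surjS := T.surjS
  ker_le y hy := by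
    have h0 : T.t (e.symm y) = 0 := e₀.injective (hy.trans (map_zero e₀).symm)
    have h2 : e.toLinearMap (e.symm y) ∈
        Submodule.map e.toLinearMap (RingHom.ker s • (⊤ : Submodule A X)) :=
      ⟨_, T.ker_le _ h0, rfl⟩
    rw [Submodule.map_smul'', LinearEquiv.coe_coe, e.apply_symm_apply] at h2
    exact Submodule.smul_mono le_rfl le_top h2

/-- The descent on the modules special at `q`. -/
noncomputable def NatDescent.newDescent {M q : ℕ} [NeZero M] [Fact q.Prime] [NeZero (M * q)]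
    [NeZero (N * q)] {H₁ : Subgroup (ZMod M)ˣ} {D₁ : DiamondQuot M ⊤ H₁ (ΔA × Δ)}
    {hdvd : N * q ∣ M * q} {θ' : σ → IsLocalRing.ResidueField O}
    [Module.Finite O (Homs O (GammaH (N * q) (upH H q)))]
    [Module.Finite O (Homs O (GammaH (M * q) (upH H₁ q)))]
    {M₀ N₀ : ℕ} {χ₀ : (ZMod M₀)ˣ →* ΔA × Δ} {χA : (ZMod N₀)ˣ →* ΔA}
    {v : ℕ → (ZMod M₀)ˣ} {v₀ : ℕ → (ZMod N₀)ˣ} {J : List ℕ}
    (T : NatDescent p (D.up q) (D₁.up q) hdvd θ θ' L) (hD : LevelChar χA D)
    (hD₁ : LevelChar χ₀ D₁) (hc : CtrlData χ₀ v v₀ p (N * q) (M * q) (q :: J))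
    (h₀ : StepData χA p v₀ ε N q J) (h₁ : StepData χ₀ p v ε M q J)
    (hΓ : GoodLevel O (GammaH N H)) (hΓ' : GoodLevel O (GammaH (N * q) (upH H q)))
    (hΓ₁ : GoodLevel O (GammaH M H₁)) (hΓ₁' : GoodLevel O (GammaH (M * q) (upH H₁ q)))
    (hne : NonEisenstein p (sysIdeal θ)) (hne' : NonEisenstein p (sysIdeal θ')) :
    Twist.Descent (projRing O ΔA Δ) (newMod (sysIdeal θ') hD₁ h₁) (newMod (sysIdeal θ) hD h₀) :=
  (T.new (hD.up q) (hD₁.up q) hc h₁.upper (List.mem_cons_self ..)).congr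
    (Submodule.quotEquivOfEq _ _ (range_ctrlEnd _ hD₁ h₁ hΓ₁ hΓ₁' hne'))
    (Submodule.quotEquivOfEq _ _ (range_ctrlEnd _ hD h₀ hΓ hΓ' hne))

end Fermat.HM
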