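import Fermat.Agent.HM.Raise.Control

/-!
# Chains of levels for raising at several primes

Over a base `(M, H, D)` the primes of a list `J` are added one by one: `chainN`, `chainH`, `chainD`
are defined by recursion so that consecutive members are related by `upH` and `DiamondQuot.up`
definitionally.  The chains over the base level and over an auxiliary level are compatible.
-/

namespace Fermat.HM

open scoped MatrixGroups

/-- The level with the primes of `J` added. -/
def chainN (M : ℕ) : List ℕ → ℕ
  | [] => M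
  | q :: J => chainN M J * q

/-- The base level divides every member of the chain. -/
theorem dvd_chainN (M : ℕ) : ∀ J : List ℕ, M ∣ chainN M J
  | [] => dvd_rfl
  | q :: J => (dvd_chainN M J).mul_right q

/-- If a base level divides another, so do the members of their chains. -/
theorem chainN_dvd_chainN {N M : ℕ} (h : N ∣ M) : ∀ J : List ℕ, chainN N J ∣ chainN M J
  | [] => h
  | q :: J => mul_dvd_mul_right (chainN_dvd_chainN h J) q

/-- A member is the base level times the product of its primes. -/
theorem chainN_eq (M : ℕ) : ∀ J : List ℕ, chainN M J = M * J.prod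
  | [] => by simp [chainN]
  | q :: J => by rw [chainN, chainN_eq M J, List.prod_cons]; ring

/-- The members are not zero. -/
theorem neZero_chainN (M : ℕ) [NeZero M] {J : List ℕ} (hJ : ∀ q ∈ J, q ≠ 0) :
    NeZero (chainN M J) := by
  rw [chainN_eq]
  exact ⟨mul_ne_zero (NeZero.ne M) (List.prod_ne_zero fun h => hJ 0 h rfl)⟩

/-- The conditions on a list of primes to be added to `M`. -/
def GoodList (M : ℕ) (J : List ℕ) : Prop :=
  J.Nodup ∧ ∀ q ∈ J, q.Prime ∧ ¬ q ∣ M

/-- The tail of a good list is good. -/
theorem GoodList.tail {M q : ℕ} {J : List ℕ} (h : GoodList M (q :: J)) : GoodList M J :=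
  ⟨(List.nodup_cons.mp h.1).2, fun s hs => h.2 s (List.mem_cons_of_mem q hs)⟩

/-- The primes of a good list are not zero. -/
theorem GoodList.ne_zero {M : ℕ} {J : List ℕ} (h : GoodList M J) : ∀ q ∈ J, q ≠ 0 :=
  fun q hq => (h.2 q hq).1.ne_zero

/-- A prime outside a good list and not dividing the base level does not divide its member. -/
theorem GoodList.not_dvd {M q : ℕ} : ∀ {J : List ℕ}, GoodList M J → q.Prime → q ∉ J → ¬ q ∣ M →
    ¬ q ∣ chainN M J
  | [], _, _, _, h => h
  | s :: J, hJ, hq, hqJ, h => fun h' => by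
    rcases hq.dvd_mul.mp h' with h1 | h1
    · exact hJ.tail.not_dvd hq (fun e => hqJ (List.mem_cons_of_mem s e)) h h1
    · exact hqJ ((Nat.prime_dvd_prime_iff_eq hq (hJ.2 s (List.mem_cons_self ..)).1).mp h1 ▸
        List.mem_cons_self ..)

/-- The head of a good list does not divide the member of the tail. -/
theorem GoodList.head_not_dvd {M q : ℕ} {J : List ℕ} (h : GoodList M (q :: J)) :
    ¬ q ∣ chainN M J :=
  h.tail.not_dvd (h.2 q (List.mem_cons_self ..)).1 (List.nodup_cons.mp h.1).1
    (h.2 q (List.mem_cons_self ..)).2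

/-- The level structure along the chain. -/
def chainH {M : ℕ} (H : Subgroup (ZMod M)ˣ) : ∀ J : List ℕ, Subgroup (ZMod (chainN M J))ˣ
  | [] => H
  | q :: J => upH (chainH H J) q

/-- The level structure of a member is pulled back from the base. -/
theorem chainH_eq {M : ℕ} (H : Subgroup (ZMod M)ˣ) : ∀ J : List ℕ,
    chainH H J = H.comap (ZMod.unitsMap (dvd_chainN M J))
  | [] => (by rw [ZMod.unitsMap_self, Subgroup.comap_id] : H = H.comap (ZMod.unitsMap (dvd_refl M)))
  | q :: J => by
    change (chainH H J).comap _ = _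
    rw [chainH_eq H J, Subgroup.comap_comap, ZMod.unitsMap_comp]
    rfl

variable {Δ : Type} [CommGroup Δ]

/-- The character along the chain. -/
noncomputable def chainChi {M : ℕ} {H : Subgroup (ZMod M)ˣ} (D : DiamondQuot M ⊤ H Δ)
    (J : List ℕ) : (ZMod (chainN M J))ˣ →* Δ :=
  D.chiTop.comp (ZMod.unitsMap (dvd_chainN M J))

/-- The diamond quotient along the chain. -/
noncomputable def chainD {M : ℕ} [NeZero M] {H : Subgroup (ZMod M)ˣ} (D : DiamondQuot M ⊤ H Δ) :
    ∀ (J : List ℕ), (∀ q ∈ J, q ≠ 0) → DiamondQuot (chainN M J) ⊤ (chainH H J) Δ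
  | [], _ => D
  | q :: J, h =>
    haveI := neZero_chainN M (J := J) fun s hs => h s (List.mem_cons_of_mem q hs)
    haveI : NeZero (chainN M J * q) := neZero_chainN M h
    (chainD D J fun s hs => h s (List.mem_cons_of_mem q hs)).up q

/-- The character of a chain of diamond quotients is the chain of characters. -/
theorem chiTop_chainD {M : ℕ} [NeZero M] {H : Subgroup (ZMod M)ˣ} (D : DiamondQuot M ⊤ H Δ) :
    ∀ (J : List ℕ) (h : ∀ q ∈ J, q ≠ 0) (x : (ZMod (chainN M J))ˣ),
      (chainD D J h).chiTop x = chainChi D J x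
  | [], _, x => by
    change D.chiTop x = D.chiTop (ZMod.unitsMap (dvd_refl M) x)
    rw [ZMod.unitsMap_self]
    rfl
  | q :: J, h, x => by
    have := neZero_chainN M (J := J) fun s hs => h s (List.mem_cons_of_mem q hs)
    have : NeZero (chainN M J * q) := neZero_chainN M h
    change (chainD D J fun s hs => h s (List.mem_cons_of_mem q hs)).chiTop
      (ZMod.unitsMap (dvd_mul_right _ q) x) = _
    rw [chiTop_chainD D J]
    change D.chiTop (ZMod.unitsMap _ (ZMod.unitsMap _ x)) = D.chiTop (ZMod.unitsMap _ x)
    congr 1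
    exact DFunLike.congr_fun (ZMod.unitsMap_comp (dvd_chainN M J) (dvd_mul_right _ q)) x

/-- Every member is given by the character of the base. -/
theorem levelChar_chain {M : ℕ} [NeZero M] {H : Subgroup (ZMod M)ˣ} (D : DiamondQuot M ⊤ H Δ)
    (J : List ℕ) (h : ∀ q ∈ J, q ≠ 0) : LevelChar D.chiTop (chainD D J h) :=
  ⟨⟨dvd_chainN M J, fun x hx => by
    rw [chainH_eq]
    exact Subgroup.mem_comap.mpr (hx ▸ one_mem H)⟩, fun x => chiTop_chainD D J h x⟩

/-- The Atkin-Lehner matrices along the chain. -/
theorem wprime_chain {M : ℕ} : ∀ {J : List ℕ}, GoodList M J → ∀ s ∈ J, WPrime M (chainN M J) s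
  | [], _, s, hs => absurd hs List.not_mem_nil
  | q :: J, h, s, hs => by
    have hq := (h.2 q (List.mem_cons_self ..)).1
    have : Fact q.Prime := ⟨hq⟩
    rcases List.mem_cons.mp hs with rfl | hs'
    · exact WPrime.self h.head_not_dvd (dvd_chainN M J)
    · exact (wprime_chain h.tail s hs').mul_prime hq
        fun e => (List.nodup_cons.mp h.1).1 (e ▸ hs')

/-- A prime of the list times the base level divides the member. -/
theorem mul_dvd_chainN {M : ℕ} {J : List ℕ} {s : ℕ} (hs : s ∈ J) : M * s ∣ chainN M J := by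
  rw [chainN_eq]
  exact mul_dvd_mul_left M (List.dvd_prod hs)

variable {O : Type} [CommRing O] {σ : Type} {p : σ → ℕ}

/-- The signs and roots of a list of primes. -/
structure RootData {M : ℕ} (χ : (ZMod M)ˣ →* Δ) (p : σ → ℕ) (v : ℕ → (ZMod M)ˣ) (ε : ℕ → O)
    (qs : List ℕ) : Prop where
  /-- Two is invertible. -/
  two : IsUnit (2 : O)
  /-- The primes are distinct and prime to `M`. -/
  good : GoodList M qs
  /-- None of them belongs to the family. -/
  family : ∀ s ∈ qs, ∀ i, p i ≠ s
  /-- The signs square to one. -/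
  sign : ∀ s ∈ qs, ε s * ε s = 1
  /-- `χ (v s) ^ 2 = χ s` for each of the primes. -/
  root : ∀ s ∈ qs, ∃ u : (ZMod M)ˣ, (u : ZMod M) * s = 1 ∧ χ (v s * v s * u) = 1

variable {M : ℕ} {χ : (ZMod M)ˣ →* Δ} {v : ℕ → (ZMod M)ˣ} {ε : ℕ → O} {qs : List ℕ}

/-- The data restrict to the tail. -/
theorem RootData.tail {q : ℕ} (h : RootData χ p v ε (q :: qs)) : RootData χ p v ε qs :=
  ⟨h.two, h.good.tail, fun s hs => h.family s (List.mem_cons_of_mem q hs),
    fun s hs => h.sign s (List.mem_cons_of_mem q hs),
    fun s hs => h.root s (List.mem_cons_of_mem q hs)⟩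

/-- The data give those of the symmetrised primes on the member. -/
theorem RootData.symData (h : RootData χ p v ε qs) : SymData χ v ε (chainN M qs) qs :=
  ⟨h.two, wprime_chain h.good, h.sign, h.root⟩

/-- The data give those of the step adding the head. -/
theorem RootData.stepData {q : ℕ} (h : RootData χ p v ε (q :: qs)) :
    StepData χ p v ε (chainN M qs) q qs :=
  ⟨h.good.head_not_dvd, h.tail.symData, h.symData, h.family, (List.nodup_cons.mp h.good.1).1⟩

end Fermat.HM
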