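import Fermat.Agent.HM.Raise.Natural
import Fermat.Agent.HM.TWDescent

/-!
# Control for the union-type modules and the modules special at one prime

The descent from an auxiliary level to the base level commutes with the projectors and with
`sumEnd = U q + w q`, whose range inside the union-type module is the image of the degeneracy map.
-/

set_option linter.overlappingInstances false
set_option linter.unusedSectionVars false

namespace Fermat.HM

open scoped MatrixGroups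
open MvPolynomial Fermat.MC.Lvl

variable {O : Type} [CommRing O] [IsLocalRing O] [IsDomain O] [IsDiscreteValuationRing O]
  [IsAdicComplete (IsLocalRing.maximalIdeal O) O] {σ : Type} {p : σ → ℕ}
  [hp : ∀ i, Fact (p i).Prime] {N : ℕ} [NeZero N] {H : Subgroup (ZMod N)ˣ} {ΔA : Type}
  [CommGroup ΔA] {D : DiamondQuot N ⊤ H ΔA} {M : ℕ} [NeZero M] {H₁ : Subgroup (ZMod M)ˣ}
  {Δ : Type} [CommGroup Δ] {D₁ : DiamondQuot M ⊤ H₁ (ΔA × Δ)}

/-- A descent commuting with the family outside `L` and with natural families of operators. -/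
structure NatDescent (p : σ → ℕ) [∀ i, Fact (p i).Prime] (D : DiamondQuot N ⊤ H ΔA)
    (D₁ : DiamondQuot M ⊤ H₁ (ΔA × Δ)) (hdvd : N ∣ M) (θ θ' : σ → IsLocalRing.ResidueField O)
    (L : List σ) [Module.Finite O (Homs O (GammaH N H))]
    [Module.Finite O (Homs O (GammaH M H₁))] where
  /-- The descent from the level of `D₁` to that of `D`. -/
  desc : Twist.Descent (projRing O ΔA Δ) (D₁.LocMod p (sysIdeal θ')) (D.LocMod p (sysIdeal θ))
  /-- It commutes with the operators of the family outside `L`. -/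
  act_X : ∀ i, i ∉ L → ∀ x, desc.t (DiamondQuot.LocMod.act D₁ p (sysIdeal θ') (X i) x)
    = DiamondQuot.LocMod.act D p (sysIdeal θ) (X i) (desc.t x)
  /-- It intertwines `G` with `F` whenever `G` is a lift of the natural family `F`. -/
  natural : ∀ F : OpFam O, NatOp p H F → ∀ G : Module.End O (Homs O (GammaH M H₁)),
    (∀ δ φ, G (D₁.dia δ φ) = D₁.dia δ (G φ)) →
    (∀ (hres : IsLevelMap (H.comap (ZMod.unitsMap hdvd)) H₁ 1 1)
      (φ : Homs O (GammaH M (H.comap (ZMod.unitsMap hdvd)))),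
      G (hres.pull φ) = hres.pull (F M _ φ)) →
    ∀ x y : D₁.LocMod p (sysIdeal θ'),
      (y.val : Homs O (GammaH M H₁)) = G (x.val : Homs O (GammaH M H₁)) →
        ((desc.t y).val : Homs O (GammaH N H)) = F N H ((desc.t x).val : Homs O (GammaH N H))

open Twist in
/-- **The descent exists at an auxiliary level with a level map to the base.** -/
theorem exists_natDescent [CharZero O] [Finite Δ] [Finite ΔA] {pp : ℕ} [Fact pp.Prime]
    {hdvd : N ∣ M} {χQ : (ZMod M)ˣ →* Δ} (hchi : ∀ x, D₁.chiTop x = jointChi D hdvd χQ x)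
    (h : JointSurj hdvd χQ) (hpm : (pp : O) ∈ IsLocalRing.maximalIdeal O) (hpp : pp ≠ 2)
    (hΔA : IsPGroup pp ΔA) (hΔ : IsPGroup pp Δ) (hΓ : GoodLevel O (GammaH N ⊤))
    {θ θ' : σ → IsLocalRing.ResidueField O} {L : List σ} (hne' : NonEisenstein p (sysIdeal θ'))
    [Module.Finite O (Homs O (GammaH N H))] [Module.Finite O (Homs O (GammaH M H₁))]
    [Module.Finite O (Homs O (GammaH M (H.comap (ZMod.unitsMap hdvd))))]
    (hmap : HasLevMap p H θ L M (H.comap (ZMod.unitsMap hdvd)) θ') :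
    Nonempty (NatDescent p D D₁ hdvd θ θ' L) := by
  obtain rfl : H₁ = auxH D hdvd χQ := Subgroup.ext fun x => by
    rw [← D₁.chiTop_eq_one, hchi]
    exact MonoidHom.mem_ker.symm
  obtain rfl : D₁ = auxQuot D h := by
    obtain ⟨le₁, chi₁, surj₁, ker₁⟩ := D₁
    obtain rfl : chi₁ = (jointChi D hdvd χQ).comp (Subgroup.subtype ⊤) :=
      MonoidHom.ext fun x => hchi (x : (ZMod M)ˣ)
    rfl
  obtain ⟨T, hTX, hTF⟩ := exists_descent D h hpm hpp hΔA hΔ hΓ hne' hmap
  refine ⟨⟨T, hTX, fun F hF G hGd hGr x y hxy => hTF F hF G (fun φ => ?_) x y hxy⟩⟩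
  exact DiamondQuot.tr_comm_of_res (auxQuot₂ D h) G (F M _)
    (fun d φ => by rw [dia_auxQuot₂, dia_auxQuot₂, hGd]) (fun φ => hGr _ φ) φ

section Operators

variable {M₀ N₀ : ℕ} {v : ℕ → (ZMod M₀)ˣ} {ε : ℕ → O} {J : List ℕ}

/-- The involutions commute with the diamond operators of the quotient. -/
theorem LevelChar.wAll_dia {χ₀ : (ZMod M₀)ˣ →* Δ} {H' : Subgroup (ZMod M)ˣ}
    {D' : DiamondQuot M ⊤ H' Δ} (hD : LevelChar χ₀ D') (v : ℕ → (ZMod M₀)ˣ) (s : ℕ) (δ : Δ)
    (φ : Homs O (GammaH M H')) :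
    wAll hD.lvl v s (D'.dia δ φ) = D'.dia δ (wAll hD.lvl v s φ) := by
  obtain ⟨u, rfl⟩ := hD.exists_eq δ
  rw [← hD.diaOp_eq, ← hD.diaOp_eq, wAll_diaOp]

/-- `U q + w q` on the localised module. -/
noncomputable def sumEnd {χ₀ : (ZMod M₀)ˣ →* Δ} {H' : Subgroup (ZMod M)ˣ}
    {D' : DiamondQuot M ⊤ H' Δ} (m : Ideal (MvPolynomial σ O)) (hD : LevelChar χ₀ D') (q : ℕ)
    [Fact q.Prime] (hq : ∀ i, p i ≠ q) :
    D'.LocMod p m →ₗ[MonoidAlgebra O Δ] D'.LocMod p m :=
  DiamondQuot.LocMod.map (heckeT O M H' q + wAll hD.lvl (fun _ => 1) q)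
    (fun a x => intertwine_of_X _ (fun i y => by
      rw [heckeAct_X, heckeAct_X, LinearMap.add_apply, LinearMap.add_apply, map_add,
        wAll_heckeT hD.lvl q (hq i), heckeT_comm]) a x)
    (fun δ x => by
      rw [LinearMap.add_apply, LinearMap.add_apply, hD.wAll_dia, map_add]
      obtain ⟨u, rfl⟩ := hD.exists_eq δ
      simp only [← hD.diaOp_eq, diaOp_heckeT])

/-- `sumEnd` followed by the projector, on the union-type module. -/
noncomputable def ctrlEnd {χ₀ : (ZMod M₀)ˣ →* Δ} {H' : Subgroup (ZMod M)ˣ}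
    {D' : DiamondQuot M ⊤ H' Δ} (m : Ideal (MvPolynomial σ O)) (ε : ℕ → O)
    (hD : LevelChar χ₀ D') (v : ℕ → (ZMod M₀)ˣ) (J : List ℕ) (hp' : ∀ s ∈ J, ∀ i, p i ≠ s)
    (q : ℕ) [Fact q.Prime] (hq : ∀ i, p i ≠ q) :
    symMod m ε hD v J hp' →ₗ[MonoidAlgebra O Δ] symMod m ε hD v J hp' :=
  (symEnd m ε hD v J hp').rangeRestrict ∘ₗ sumEnd m hD q hq ∘ₗ (symMod m ε hD v J hp').subtype

variable {χ₀ : (ZMod M₀)ˣ →* ΔA × Δ} {χA : (ZMod N₀)ˣ →* ΔA} {v₀ : ℕ → (ZMod N₀)ˣ} {hdvd : N ∣ M}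
  {θ θ' : σ → IsLocalRing.ResidueField O} {L : List σ} [Module.Finite O (Homs O (GammaH N H))]
  [Module.Finite O (Homs O (GammaH M H₁))]

/-- The compatibility of the two levels. -/
structure CtrlData (χ₀ : (ZMod M₀)ˣ →* ΔA × Δ) (v : ℕ → (ZMod M₀)ˣ) (v₀ : ℕ → (ZMod N₀)ˣ)
    (p : σ → ℕ) (N M : ℕ) (J : List ℕ) : Prop where
  /-- The modulus of the base level divides that of the upper level. -/
  dvd₀ : N₀ ∣ M₀
  /-- The chosen units are compatible. -/
  vcompat : ∀ s ∈ J, ZMod.unitsMap dvd₀ (v s) = v₀ s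
  /-- Each prime has Atkin-Lehner matrices at the upper level. -/
  wprime : ∀ s ∈ J, WPrime M₀ M s
  /-- Each prime, times the base modulus, divides the base level. -/
  base : ∀ s ∈ J, N₀ * s ∣ N
  /-- None of the primes belongs to the family. -/
  family : ∀ s ∈ J, ∀ i, p i ≠ s

/-- Restriction commutes with the projectors of the two moduli. -/
theorem CtrlData.symProj_res (hc : CtrlData χ₀ v v₀ p N M J) {H₀ : Subgroup (ZMod M)ˣ}
    (hH : LevelOver M₀ M H₁) (hH₀ : LevelOver N₀ M H₀) {Δ₂ : Type} [CommGroup Δ₂]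
    (D₂ : DiamondQuot M H₀ H₁ Δ₂) (φ : Homs O (GammaH M H₀)) :
    symProj hH v ε J (D₂.isLevelMap_res.pull φ)
      = D₂.isLevelMap_res.pull (symProj hH₀ v₀ ε J φ) :=
  (symProj_comm_modulus hH₀ hH (D₂.isLevelMap_res.pull (R := O))
    (fun s hs x => (wAll_res_top (D₂ := D₂) hH hH₀ hc.dvd₀ (hc.vcompat s hs)
      (hc.wprime s hs) x).symm) φ).symm

/-- If restriction to the level `H₁` is a level map, `H₁` is the kernel of a diamond quotient of
the pulled back level. -/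
theorem exists_quot_of_isLevelMap (hres : IsLevelMap (H.comap (ZMod.unitsMap hdvd)) H₁ 1 1) :
    ∃ (Δ₂ : Type) (_ : CommGroup Δ₂),
      Nonempty (DiamondQuot M (H.comap (ZMod.unitsMap hdvd)) H₁ Δ₂) := by
  have hle : H₁ ≤ H.comap (ZMod.unitsMap hdvd) := by
    intro x hx
    obtain ⟨g, hg, hgx⟩ := exists_diaLift (dvd_refl M) x
    obtain ⟨d, hd, e⟩ := hres.exists_conj g (mem_GammaH_iff_upper.mpr ⟨hg, x, hx, hgx.symm⟩)
    rw [one_mul, mul_one] at e
    obtain rfl := Reps.gq_injective e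
    obtain ⟨-, y, hy, hyx⟩ := mem_GammaH_iff_upper.mp hd
    obtain rfl : y = x := Units.ext (hyx.trans hgx)
    exact hy
  let K : Subgroup (H.comap (ZMod.unitsMap hdvd)) := H₁.subgroupOf _
  have : K.Normal := ⟨fun a ha b => by rwa [mul_comm b, mul_inv_cancel_right]⟩
  exact ⟨H.comap (ZMod.unitsMap hdvd) ⧸ K, inferInstance,
    ⟨{ le := hle
       chi := QuotientGroup.mk' K
       surj := QuotientGroup.mk'_surjective K
       ker_iff := fun x => (QuotientGroup.eq_one_iff x).trans Subgroup.mem_subgroupOf }⟩⟩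

/-- The descent commutes with the projectors. -/
theorem NatDescent.symEnd_comm (T : NatDescent p D D₁ hdvd θ θ' L) (hD : LevelChar χA D)
    (hD₁ : LevelChar χ₀ D₁) (hc : CtrlData χ₀ v v₀ p N M J) (x : D₁.LocMod p (sysIdeal θ')) :
    T.desc.t (symEnd (sysIdeal θ') ε hD₁ v J hc.family x)
      = symEnd (sysIdeal θ) ε hD v₀ J hc.family (T.desc.t x) := by
  refine DiamondQuot.LocMod.ext_val ?_
  refine (T.natural (symFam v₀ ε J)
    (natOp_symFam hD.lvl ε fun s hs => ⟨hc.base s hs, hc.family s hs⟩)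
    (symProj hD₁.lvl v ε J)
    (fun δ φ => (symProj_comm hD₁.lvl hD₁.lvl (D₁.dia δ)
      (fun s _ y => (hD₁.wAll_dia v s δ y).symm) φ).symm)
    (fun hres φ => ?_) x _ rfl).trans ?_
  · obtain ⟨Δ₂, _, ⟨D₂⟩⟩ := exists_quot_of_isLevelMap hres
    rw [symFam_eq (hD.lvl.comap hdvd)]
    exact hc.symProj_res hD₁.lvl (hD.lvl.comap hdvd) D₂ φ
  · rw [symFam_eq hD.lvl]
    rfl

/-- The descent on the union-type modules. -/
noncomputable def NatDescent.sym (T : NatDescent p D D₁ hdvd θ θ' L) (hD : LevelChar χA D)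
    (hD₁ : LevelChar χ₀ D₁) (hc : CtrlData χ₀ v v₀ p N M J) (hJ : SymData χ₀ v ε M J) :
    Twist.Descent (projRing O ΔA Δ) (symMod (sysIdeal θ') ε hD₁ v J hc.family)
      (symMod (sysIdeal θ) ε hD v₀ J hc.family) :=
  T.desc.range _ _ (symEnd_idem hD₁ hJ hc.family) (T.symEnd_comm hD hD₁ hc)

/-- The descent commutes with `sumEnd`. -/
theorem NatDescent.sumEnd_comm (T : NatDescent p D D₁ hdvd θ θ' L) (hD : LevelChar χA D)
    (hD₁ : LevelChar χ₀ D₁) (hc : CtrlData χ₀ v v₀ p N M J) {q : ℕ} [hq' : Fact q.Prime]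
    (hqJ : q ∈ J) (hq : ∀ i, p i ≠ q) (x : D₁.LocMod p (sysIdeal θ')) :
    T.desc.t (sumEnd (sysIdeal θ') hD₁ q hq x) = sumEnd (sysIdeal θ) hD q hq (T.desc.t x) := by
  refine DiamondQuot.LocMod.ext_val ?_
  refine (T.natural (fun M' _ H' => tFam O q M' H' + wFam O (fun _ => (1 : (ZMod N₀)ˣ)) q M' H')
    ((natOp_tFam hq H).add (natOp_wFam hD.lvl (hc.base q hqJ) hq))
    (heckeT O M H₁ q + wAll hD₁.lvl (fun _ => 1) q)
    (fun δ φ => ?_) (fun hres φ => ?_) x _ rfl).trans ?_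
  · obtain ⟨u, rfl⟩ := hD₁.exists_eq δ
    simp only [LinearMap.add_apply, ← hD₁.diaOp_eq, map_add, wAll_diaOp, diaOp_heckeT]
  · obtain ⟨Δ₂, _, ⟨D₂⟩⟩ := exists_quot_of_isLevelMap hres
    simp only [LinearMap.add_apply, tFam, wFam_eq (hD.lvl.comap hdvd), map_add]
    rw [IsLevelMap.pull_heckeT hres hq'.out.not_dvd_one Iff.rfl,
      wAll_res_top (D₂ := D₂) hD₁.lvl (hD.lvl.comap hdvd) hc.dvd₀ (v₀ := fun _ => 1)
        (map_one _) (hc.wprime q hqJ)]
  · simp only [tFam, wFam_eq hD.lvl]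
    rfl

/-- The descent commutes with `ctrlEnd`. -/
theorem NatDescent.ctrlEnd_comm (T : NatDescent p D D₁ hdvd θ θ' L) (hD : LevelChar χA D)
    (hD₁ : LevelChar χ₀ D₁) (hc : CtrlData χ₀ v v₀ p N M J) (hJ : SymData χ₀ v ε M J) {q : ℕ}
    [Fact q.Prime] (hqJ : q ∈ J) (x : symMod (sysIdeal θ') ε hD₁ v J hc.family) :
    (T.sym hD hD₁ hc hJ).t (ctrlEnd (sysIdeal θ') ε hD₁ v J hc.family q (hc.family q hqJ) x)
      = ctrlEnd (sysIdeal θ) ε hD v₀ J hc.family q (hc.family q hqJ)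
          ((T.sym hD hD₁ hc hJ).t x) := by
  refine Subtype.ext ?_
  change T.desc.t (symEnd _ ε hD₁ v J hc.family (sumEnd _ hD₁ q (hc.family q hqJ) x.1))
    = symEnd _ ε hD v₀ J hc.family (sumEnd _ hD q (hc.family q hqJ) (T.desc.t x.1))
  rw [T.symEnd_comm hD hD₁ hc, T.sumEnd_comm hD hD₁ hc hqJ]

/-- The descent on the cokernels of `ctrlEnd`. -/
noncomputable def NatDescent.new (T : NatDescent p D D₁ hdvd θ θ' L) (hD : LevelChar χA D)
    (hD₁ : LevelChar χ₀ D₁) (hc : CtrlData χ₀ v v₀ p N M J) (hJ : SymData χ₀ v ε M J) {q : ℕ}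
    [Fact q.Prime] (hqJ : q ∈ J) :
    Twist.Descent (projRing O ΔA Δ)
      (symMod (sysIdeal θ') ε hD₁ v J hc.family ⧸
        LinearMap.range (ctrlEnd (sysIdeal θ') ε hD₁ v J hc.family q (hc.family q hqJ)))
      (symMod (sysIdeal θ) ε hD v₀ J hc.family ⧸
        LinearMap.range (ctrlEnd (sysIdeal θ) ε hD v₀ J hc.family q (hc.family q hqJ))) :=
  (T.sym hD hD₁ hc hJ).quotient (T.sym hD hD₁ hc hJ) _ _ (T.ctrlEnd_comm hD hD₁ hc hJ hqJ)

end Operators

section Range

variable {Δ' : Type} [CommGroup Δ'] {M₀ : ℕ} {χ₀ : (ZMod M₀)ˣ →* Δ'} {q : ℕ} [hq : Fact q.Prime]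
  [NeZero (M * q)] {D' : DiamondQuot M ⊤ H₁ Δ'} {v : ℕ → (ZMod M₀)ˣ} {ε : ℕ → O} {J : List ℕ}
  (m : Ideal (MvPolynomial σ O)) [CharZero O]

/-- **`ctrlEnd` has the image of the degeneracy map as range.** -/
theorem range_ctrlEnd (hD : LevelChar χ₀ D') (h : StepData χ₀ p v ε M q J)
    (hΓ : GoodLevel O (GammaH M H₁)) (hΓ' : GoodLevel O (GammaH (M * q) (upH H₁ q)))
    [m.IsMaximal] (hne : NonEisenstein p m) :
    LinearMap.range (ctrlEnd m ε (hD.up q) v (q :: J) h.family q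
        (h.family q (List.mem_cons_self ..)))
      = LinearMap.range (alphaSym m hD h) := by
  -- `ctrlEnd` is half of `psi` followed by the degeneracy map
  have key : ∀ x : symMod m ε (hD.up q) v (q :: J) h.family,
      ctrlEnd m ε (hD.up q) v (q :: J) h.family q (h.family q (List.mem_cons_self ..)) x
        = alphaSym m hD h
          (algebraMap O (MonoidAlgebra O Δ') (Ring.inverse (2 : O)) • psiSym m hD h x) := by
    intro x
    rw [algebraMap_smul]
    refine Subtype.ext (DiamondQuot.LocMod.ext_val ?_)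
    have hy : symProj hD.lvl v ε J (psi H₁ h.not_dvd (x.1.val : Homs O _))
        = psi H₁ h.not_dvd (x.1.val : Homs O _) :=
      hD.symProj_eq_self h.lower (List.Subset.refl J)
        ((mem_symMod_iff hD h.lower h.family_tail _).mp (psiSym m hD h x).2)
    have hres := symProj_comm (ε := ε) hD.lvl (hD.up q).lvl
      ((isLevelMap_up (H := H₁) (q := q)).pull (R := O)) (fun s hs φ => hD.wAll_res h hs φ)
      (psi H₁ h.not_dvd (x.1.val : Homs O _))
    rw [hy] at hres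
    -- `T_q + W_q` is the pullback of `psi`
    have hsum : heckeT O (M * q) (upH H₁ q) q (x.1.val : Homs O (GammaH (M * q) (upH H₁ q)))
        + wAll (hD.up q).lvl (fun _ => 1) q (x.1.val : Homs O (GammaH (M * q) (upH H₁ q)))
        = (isLevelMap_up (H := H₁) (q := q)).pull (psi H₁ h.not_dvd x.1.val) := by
      rw [res_psi, wAll_eq _ (h.upper.wprime q (List.mem_cons_self ..)), wq_eq_wOp h.not_dvd hD.lvl]
      congr 1
      exact diaOp_one (hD.up q).lvl _
    rw [coe_alphaSym]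
    change symProj (hD.up q).lvl v ε (q :: J) (_ + _)
      = raiseMap _ _ _ _ (Ring.inverse (2 : O) • psi H₁ h.not_dvd (x.1.val : Homs O _))
    refine Eq.trans (congrArg _ hsum) ?_
    simp only [symProj, List.map_cons, List.prod_cons, Module.End.mul_apply] at hres ⊢
    rw [← hres, halfProj_apply, map_smul, raiseMap_eq,
      wAll_eq _ (h.upper.wprime q (List.mem_cons_self ..))]
  -- equality of the ranges, as `psi` is onto and `2` is invertible
  refine le_antisymm ?_ ?_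
  · rintro _ ⟨x, rfl⟩
    exact ⟨_, (key x).symm⟩
  · rintro _ ⟨y, rfl⟩
    obtain ⟨x, rfl⟩ := psiSym_surjective m hD h hΓ hΓ' hne y
    refine ⟨algebraMap O (MonoidAlgebra O Δ') 2 • x, ?_⟩
    rw [key, map_smul (psiSym m hD h), smul_smul, ← map_mul,
      Ring.inverse_mul_cancel _ h.lower.two, map_one, one_smul]

end Range

end Fermat.HM
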