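import Fermat.Agent.HM.Operators
import Mathlib.LinearAlgebra.Eigenspace.Semisimple
import Mathlib.LinearAlgebra.Eigenspace.Triangularizable
import Mathlib.Analysis.Complex.Polynomial.Basic
import Mathlib.FieldTheory.Perfect
import Mathlib.FieldTheory.Separable

/-!
# Commuting semisimple operators

Common eigenvectors in stable subspaces, semisimplicity of polynomials in commuting semisimple
operators, and the vanishing of such a polynomial on a stable subspace where it vanishes at all
common eigenvectors.
-/

namespace Fermat.HM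

open Module MvPolynomial

section CommonEigen

variable {K : Type*} [Field K] [IsAlgClosed K] {V : Type*} [AddCommGroup V] [Module K V]
  [FiniteDimensional K V] {ι : Type*} (f : ι → Module.End K V)

/-- A nonzero subspace stable by commuting operators contains a common eigenvector. -/
theorem exists_common_eigenvector (hf : ∀ i j, f i * f j = f j * f i) (W : Submodule K V)
    (hW : W ≠ ⊥) (hinv : ∀ i, ∀ x ∈ W, f i x ∈ W) :
    ∃ x ∈ W, x ≠ 0 ∧ ∀ i, ∃ μ : K, f i x = μ • x := by
  induction h : finrank K W using Nat.strong_induction_on generalizing W with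
  | h n ih =>
    subst h
    by_cases hsc : ∀ i, ∃ μ : K, ∀ x ∈ W, f i x = μ • x
    · obtain ⟨x, hx, hx0⟩ := (Submodule.ne_bot_iff W).mp hW
      exact ⟨x, hx, hx0, fun i => (hsc i).imp fun μ hμ => hμ x hx⟩
    · push Not at hsc
      obtain ⟨i, hi⟩ := hsc
      have : Nontrivial W := Submodule.nontrivial_iff_ne_bot.mpr hW
      obtain ⟨μ, hμ⟩ := Module.End.exists_eigenvalue ((f i).restrict (hinv i))
      obtain ⟨y, hy⟩ := hμ.exists_hasEigenvector
      set W' := W ⊓ LinearMap.ker (f i - μ • 1)
      have hmem : ∀ x, x ∈ W' ↔ x ∈ W ∧ f i x = μ • x := fun x => by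
        simp [W', sub_eq_zero]
      have hlt : W' < W := by
        refine lt_of_le_of_ne inf_le_left fun e => ?_
        obtain ⟨x, hx, hne⟩ := hi μ
        exact hne ((hmem x).mp (e.symm ▸ hx)).2
      have hne : W' ≠ ⊥ := (Submodule.ne_bot_iff W').mpr
        ⟨y, (hmem _).mpr ⟨y.2, congrArg Subtype.val hy.apply_eq_smul⟩,
          fun e => hy.2 (Subtype.ext e)⟩
      obtain ⟨x, hx, hx0, hev⟩ := ih _ (Submodule.finrank_lt_finrank_of_lt hlt) W' hne
        (fun j x hx => by
          obtain ⟨h1, h2⟩ := (hmem x).mp hx
          refine (hmem _).mpr ⟨hinv j x h1, ?_⟩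
          rw [← Module.End.mul_apply, hf, Module.End.mul_apply, h2, map_smul]) rfl
      exact ⟨x, ((hmem x).mp hx).1, hx0, hev⟩

end CommonEigen

/-- A common eigenvector of the variables is one of every polynomial. -/
theorem commAeval_apply_eigen {K : Type*} [CommRing K] {V : Type*} [AddCommGroup V] [Module K V]
    {ι : Type*} (f : ι → Module.End K V) (hf : ∀ i j, f i * f j = f j * f i) {x : V}
    {μ : ι → K} (hx : ∀ i, f i x = μ i • x) (P : MvPolynomial ι K) :
    commAeval f hf P x = MvPolynomial.eval μ P • x := by
  induction P using MvPolynomial.induction_on with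
  | C a => rw [← MvPolynomial.algebraMap_eq, AlgHom.commutes]; simp
  | add P Q hP hQ => rw [map_add, LinearMap.add_apply, hP, hQ, map_add, add_smul]
  | mul_X P i hP =>
    rw [map_mul, commAeval_X, Module.End.mul_apply, hx, map_smul, hP, map_mul, MvPolynomial.eval_X,
      smul_smul, mul_comm]

/-- For a semisimple operator the kernel of the square is the kernel. -/
theorem apply_eq_zero_of_sq {R : Type*} [CommRing R] {V : Type*} [AddCommGroup V] [Module R V]
    {g : Module.End R V} (hg : g.IsSemisimple) {x : V} (h : g (g x) = 0) : g x = 0 := by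
  obtain ⟨q, hq, hc⟩ := Module.End.isSemisimple_iff.mp hg (LinearMap.ker g)
    (fun y hy => by
      rw [Submodule.mem_comap, LinearMap.mem_ker]
      rw [LinearMap.mem_ker] at hy
      rw [hy, map_zero])
  obtain ⟨k, hk, y, hy, rfl⟩ := Submodule.mem_sup.mp (hc.sup_eq_top ▸ Submodule.mem_top (x := x))
  rw [LinearMap.mem_ker] at hk
  rw [map_add, hk, zero_add] at h ⊢
  have : g y ∈ LinearMap.ker g ⊓ q := ⟨h, hq hy⟩
  rwa [hc.inf_eq_bot, Submodule.mem_bot] at this

/-- A scalar is semisimple. -/
theorem isSemisimple_algebraMap {K : Type*} [Field K] {V : Type*} [AddCommGroup V] [Module K V]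
    (a : K) : (algebraMap K (Module.End K V) a).IsSemisimple :=
  Module.End.isSemisimple_of_squarefree_aeval_eq_zero (Polynomial.separable_X_sub_C.squarefree)
    (p := Polynomial.X - Polynomial.C a) (by simp)

/-- An operator of finite order is semisimple in characteristic zero. -/
theorem isSemisimple_of_pow_eq_one {K : Type*} [Field K] [CharZero K] {V : Type*} [AddCommGroup V]
    [Module K V] {g : Module.End K V} {n : ℕ} (hn : n ≠ 0) (h : g ^ n = 1) : g.IsSemisimple :=
  Module.End.isSemisimple_of_squarefree_aeval_eq_zero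
    (p := Polynomial.X ^ n - Polynomial.C 1)
    ((Polynomial.separable_X_pow_sub_C (1 : K) (Nat.cast_ne_zero.mpr hn) one_ne_zero).squarefree)
    (by simp [h])

section Semisimple

variable {K : Type*} [Field K] [IsAlgClosed K] [CharZero K] {V : Type*} [AddCommGroup V]
  [Module K V] [FiniteDimensional K V] {ι : Type*} (f : ι → Module.End K V)
  (hf : ∀ i j, f i * f j = f j * f i)

omit [IsAlgClosed K] in
/-- A polynomial in commuting semisimple operators is semisimple. -/
theorem isSemisimple_commAeval_rename {κ : Type*} (e : κ → ι)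
    (hs : ∀ k, (f (e k)).IsSemisimple) (P : MvPolynomial κ K) :
    (commAeval f hf (rename e P)).IsSemisimple := by
  induction P using MvPolynomial.induction_on with
  | C a =>
    rw [rename_C, ← MvPolynomial.algebraMap_eq, AlgHom.commutes]
    exact isSemisimple_algebraMap a
  | add P Q hP hQ =>
    rw [map_add, map_add]
    exact Module.End.IsSemisimple.add_of_commute ((Commute.all _ _).map (commAeval f hf)) hP hQ
  | mul_X P k hP =>
    rw [map_mul, map_mul, rename_X]
    exact Module.End.IsSemisimple.mul_of_commute ((Commute.all _ _).map (commAeval f hf)) hP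
      (by rw [commAeval_X]; exact hs k)

omit [CharZero K] in
/-- **A semisimple element of the algebra of commuting operators vanishes on a stable subspace
if it vanishes at its common eigenvectors.** -/
theorem commAeval_eq_zero_on (W : Submodule K V) (hinv : ∀ i, ∀ x ∈ W, f i x ∈ W)
    (P : MvPolynomial ι K) (hP : (commAeval f hf P).IsSemisimple)
    (h : ∀ x ∈ W, x ≠ 0 → ∀ μ : ι → K, (∀ i, f i x = μ i • x) → MvPolynomial.eval μ P = 0)
    {x : V} (hx : x ∈ W) : commAeval f hf P x = 0 := by
  set g := commAeval f hf P
  have hg : ∀ y ∈ W, g y ∈ W := by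
    intro y hy
    change commAeval f hf P y ∈ W
    clear hP h g
    induction P using MvPolynomial.induction_on generalizing y with
    | C a =>
      rw [← MvPolynomial.algebraMap_eq, AlgHom.commutes, Module.algebraMap_end_apply]
      exact W.smul_mem a hy
    | add P Q hP hQ => rw [map_add, LinearMap.add_apply]; exact add_mem (hP y hy) (hQ y hy)
    | mul_X P i hP => rw [map_mul, commAeval_X, Module.End.mul_apply]; exact hP _ (hinv i y hy)
  by_contra hne
  obtain ⟨y, ⟨z, hz, rfl⟩, hy0, hev⟩ := exists_common_eigenvector f hf (W.map g)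
    ((Submodule.ne_bot_iff _).mpr ⟨g x, ⟨x, hx, rfl⟩, hne⟩)
    (by
      rintro i _ ⟨y, hy, rfl⟩
      refine ⟨f i y, hinv i y hy, ?_⟩
      rw [show f i = commAeval f hf (X i : MvPolynomial ι K) from (commAeval_X f hf
        i).symm, ← Module.End.mul_apply, ← Module.End.mul_apply, ← map_mul, ← map_mul, mul_comm])
  choose μ hμ using hev
  refine hy0 (apply_eq_zero_of_sq hP ?_)
  change g (g z) = 0
  rw [commAeval_apply_eigen f hf hμ P, h _ (hg z hz) hy0 μ hμ, zero_smul]

end Semisimple

end Fermat.HM
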