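import Fermat.Agent.HM.Raise.Pair
import Fermat.Agent.HM.TWLevel

/-!
# Natural families of operators at the levels with all diamond operators

The involutions, their projectors and `T q` commute with the degeneracy maps at auxiliary primes,
hence with the identification of auxiliary levels with the base level, and with the traces.
-/

set_option linter.unusedSectionVars false

namespace Fermat.HM

open scoped MatrixGroups
open CongruenceSubgroup Fermat.MC.Lvl

section Matrices

variable {M M₀ N₀ s : ℕ} {g : GL (Fin 2) ℚ}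

/-- An Atkin-Lehner matrix stays one for a smaller modulus. -/
theorem IsWMat.mono_modulus (h : IsWMat M M₀ s g) (hd : N₀ ∣ M₀) : IsWMat M N₀ s g := by
  obtain ⟨a, b, c, d, h1, h2, h3⟩ := h
  refine ⟨a, b, c, d, h1, ?_, h3⟩
  have := congrArg (ZMod.castHom hd (ZMod N₀)) h2
  simpa [map_mul, map_intCast, map_natCast, -ZMod.castHom_apply] using this

/-- If a level has an Atkin-Lehner matrix at `s` then `s` divides it exactly once. -/
theorem IsWMat.not_dvd_div (h : IsWMat M M₀ s g) (hs : s.Prime) {M' : ℕ} (hM : M = s * M') :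
    ¬ s ∣ M' := by
  rintro ⟨t, rfl⟩
  obtain ⟨a, b, c, d, h1, -, -⟩ := h
  subst hM
  push_cast at h1
  have h0 : (s : ℤ) ≠ 0 := by exact_mod_cast hs.ne_zero
  have h2 : (s : ℤ) * (a * d - b * t * c) = 1 := mul_left_cancel₀ h0 (by linear_combination h1)
  exact hs.not_dvd_one (Int.natCast_dvd_natCast.mp (⟨_, by rw [h2]; rfl⟩ : (s : ℤ) ∣ ((1 : ℕ) : ℤ)))

/-- An admissible prime divides the level exactly once. -/
theorem WPrime.not_dvd_div (h : WPrime M₀ M s) {M' : ℕ} (hM : M = s * M') : ¬ s ∣ M' :=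
  h.exists_mat.choose_spec.not_dvd_div h.prime hM

/-- Admissibility is unchanged by a further prime. -/
theorem WPrime.mul_prime (h : WPrime M₀ M s) {q : ℕ} (hq : q.Prime) (hne : q ≠ s) :
    WPrime M₀ (M * q) s := by
  have : Fact s.Prime := ⟨h.prime⟩
  obtain ⟨t, ht⟩ := h.dvd
  have hM : M = s * (M₀ * t) := by rw [ht]; ring
  refine WPrime.of_eq_mul (M' := M₀ * t * q) (by rw [hM]; ring) (fun hd => ?_)
    ((dvd_mul_right M₀ t).mul_right q)
  rcases h.prime.dvd_mul.mp hd with h1 | h1
  · exact h.not_dvd_div hM h1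
  · exact hne ((Nat.prime_dvd_prime_iff_eq h.prime hq).mp h1).symm

/-- Admissibility descends along a further prime. -/
theorem WPrime.of_mul_prime {q : ℕ} (h : WPrime M₀ (M * q) s) (hd : M₀ * s ∣ M) :
    WPrime M₀ M s :=
  h.mono (dvd_mul_right M q) hd

/-- Admissibility holds for a smaller modulus. -/
theorem WPrime.mono_modulus (h : WPrime M₀ M s) (hd : N₀ ∣ M₀) : WPrime N₀ M s := by
  obtain ⟨g, hg⟩ := h.exists_mat
  exact ⟨h.prime, (mul_dvd_mul_right hd s).trans h.dvd, g, hg.mono_modulus hd⟩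

variable {H : Subgroup (ZMod M)ˣ} {M' : ℕ} {H' : Subgroup (ZMod M')ˣ} {R : Type} [CommRing R]

/-- Restriction commutes with the involutions of different moduli. -/
theorem wOp_pull_one_modulus (hH : LevelOver M₀ M H) (hH' : LevelOver N₀ M' H')
    (hw : WPrime M₀ M s) (hw' : WPrime N₀ M' s) (hd₀ : N₀ ∣ M₀) (hd : M' ∣ M)
    (hres : IsLevelMap H' H 1 1) (φ : Homs R (GammaH M' H')) :
    wOp hH hw (hres.pull φ) = hres.pull (wOp hH' hw' φ) := by
  have : Fact s.Prime := ⟨hw.prime⟩
  obtain ⟨σ, hσ, e⟩ := hw'.exists_mat.choose_spec.exists_eq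
    ((hw.exists_mat.choose_spec.mono hd).mono_modulus hd₀) hw.prime.ne_zero hw'.dvd hH'
  rw [wOp, wOp, ← IsLevelMap.pull_comp, ← IsLevelMap.pull_comp]
  exact IsLevelMap.pull_congr _ _ hσ (by rw [one_mul, mul_one, e]) φ

/-- The pull-back along an element of `Γ₀(M)` is a diamond operator. -/
theorem exists_diaOp_eq_pull (hH : LevelOver M₀ M H) [NeZero M] {τ : SL(2, ℤ)}
    (hτ : τ ∈ Gamma0 M) : ∃ u : (ZMod M₀)ˣ, ∀ φ : Homs R (GammaH M H),
      (isLevelMap_gamma0 (le_refl H) hτ).pull φ = diaOp hH u φ := by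
  have hu := congrArg (ZMod.castHom hH.dvd (ZMod M₀)) (Gamma0_entries hτ)
  rw [map_mul, map_intCast, map_intCast, map_one] at hu
  exact ⟨Units.mkOfMulEqOne _ _ hu, fun φ => pull_eq_diaOp hH hτ rfl φ⟩

end Matrices

section Injective

variable {M M' : ℕ} [NeZero M] [NeZero M'] {H : Subgroup (ZMod M)ˣ} {H' : Subgroup (ZMod M')ˣ}
  {R : Type} [CommRing R] [IsDomain R] [CharZero R]

/-- An operator commuting with restriction and diamond operators commutes with the trace. -/
theorem DiamondQuot.tr_comm_of_res {H₀ : Subgroup (ZMod M)ˣ} {Δ : Type} [CommGroup Δ] [Finite Δ]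
    (D : DiamondQuot M H₀ H Δ) (G : Module.End R (Homs R (GammaH M H)))
    (F : Module.End R (Homs R (GammaH M H₀))) (hG : ∀ δ φ, G (D.dia δ φ) = D.dia δ (G φ))
    (hFG : ∀ φ, G (D.isLevelMap_res.pull φ) = D.isLevelMap_res.pull (F φ))
    (φ : Homs R (GammaH M H)) :
    D.isLevelMap_res.tr (G φ) = F (D.isLevelMap_res.tr φ) := by
  have := Fintype.ofFinite Δ
  refine pull_one_injective D.isLevelMap_res ?_
  rw [← hFG, D.res_tr, D.res_tr, map_sum]
  exact Finset.sum_congr rfl fun δ _ => (hG δ φ).symm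

end Injective

section Families

variable {O : Type} [CommRing O] {N₀ N : ℕ} [NeZero N]

open scoped Classical in
/-- The involution at `s` at every level over the modulus `N₀`. -/
noncomputable def wFam (O : Type) [CommRing O] {N₀ : ℕ} (v : ℕ → (ZMod N₀)ˣ) (s : ℕ) : OpFam O :=
  fun M _ H' => if h : LevelOver N₀ M H' then wAll h v s else 1

/-- The operator `T q` at every level. -/
noncomputable def tFam (O : Type) [CommRing O] (q : ℕ) [Fact q.Prime] : OpFam O :=
  fun M _ H' => heckeT O M H' q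

variable {v : ℕ → (ZMod N₀)ˣ}

/-- At a level over the modulus the family is the involution. -/
theorem wFam_eq {M : ℕ} [NeZero M] {H' : Subgroup (ZMod M)ˣ} (h : LevelOver N₀ M H') (s : ℕ) :
    wFam O v s M H' = wAll h v s := by
  unfold wFam
  rw [dif_pos h]

/-- The diamond operator of `1` is the identity. -/
theorem diaOp_one {M : ℕ} [NeZero M] {H' : Subgroup (ZMod M)ˣ} (h : LevelOver N₀ M H')
    (φ : Homs O (GammaH M H')) : diaOp h 1 φ = φ := by
  rw [← pull_eq_diaOp h (u := 1) (one_mem _) (by simp [upperMod])]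
  exact pull_gamma0_of_mem (one_mem _) (one_mem _) φ

variable {σ : Type} {p : σ → ℕ} [hp : ∀ i, Fact (p i).Prime] {H : Subgroup (ZMod N)ˣ}

/-- The pulled back level structures are over the same modulus. -/
theorem LevelOver.comap (hN : LevelOver N₀ N H) {M : ℕ} (hM : N ∣ M) :
    LevelOver N₀ M (H.comap (ZMod.unitsMap hM)) :=
  ⟨hN.dvd.trans hM, fun x hx => Subgroup.mem_comap.mpr (hN.ker_le _ (by
    rw [← MonoidHom.comp_apply, ZMod.unitsMap_comp]
    exact hx))⟩

/-- The involution is natural. -/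
theorem natOp_wFam (hN : LevelOver N₀ N H) {s : ℕ} (hs : N₀ * s ∣ N) (hps : ∀ i, p i ≠ s) :
    NatOp p H (wFam O v s) where
  gamma0 M _ hM g hg x := by
    rw [wFam_eq (hN.comap hM)]
    obtain ⟨u, hu⟩ := exists_diaOp_eq_pull (R := O) (hN.comap hM) hg
    rw [hu, hu, wAll_diaOp]
  hecke M _ hM i _ := by
    rw [wFam_eq (hN.comap hM), wAll_heckeT _ s (hps i)]
  up M _ hM i _ hi x := by
    have := hp i
    have h₁ := hN.comap hM
    have h' := h₁.up (p i)
    rw [wFam_eq h₁, wFam_eq h']
    by_cases hw : WPrime N₀ M s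
    · have hw' := hw.mul_prime (hp i).out (hps i)
      rw [wAll_eq _ hw', wAll_eq _ hw]
      simp only [wTw, Module.End.mul_apply]
      rw [wOp_pull_one h' h₁ hw' hw (dvd_mul_right M (p i)),
        pull_one_diaOp (dvd_mul_right M (p i)) h₁ h']
    · have hw' : ¬ WPrime N₀ (M * p i) s := fun h => hw (h.of_mul_prime (hs.trans hM))
      simp [wAll, hw, hw']
  infty M _ hM i _ hi x := by
    have := hp i
    have h₁ := hN.comap hM
    rw [wFam_eq h₁, wFam_eq (h₁.up (p i))]
    by_cases hw : WPrime N₀ M s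
    · have hw' := hw.mul_prime (hp i).out (hps i)
      rw [wAll_eq _ hw', wAll_eq _ hw, pull_infty_eq hi h₁, pull_infty_eq hi h₁]
      simp only [wTw, Module.End.mul_apply]
      rw [← pull_one_diaOp (dvd_mul_right M (p i)) h₁ (h₁.up (p i)), wOp_diaOp,
        wOp_comm _ hw', wOp_pull_one (h₁.up (p i)) h₁ hw' hw (dvd_mul_right M (p i))]
    · have hw' : ¬ WPrime N₀ (M * p i) s := fun h => hw (h.of_mul_prime (hs.trans hM))
      simp [wAll, hw, hw']

/-- `T q` is natural. -/
theorem natOp_tFam {q : ℕ} [hq : Fact q.Prime] (hpq : ∀ i, p i ≠ q)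
    (H : Subgroup (ZMod N)ˣ) : NatOp p H (tFam O q) where
  gamma0 M _ hM g hg x := IsLevelMap.pull_heckeT _ hq.out.not_dvd_one Iff.rfl x
  hecke M _ hM i x := heckeT_comm x
  up M _ hM i _ hi x := by
    have := hp i
    exact IsLevelMap.pull_heckeT isLevelMap_up hq.out.not_dvd_one
      ⟨fun h => (hq.out.dvd_mul.mp h).resolve_right fun h' =>
        hpq i ((Nat.prime_dvd_prime_iff_eq hq.out (hp i).out).mp h').symm,
        fun h => h.mul_right (p i)⟩ x
  infty M _ hM i _ hi x := by
    have := hp i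
    exact IsLevelMap.pull_heckeT (isLevelMap_infty hi)
      (fun h => hpq i ((Nat.prime_dvd_prime_iff_eq hq.out (hp i).out).mp h).symm)
      ⟨fun h => (hq.out.dvd_mul.mp h).resolve_right fun h' =>
        hpq i ((Nat.prime_dvd_prime_iff_eq hq.out (hp i).out).mp h').symm,
        fun h => h.mul_right (p i)⟩ x

variable {F G : OpFam O}

/-- The identity family. -/
noncomputable def oneFam (O : Type) [CommRing O] : OpFam O := fun _ _ _ => 1

/-- The identity is natural. -/
theorem NatOp.one : NatOp p H (oneFam O) where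
  gamma0 _ _ _ _ _ _ := rfl
  hecke _ _ _ _ _ := rfl
  up _ _ _ _ _ _ _ := rfl
  infty _ _ _ _ _ _ _ := rfl

/-- Natural families are closed under composition. -/
theorem NatOp.mul (hF : NatOp p H F) (hG : NatOp p H G) :
    NatOp p H (fun M _ H' => F M H' * G M H') where
  gamma0 M _ hM g hg x := by
    rw [Module.End.mul_apply, Module.End.mul_apply, hG.gamma0 M hM g hg, hF.gamma0 M hM g hg]
  hecke M _ hM i x := by
    rw [Module.End.mul_apply, Module.End.mul_apply, hG.hecke M hM, hF.hecke M hM]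
  up M _ hM i _ hi x := by
    rw [Module.End.mul_apply, Module.End.mul_apply, hG.up M hM i hi, hF.up M hM i hi]
  infty M _ hM i _ hi x := by
    rw [Module.End.mul_apply, Module.End.mul_apply, hG.infty M hM i hi, hF.infty M hM i hi]

/-- Natural families are closed under sums. -/
theorem NatOp.add (hF : NatOp p H F) (hG : NatOp p H G) :
    NatOp p H (fun M _ H' => F M H' + G M H') where
  gamma0 M _ hM g hg x := by
    rw [LinearMap.add_apply, LinearMap.add_apply, hG.gamma0 M hM g hg, hF.gamma0 M hM g hg,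
      map_add]
  hecke M _ hM i x := by
    rw [LinearMap.add_apply, LinearMap.add_apply, hG.hecke M hM, hF.hecke M hM, map_add]
  up M _ hM i _ hi x := by
    rw [LinearMap.add_apply, LinearMap.add_apply, hG.up M hM i hi, hF.up M hM i hi, map_add]
  infty M _ hM i _ hi x := by
    rw [LinearMap.add_apply, LinearMap.add_apply, hG.infty M hM i hi, hF.infty M hM i hi, map_add]

/-- Natural families are closed under scalar multiples. -/
theorem NatOp.smul (hF : NatOp p H F) (c : O) : NatOp p H (fun M _ H' => c • F M H') where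
  gamma0 M _ hM g hg x := by
    rw [LinearMap.smul_apply, LinearMap.smul_apply, hF.gamma0 M hM g hg, map_smul]
  hecke M _ hM i x := by
    rw [LinearMap.smul_apply, LinearMap.smul_apply, hF.hecke M hM, map_smul]
  up M _ hM i _ hi x := by
    rw [LinearMap.smul_apply, LinearMap.smul_apply, hF.up M hM i hi, map_smul]
  infty M _ hM i _ hi x := by
    rw [LinearMap.smul_apply, LinearMap.smul_apply, hF.infty M hM i hi, map_smul]

/-- The product of the projectors `(1 + ε s w s) / 2` over the list, as a family. -/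
noncomputable def symFam (v : ℕ → (ZMod N₀)ˣ) (ε : ℕ → O) : List ℕ → OpFam O
  | [] => oneFam O
  | s :: J => fun M _ H' =>
      (Ring.inverse (2 : O) • (oneFam O M H' + ε s • wFam O v s M H'))
        * symFam v ε J M H'

/-- The projector is natural. -/
theorem natOp_symFam (hN : LevelOver N₀ N H) (ε : ℕ → O) :
    ∀ {J : List ℕ}, (∀ s ∈ J, N₀ * s ∣ N ∧ ∀ i, p i ≠ s) → NatOp p H (symFam v ε J)
  | [], _ => NatOp.one
  | s :: _, h => ((NatOp.one.add ((natOp_wFam hN (h s (List.mem_cons_self ..)).1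
      (h s (List.mem_cons_self ..)).2).smul (ε s))).smul _).mul
        (natOp_symFam hN ε fun t ht => h t (List.mem_cons_of_mem s ht))

/-- At a level over the modulus the family is the projector. -/
theorem symFam_eq {M : ℕ} [NeZero M] {H' : Subgroup (ZMod M)ˣ} (h : LevelOver N₀ M H')
    (ε : ℕ → O) : ∀ J : List ℕ, symFam v ε J M H' = symProj h v ε J
  | [] => rfl
  | s :: J => by
    simp only [symFam, symProj, List.map_cons, List.prod_cons, symFam_eq h ε J, wFam_eq h,
      halfProj, oneFam]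

end Families

section Top

variable {Δ : Type} [CommGroup Δ] {M₀ N₀ M : ℕ} [NeZero M] {H : Subgroup (ZMod M)ˣ}
  {χ₀ : (ZMod M₀)ˣ →* Δ} {D : DiamondQuot M ⊤ H Δ} {O : Type} [CommRing O]
  {H₀ : Subgroup (ZMod M)ˣ} {Δ₂ : Type} [CommGroup Δ₂] {D₂ : DiamondQuot M H₀ H Δ₂}

/-- Restriction commutes with the diamond operators of different moduli. -/
theorem res_diaOp_modulus (hH : LevelOver M₀ M H) (hH₀ : LevelOver N₀ M H₀) (hd₀ : N₀ ∣ M₀)
    (u : (ZMod M₀)ˣ) (φ : Homs O (GammaH M H₀)) :
    diaOp hH u (D₂.isLevelMap_res.pull φ)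
      = D₂.isLevelMap_res.pull (diaOp hH₀ (ZMod.unitsMap hd₀ u) φ) := by
  obtain ⟨h1, h2⟩ := (exists_diaLift hH.dvd u).choose_spec
  have e : upperMod N₀ (exists_diaLift hH.dvd u).choose = (ZMod.unitsMap hd₀ u : ZMod N₀) := by
    rw [ZMod.unitsMap_def, Units.coe_map]
    exact (map_intCast (ZMod.castHom hd₀ (ZMod N₀)) _).symm.trans
      (congrArg (ZMod.castHom hd₀ (ZMod N₀)) h2)
  rw [← pull_eq_diaOp hH₀ h1 e, diaOp, ← IsLevelMap.pull_comp, ← IsLevelMap.pull_comp]
  exact IsLevelMap.pull_congr _ _ (one_mem _) (by rw [map_one, one_mul, one_mul, mul_one]) φ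

/-- Restriction commutes with the symmetrised involutions of different moduli. -/
theorem wAll_res_top (hH : LevelOver M₀ M H) (hH₀ : LevelOver N₀ M H₀) (hd₀ : N₀ ∣ M₀)
    {v : ℕ → (ZMod M₀)ˣ} {v₀ : ℕ → (ZMod N₀)ˣ} {s : ℕ} (hv : ZMod.unitsMap hd₀ (v s) = v₀ s)
    (hw : WPrime M₀ M s) (φ : Homs O (GammaH M H₀)) :
    wAll hH v s (D₂.isLevelMap_res.pull φ) = D₂.isLevelMap_res.pull (wAll hH₀ v₀ s φ) := by
  rw [wAll_eq hH₀ (hw.mono_modulus hd₀), wAll_eq hH hw]
  simp only [wTw, Module.End.mul_apply]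
  rw [wOp_pull_one_modulus hH hH₀ hw (hw.mono_modulus hd₀) hd₀ dvd_rfl,
    res_diaOp_modulus (D₂ := D₂) hH hH₀ hd₀, hv]

end Top

end Fermat.HM
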