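import Fermat.Agent.HM.Raise.Eigen
import Fermat.Agent.HM.Raise.Natural
import Fermat.Agent.HM.FactorForms

/-!
# Operators over a base level: from cusp forms to homomorphisms

At a non-Eisenstein ideal a homomorphism is, under an embedding of the coefficients in `ℂ`, the
periods of a cusp form plus conjugate periods of another one.  So a semisimple polynomial in the
operators kills the homomorphisms killed by given operators once it vanishes at every eigenform at
which those operators vanish.
-/

set_option linter.unusedSectionVars false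

namespace Fermat.HM

open scoped MatrixGroups ComplexConjugate
open MvPolynomial Fermat.MC.Lvl

variable {M₀ K : ℕ} [NeZero K] {H : Subgroup (ZMod K)ˣ}

/-- The operator of a label on cusp forms. -/
noncomputable def formOpOver (hH : LevelOver M₀ K H) :
    Op M₀ → Module.End ℂ (CuspForm (GammaH K H) 2)
  | .hecke l => haveI : Fact (l : ℕ).Prime := ⟨l.2⟩; formHecke K H l
  | .dia u => (isLevelMap_gamma0 (le_refl H) (exists_diaLift hH.dvd u).choose_spec.1).formPull

/-- The periods commute with the operators. -/
theorem formPeriod_formOpOver (hH : LevelOver M₀ K H) (a : Op M₀) (f : CuspForm (GammaH K H) 2) :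
    formPeriod (formOpOver hH a f) = opLin ℂ hH a (formPeriod f) := by
  rcases a with l | u
  · have : Fact (l : ℕ).Prime := ⟨l.2⟩
    exact formPeriod_formMap _ f
  · exact formPeriod_formMap _ f

/-- A cusp form is determined by its periods. -/
theorem formPeriod_injective :
    Function.Injective (formPeriod (N := K) (H := H)) :=
  (injective_iff_map_eq_zero _).mpr fun f hf =>
    (eq_zero_of_formPeriod_add_conj f 0 (by simp [hf])).1

/-- The operators on cusp forms commute. -/
theorem formOpOver_comm (hH : LevelOver M₀ K H) (a b : Op M₀) :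
    formOpOver hH a * formOpOver hH b = formOpOver hH b * formOpOver hH a :=
  LinearMap.ext fun f => formPeriod_injective (by
    simp only [Module.End.mul_apply, formPeriod_formOpOver]
    exact LinearMap.congr_fun (opLin_comm hH a b) _)

/-- Complex polynomials in the operators, on cusp forms. -/
noncomputable def formEval (hH : LevelOver M₀ K H) :
    MvPolynomial (Op M₀) ℂ →ₐ[ℂ] Module.End ℂ (CuspForm (GammaH K H) 2) :=
  commAeval (formOpOver hH) (formOpOver_comm hH)

/-- The periods commute with polynomials in the operators. -/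
theorem formPeriod_formEval (hH : LevelOver M₀ K H) (P : MvPolynomial (Op M₀) ℂ)
    (f : CuspForm (GammaH K H) 2) :
    formPeriod (formEval hH P f) = opsAct ℂ ℂ hH id P (formPeriod f) :=
  intertwine_of_X (formPeriod (N := K) (H := H)) (fun a x => by
    rw [formEval, commAeval_X, opsAct_X, formPeriod_formOpOver]; rfl) P f

section Coefficients

variable {R R' : Type} [CommRing R] [CommRing R']

/-- A change of coefficients commutes with the operators. -/
theorem mapCoeff_opLin (g : R →+* R') (hH : LevelOver M₀ K H) (a : Op M₀)
    (φ : Homs R (GammaH K H)) :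
    mapCoeff g (opLin R hH a φ) = opLin R' hH a (mapCoeff g φ) := by
  rcases a with l | u
  · have : Fact (l : ℕ).Prime := ⟨l.2⟩
    exact mapCoeff_heckeT g φ
  · exact IsLevelMap.mapCoeff_pull _ g φ

/-- A change of coefficients commutes with polynomials in the operators. -/
theorem mapCoeff_opsAct (g : R →+* R') (hH : LevelOver M₀ K H) (P : MvPolynomial (Op M₀) R)
    (φ : Homs R (GammaH K H)) :
    mapCoeff g (opsAct R R hH id P φ)
      = opsAct R' R' hH id (MvPolynomial.map g P) (mapCoeff g φ) := by
  induction P using MvPolynomial.induction_on generalizing φ with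
  | C a =>
    rw [MvPolynomial.map_C, ← MvPolynomial.algebraMap_eq, ← MvPolynomial.algebraMap_eq,
      AlgHom.commutes, AlgHom.commutes, Module.algebraMap_end_apply, Module.algebraMap_end_apply,
      mapCoeff_smul]
  | add P Q hP hQ => simp only [map_add, LinearMap.add_apply, hP, hQ]
  | mul_X P a hP =>
    rw [map_mul, map_mul, map_mul, MvPolynomial.map_X, Module.End.mul_apply, Module.End.mul_apply,
      hP, opsAct_X, opsAct_X, mapCoeff_opLin]

end Coefficients

/-- The Hecke operators prime to the level are semisimple on cusp forms. -/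
def HeckeSemisimple (K : ℕ) [NeZero K] (H : Subgroup (ZMod K)ˣ) : Prop :=
  ∀ l : Nat.Primes, ¬ (l : ℕ) ∣ K → (formOp K H (Sum.inl l)).IsSemisimple

/-- The diamond operators on cusp forms are multiplicative. -/
theorem formOpOver_dia_mul (hH : LevelOver M₀ K H) (u v : (ZMod M₀)ˣ) :
    formOpOver hH (.dia u) * formOpOver hH (.dia v) = formOpOver hH (.dia (u * v)) :=
  LinearMap.ext fun f => formPeriod_injective (by
    simp only [Module.End.mul_apply, formPeriod_formOpOver]
    exact diaOp_mul hH u v _)

/-- The diamond operator of `1` fixes cusp forms. -/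
theorem formOpOver_dia_one (hH : LevelOver M₀ K H) : formOpOver hH (.dia 1) = 1 :=
  LinearMap.ext fun f => formPeriod_injective (by
    rw [formPeriod_formOpOver]
    exact diaOp_one hH _)

/-- The operators away from the level are semisimple on cusp forms. -/
theorem isSemisimple_formOpOver (hs : HeckeSemisimple K H) (hH : LevelOver M₀ K H) {a : Op M₀}
    (hgood : ∀ l : Nat.Primes, a = .hecke l → ¬ (l : ℕ) ∣ K) :
    (formOpOver hH a).IsSemisimple := by
  rcases a with l | u
  · exact hs l (hgood l rfl)
  · have : NeZero M₀ := ⟨fun h => NeZero.ne K (Nat.eq_zero_of_zero_dvd (h ▸ hH.dvd))⟩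
    let F : (ZMod M₀)ˣ →* Module.End ℂ (CuspForm (GammaH K H) 2) :=
      { toFun := fun u => formOpOver hH (.dia u)
        map_one' := formOpOver_dia_one hH
        map_mul' := fun u v => (formOpOver_dia_mul hH u v).symm }
    exact isSemisimple_of_pow_eq_one (orderOf_pos u).ne'
      ((map_pow F u (orderOf u)).symm.trans (by rw [pow_orderOf_eq_one, map_one]))

variable {O : Type} [CommRing O] [IsDomain O] [CharZero O] {σ : Type} {p : σ → ℕ}
  [hp : ∀ i, Fact (p i).Prime] {m : Ideal (MvPolynomial σ O)}

/-- At a non-Eisenstein ideal, under an embedding of the coefficients, a homomorphism is given by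
periods of cusp forms and their conjugates. -/
theorem exists_mapCoeff_eq_formPeriod [NegMem H] (hm : NonEisenstein p m) (u : O →+* ℂ)
    {x : Homs O (GammaH K H)} (hx : x ∈ locPart m (heckeAct O O K H p)) :
    ∃ f g : CuspForm (GammaH K H) 2,
      mapCoeff u x = formPeriod f + mapCoeff (starRingEnd ℂ) (formPeriod g) := by
  obtain ⟨i, hi, hs⟩ := hm K (NeZero.ne K)
  obtain ⟨y, rfl⟩ := (Submodule.mem_iInf _).mp ((Submodule.mem_iInf _).mp hx _) hs
  rw [heckeAct_eisElt]
  obtain ⟨S, hS⟩ := eisen_coker hi y
  obtain ⟨f, g, h⟩ := exists_eq_formPeriod_add_conj (⟨fun a b => u (S.1 a b),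
    fun a b c => by show u _ + u _ = u _; rw [← map_add, S.2.1 a b c],
    fun γ hγ a b => congrArg u (S.2.2 γ hγ a b)⟩ : symbols ℂ (GammaH K H))
  exact ⟨f, g, by rw [← hS, ← h]; exact AddMonoidHom.ext fun _ => rfl⟩

/-- If the periods of `f` and of the conjugate of `g` give `x`, those of their images under an
operator give its image of `x`, the coefficients acting on `g` through the conjugate of `u`. -/
theorem mapCoeff_opsAct_periods (hH : LevelOver M₀ K H) (u : O →+* ℂ)
    (P : MvPolynomial (Op M₀) O) {x : Homs O (GammaH K H)} {f g : CuspForm (GammaH K H) 2}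
    (e : mapCoeff u x = formPeriod f + mapCoeff (starRingEnd ℂ) (formPeriod g)) :
    mapCoeff u (opsAct O O hH id P x) = formPeriod (formEval hH (MvPolynomial.map u P) f)
      + mapCoeff (starRingEnd ℂ)
        (formPeriod (formEval hH (MvPolynomial.map ((starRingEnd ℂ).comp u) P) g)) := by
  have h2 : MvPolynomial.map (starRingEnd ℂ) (MvPolynomial.map ((starRingEnd ℂ).comp u) P)
      = MvPolynomial.map u P := by
    rw [MvPolynomial.map_map]
    congr 2
    exact RingHom.ext fun _ => Complex.conj_conj _
  rw [mapCoeff_opsAct, e, map_add, formPeriod_formEval, formPeriod_formEval, mapCoeff_opsAct, h2]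

omit [IsDomain O] [CharZero O] hp in
/-- An injective change of coefficients is injective on homomorphisms. -/
theorem mapCoeff_injective {u : O →+* ℂ} (hu : Function.Injective u) :
    Function.Injective (mapCoeff u (Γ := GammaH K H)) :=
  fun _ _ h => AddMonoidHom.ext fun γ => hu (DFunLike.congr_fun h γ)

variable {ι : Type} (fam : ι → Op M₀)

/-- Polynomials in a family are polynomials in all the operators. -/
theorem opsAct_fam (hH : LevelOver M₀ K H) (h : MvPolynomial ι O) (x : Homs O (GammaH K H)) :
    opsAct O O hH fam h x = opsAct O O hH id (rename fam h) x :=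
  (opsAct_rename hH id fam h x).symm

/-- Polynomials in operators away from the level are semisimple on cusp forms. -/
theorem isSemisimple_formEval_rename (hs : HeckeSemisimple K H) (hH : LevelOver M₀ K H)
    [NegMem H] (hgood : ∀ i (l : Nat.Primes), fam i = .hecke l → ¬ (l : ℕ) ∣ K)
    (h : MvPolynomial ι ℂ) : (formEval hH (rename fam h)).IsSemisimple :=
  isSemisimple_commAeval_rename _ _ fam (fun i => isSemisimple_formOpOver hs hH (hgood i)) h

/-- **Semisimplicity on homomorphisms**: an operator whose square kills a homomorphism at a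
non-Eisenstein ideal kills it. -/
theorem opsAct_eq_zero_of_sq [NegMem H] (hs : HeckeSemisimple K H) (hH : LevelOver M₀ K H)
    (hgood : ∀ i (l : Nat.Primes), fam i = .hecke l → ¬ (l : ℕ) ∣ K) (hm : NonEisenstein p m)
    {u : O →+* ℂ} (hu : Function.Injective u) (h : MvPolynomial ι O)
    {x : Homs O (GammaH K H)} (hx : x ∈ locPart m (heckeAct O O K H p))
    (h2 : opsAct O O hH fam h (opsAct O O hH fam h x) = 0) : opsAct O O hH fam h x = 0 := by
  obtain ⟨f, g, e⟩ := exists_mapCoeff_eq_formPeriod hm u hx
  rw [opsAct_fam fam hH h x] at h2 ⊢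
  rw [opsAct_fam fam hH h, ← Module.End.mul_apply, ← map_mul] at h2
  have e2 := mapCoeff_opsAct_periods hH u (rename fam h * rename fam h) e
  rw [h2, map_zero] at e2
  obtain ⟨hf, hg⟩ := eq_zero_of_formPeriod_add_conj _ _ e2.symm
  have key : ∀ (v : O →+* ℂ) (w : CuspForm (GammaH K H) 2),
      formEval hH (MvPolynomial.map v (rename fam h * rename fam h)) w = 0 →
        formEval hH (MvPolynomial.map v (rename fam h)) w = 0 := by
    intro v w hw
    rw [map_mul, map_mul, MvPolynomial.map_rename, Module.End.mul_apply] at hw
    rw [MvPolynomial.map_rename]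
    exact apply_eq_zero_of_sq (isSemisimple_formEval_rename fam hs hH hgood _) hw
  refine mapCoeff_injective hu ?_
  rw [mapCoeff_opsAct_periods hH u _ e, key u f hf, key _ g hg, map_zero, map_zero, map_zero,
    add_zero]

/-- **Vanishing at eigenforms gives vanishing on homomorphisms.** -/
theorem opsAct_eq_zero_of_points [NegMem H] (hs : HeckeSemisimple K H) (hH : LevelOver M₀ K H)
    (hgood : ∀ i (l : Nat.Primes), fam i = .hecke l → ¬ (l : ℕ) ∣ K) (hm : NonEisenstein p m)
    {u : O →+* ℂ} (hu : Function.Injective u) {κ : Type} (P : κ → MvPolynomial (Op M₀) O)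
    (h : MvPolynomial ι O)
    (hh : ∀ u' : O →+* ℂ, Function.Injective u' → ∀ f : CuspForm (GammaH K H) 2, f ≠ 0 →
      ∀ μ : Op M₀ → ℂ, (∀ a, formOpOver hH a f = μ a • f) →
        (∀ k, MvPolynomial.eval₂ u' μ (P k) = 0) → MvPolynomial.eval₂ u' (μ ∘ fam) h = 0)
    {x : Homs O (GammaH K H)} (hx : x ∈ locPart m (heckeAct O O K H p))
    (hP : ∀ k, opsAct O O hH id (P k) x = 0) : opsAct O O hH fam h x = 0 := by
  obtain ⟨f, g, e⟩ := exists_mapCoeff_eq_formPeriod hm u hx
  have hker : ∀ k, formEval hH (MvPolynomial.map u (P k)) f = 0 ∧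
      formEval hH (MvPolynomial.map ((starRingEnd ℂ).comp u) (P k)) g = 0 := fun k => by
    have e2 := mapCoeff_opsAct_periods hH u (P k) e
    rw [hP k, map_zero] at e2
    exact eq_zero_of_formPeriod_add_conj _ _ e2.symm
  have key : ∀ (v : O →+* ℂ), Function.Injective v → ∀ w : CuspForm (GammaH K H) 2,
      (∀ k, formEval hH (MvPolynomial.map v (P k)) w = 0) →
        formEval hH (MvPolynomial.map v (rename fam h)) w = 0 := by
    intro v hv w hw
    rw [MvPolynomial.map_rename]
    refine commAeval_eq_zero_on (formOpOver hH) (formOpOver_comm hH)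
      (⨅ k, LinearMap.ker (formEval hH (MvPolynomial.map v (P k)))) (fun a y hy => ?_) _
      (isSemisimple_formEval_rename fam hs hH hgood _) (fun y hy hy0 μ hμ => ?_)
      (Submodule.mem_iInf _ |>.mpr fun k => hw k)
    · simp only [Submodule.mem_iInf, LinearMap.mem_ker] at hy ⊢
      intro k
      rw [show formOpOver hH a = formEval hH (X a) from (commAeval_X _ _ a).symm,
        ← Module.End.mul_apply, ← map_mul, mul_comm, map_mul, Module.End.mul_apply, hy k, map_zero]
    · simp only [Submodule.mem_iInf, LinearMap.mem_ker] at hy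
      rw [MvPolynomial.eval_rename, MvPolynomial.eval_map]
      refine hh v hv y hy0 μ hμ fun k => ?_
      have h1 := hy k
      rw [formEval, commAeval_apply_eigen _ _ hμ, MvPolynomial.eval_map] at h1
      exact (smul_eq_zero.mp h1).resolve_right hy0
  refine mapCoeff_injective hu ?_
  rw [opsAct_fam, mapCoeff_opsAct_periods hH u _ e, key u hu f fun k => (hker k).1,
    key ((starRingEnd ℂ).comp u) ((starRingEnd ℂ).injective.comp hu) g fun k => (hker k).2,
    map_zero, map_zero, map_zero, add_zero]

end Fermat.HM
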