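import Fermat.Agent.HM.Raise.Module
import Fermat.Agent.HM.Residue

/-!
# One more symmetrised prime: split injection, surjection and their quotient

For `q` prime to the level, `alphaSym : symMod J → symMod (q :: J)` is split injective,
`psiSym : symMod (q :: J) → symMod J` is surjective, and
`psiSym ∘ alphaSym` is a unit times `tSym = δ T q + ε (q + 1)`.
-/

set_option linter.overlappingInstances false
set_option linter.unusedSectionVars false

namespace Fermat.HM

open scoped MatrixGroups
open Fermat.MC.Lvl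

variable {M₀ : ℕ} {Δ : Type} [CommGroup Δ] {χ₀ : (ZMod M₀)ˣ →* Δ} {M q : ℕ} [NeZero M]
  [hq : Fact q.Prime] [NeZero (M * q)] {H : Subgroup (ZMod M)ˣ} {D : DiamondQuot M ⊤ H Δ}
  {O : Type} [CommRing O] [IsLocalRing O] [IsDomain O] [IsDiscreteValuationRing O]
  [IsAdicComplete (IsLocalRing.maximalIdeal O) O] {σ : Type} {p : σ → ℕ}
  [hp' : ∀ i, Fact (p i).Prime] (m : Ideal (MvPolynomial σ O)) {v : ℕ → (ZMod M₀)ˣ} (ε : ℕ → O)
  {J : List ℕ}

/-- The hypotheses for adding `q` to the symmetrised primes `J`. -/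
structure StepData (χ₀ : (ZMod M₀)ˣ →* Δ) (p : σ → ℕ) (v : ℕ → (ZMod M₀)ˣ) (ε : ℕ → O)
    (M q : ℕ) (J : List ℕ) : Prop where
  /-- `q` is prime to the level. -/
  not_dvd : ¬ q ∣ M
  /-- The hypotheses for `J` at level `M`. -/
  lower : SymData χ₀ v ε M J
  /-- The hypotheses for `q :: J` at level `M * q`. -/
  upper : SymData χ₀ v ε (M * q) (q :: J)
  /-- None of the primes belongs to the family. -/
  family : ∀ s ∈ q :: J, ∀ i, p i ≠ s
  /-- `q` is a new prime. -/
  not_mem : q ∉ J

variable {ε}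

/-- The operators avoid the primes of the shorter list. -/
theorem StepData.family_tail (h : StepData χ₀ p v ε M q J) : ∀ s ∈ J, ∀ i, p i ≠ s :=
  fun s hs => h.family s (List.mem_cons_of_mem q hs)

/-- The added prime is not in the list. -/
theorem StepData.ne (h : StepData χ₀ p v ε M q J) {s : ℕ} (hs : s ∈ J) : s ≠ q :=
  fun e => h.not_mem (e ▸ hs)

/-- Restriction commutes with the involutions of the shorter list. -/
theorem LevelChar.wAll_res (hD : LevelChar χ₀ D) (h : StepData χ₀ p v ε M q J) {s : ℕ}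
    (hs : s ∈ J) (φ : Homs O (GammaH M H)) :
    (isLevelMap_up (H := H) (q := q)).pull (wAll hD.lvl v s φ)
      = wAll (hD.lvl.up q) v s ((isLevelMap_up (H := H) (q := q)).pull φ) := by
  rw [wAll_eq _ (h.lower.wprime s hs), wAll_eq _ (h.upper.wprime s (List.mem_cons_of_mem q hs))]
  simp only [wTw, Module.End.mul_apply]
  rw [← pull_one_diaOp (dvd_mul_right M q) hD.lvl (hD.lvl.up q),
    ← wOp_pull_one (hD.lvl.up q) hD.lvl (h.upper.wprime s (List.mem_cons_of_mem q hs))
      (h.lower.wprime s hs) (dvd_mul_right M q)]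

/-- The symmetrised degeneracy map commutes with the involutions of the shorter list. -/
theorem LevelChar.wAll_raiseMap (hD : LevelChar χ₀ D) (h : StepData χ₀ p v ε M q J) {s : ℕ}
    (hs : s ∈ J) (φ : Homs O (GammaH M H)) :
    raiseMap h.not_dvd hD.lvl (v q) (ε q) (wAll hD.lvl v s φ)
      = wAll (hD.lvl.up q) v s (raiseMap h.not_dvd hD.lvl (v q) (ε q) φ) := by
  rw [wAll_eq _ (h.lower.wprime s hs), wAll_eq _ (h.upper.wprime s (List.mem_cons_of_mem q hs))]
  simp only [wTw, Module.End.mul_apply]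
  rw [raiseMap_diaOp, raiseMap_wOp]

/-- The trace commutes with the involutions of the shorter list. -/
theorem LevelChar.wAll_psi [CharZero O] (hD : LevelChar χ₀ D) (h : StepData χ₀ p v ε M q J)
    {s : ℕ} (hs : s ∈ J) (φ : Homs O (GammaH (M * q) (upH H q))) :
    psi H h.not_dvd (wAll (hD.lvl.up q) v s φ) = wAll hD.lvl v s (psi H h.not_dvd φ) := by
  rw [wAll_eq _ (h.lower.wprime s hs), wAll_eq _ (h.upper.wprime s (List.mem_cons_of_mem q hs))]
  simp only [wTw, Module.End.mul_apply]
  rw [psi_diaOp h.not_dvd hD.lvl, psi_wOp h.not_dvd hD.lvl _ _ (h.ne hs)]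

/-- The root at `q`: `u = q⁻¹` with `v² u` acting trivially and `v u` having class inverse to
that of `v`. -/
theorem LevelChar.diaOp_root (hD : LevelChar χ₀ D) (h : StepData χ₀ p v ε M q J) :
    ∃ u : (ZMod M₀)ˣ, (u : ZMod M₀) * q = 1 ∧
      (∀ φ : Homs O (GammaH (M * q) (upH H q)), diaOp (hD.lvl.up q) (v q * v q * u) φ = φ) ∧
      χ₀ (v q * u) = (χ₀ (v q))⁻¹ := by
  obtain ⟨u, hu, hχ⟩ := h.upper.root q (List.mem_cons_self ..)
  refine ⟨u, hu, fun φ => ?_, ?_⟩
  · have e := (hD.up q).diaOp_eq (R := O) (v q * v q * u) φ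
    rw [hχ, map_one, Module.End.one_apply] at e
    exact e
  · rw [eq_inv_iff_mul_eq_one, ← map_mul, mul_right_comm, hχ]

/-- The map `symMod J → symMod (q :: J)` induced by `raiseMap`. -/
noncomputable def alphaSym (hD : LevelChar χ₀ D) (h : StepData χ₀ p v ε M q J) :
    symMod m ε hD v J h.family_tail →ₗ[MonoidAlgebra O Δ]
      symMod m ε (hD.up q) v (q :: J) h.family :=
  ((DiamondQuot.LocMod.map (D' := D.up q) (raiseMap h.not_dvd hD.lvl (v q) (ε q))
      (raiseMap_heckeAct h.not_dvd hD.lvl (v q) (ε q) (h.family q (List.mem_cons_self ..)))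
      (fun δ x => by
        obtain ⟨u, rfl⟩ := hD.exists_eq δ
        rw [← hD.diaOp_eq, raiseMap_diaOp, (hD.up q).diaOp_eq])).comp
    (symMod m ε hD v J h.family_tail).subtype).codRestrict _ fun x => by
      obtain ⟨u, hu, hv, -⟩ := hD.diaOp_root h
      refine (mem_symMod_iff (hD.up q) h.upper h.family _).mpr fun s hs => ?_
      rw [LinearMap.comp_apply, DiamondQuot.LocMod.coe_map]
      rcases List.mem_cons.mp hs with rfl | hs'
      · rw [wAll_eq _ (h.upper.wprime s hs)]
        exact wTw_raiseMap h.not_dvd hD.lvl (v s) (ε s) hu (h.upper.sign s hs) hv _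
      · rw [← hD.wAll_raiseMap h hs']
        change raiseMap _ _ _ _ (wAll hD.lvl v s (x.1.val : Homs O (GammaH M H))) = _
        rw [(mem_symMod_iff hD h.lower h.family_tail _).mp x.2 s hs', map_smul]
        rfl

/-- The split injection is given by the symmetrised degeneracy map. -/
theorem coe_alphaSym (hD : LevelChar χ₀ D) (h : StepData χ₀ p v ε M q J)
    (x : symMod m ε hD v J h.family_tail) :
    ((alphaSym m hD h x).1.val : Homs O (GammaH (M * q) (upH H q)))
      = raiseMap h.not_dvd hD.lvl (v q) (ε q) (x.1.val : Homs O (GammaH M H)) := rfl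

/-- The operator `δ T q + ε (q + 1)`. -/
noncomputable def tSym (hD : LevelChar χ₀ D) (h : StepData χ₀ p v ε M q J) :
    symMod m ε hD v J h.family_tail →ₗ[MonoidAlgebra O Δ] symMod m ε hD v J h.family_tail :=
  ((DiamondQuot.LocMod.map (D' := D) (diaOp hD.lvl (v q) * heckeT O M H q
      + (ε q * (q + 1 : ℕ)) • 1)
      (fun a x => by
        refine intertwine_of_X _ (fun i y => ?_) a x
        simp only [heckeAct_X, LinearMap.add_apply, LinearMap.smul_apply, Module.End.mul_apply,
          Module.End.one_apply, map_add, map_smul]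
        rw [← diaOp_heckeT, heckeT_comm])
      (fun δ x => by
        obtain ⟨u, rfl⟩ := hD.exists_eq δ
        rw [← hD.diaOp_eq, ← hD.diaOp_eq]
        simp only [LinearMap.add_apply, LinearMap.smul_apply, Module.End.mul_apply,
          Module.End.one_apply, map_add, map_smul]
        rw [← diaOp_heckeT, diaOp_mul, diaOp_mul, mul_comm])).comp
    (symMod m ε hD v J h.family_tail).subtype).codRestrict _ fun x => by
      refine (mem_symMod_iff hD h.lower h.family_tail _).mpr fun s hs => ?_
      rw [LinearMap.comp_apply, DiamondQuot.LocMod.coe_map]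
      simp only [LinearMap.add_apply, LinearMap.smul_apply, Module.End.mul_apply,
        Module.End.one_apply, map_add, map_smul]
      rw [wAll_diaOp, wAll_heckeT _ _ (h.ne hs).symm]
      change _ + (ε q * _) • wAll hD.lvl v s (x.1.val : Homs O (GammaH M H)) = _
      rw [show wAll hD.lvl v s (((symMod m ε hD v J h.family_tail).subtype x).val :
        Homs O (GammaH M H))
          = ε s • (x.1.val : Homs O (GammaH M H)) from
        (mem_symMod_iff hD h.lower h.family_tail _).mp x.2 s hs, map_smul, map_smul,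
        (mem_symMod_iff hD h.lower h.family_tail _).mp x.2 s hs, smul_add]
      simp only [smul_smul, mul_comm]
      rfl

section CharZero

variable [CharZero O]

/-- The surjection `symMod (q :: J) → symMod J` induced by the trace `psi`. -/
noncomputable def psiSym (hD : LevelChar χ₀ D) (h : StepData χ₀ p v ε M q J) :
    symMod m ε (hD.up q) v (q :: J) h.family →ₗ[MonoidAlgebra O Δ]
      symMod m ε hD v J h.family_tail :=
  ((DiamondQuot.LocMod.map (D' := D) (psi H h.not_dvd)
      (psi_heckeAct h.not_dvd hD.lvl (h.family q (List.mem_cons_self ..)))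
      (fun δ x => by
        obtain ⟨u, rfl⟩ := hD.exists_eq δ
        rw [← (hD.up q).diaOp_eq, psi_diaOp h.not_dvd hD.lvl, hD.diaOp_eq])).comp
    (symMod m ε (hD.up q) v (q :: J) h.family).subtype).codRestrict _ fun x => by
      refine (mem_symMod_iff hD h.lower h.family_tail _).mpr fun s hs => ?_
      rw [LinearMap.comp_apply, DiamondQuot.LocMod.coe_map, ← hD.wAll_psi h hs]
      change psi H h.not_dvd (wAll (hD.lvl.up q) v s (x.1.val : Homs O _)) = _
      rw [(mem_symMod_iff (hD.up q) h.upper h.family _).mp x.2 s (List.mem_cons_of_mem q hs),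
        map_smul]
      rfl

/-- The surjection is given by the trace. -/
theorem coe_psiSym (hD : LevelChar χ₀ D) (h : StepData χ₀ p v ε M q J)
    (x : symMod m ε (hD.up q) v (q :: J) h.family) :
    ((psiSym m hD h x).1.val : Homs O (GammaH M H))
      = psi H h.not_dvd (x.1.val : Homs O (GammaH (M * q) (upH H q))) := rfl

/-- `psi ∘ alpha` is a unit times `δ T + ε (q + 1)`. -/
theorem psiSym_alphaSym (hD : LevelChar χ₀ D) (h : StepData χ₀ p v ε M q J)
    (x : symMod m ε hD v J h.family_tail) :
    psiSym m hD h (alphaSym m hD h x)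
      = MonoidAlgebra.of O Δ (χ₀ (v q))⁻¹ • tSym m hD h x := by
  obtain ⟨u, hu, -, hχ⟩ := hD.diaOp_root h
  refine Subtype.ext (DiamondQuot.LocMod.ext_val ?_)
  rw [coe_psiSym, coe_alphaSym, psi_raiseMap h.not_dvd hD.lvl (v q) (ε q) hu]
  rw [SetLike.val_smul, DiamondQuot.LocMod.of_smul, D.coe_diaLoc]
  change _ = D.dia (χ₀ (v q))⁻¹ ((diaOp hD.lvl (v q) * heckeT O M H q
    + (ε q * (q + 1 : ℕ)) • 1 : Module.End O (Homs O (GammaH M H)))
    (x.1.val : Homs O (GammaH M H)))
  simp only [LinearMap.add_apply, LinearMap.smul_apply, Module.End.mul_apply, Module.End.one_apply,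
    map_add, map_smul]
  rw [hD.diaOp_eq, hD.diaOp_eq, hχ, ← Module.End.mul_apply (D.dia _) (D.dia _), ← map_mul,
    inv_mul_cancel, map_one, Module.End.one_apply]

/-- **The surjection is onto.** At a non-Eisenstein ideal and good levels `psiSym` is surjective. -/
theorem psiSym_surjective (hD : LevelChar χ₀ D) (h : StepData χ₀ p v ε M q J)
    (hΓ : GoodLevel O (GammaH M H)) (hΓ' : GoodLevel O (GammaH (M * q) (upH H q)))
    [m.IsMaximal] (hne : NonEisenstein p m) :
    Function.Surjective (psiSym m hD h) := by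
  intro y
  obtain ⟨x, hx, hx₁, hx₂⟩ := exists_trPair_eq hΓ hΓ' hne hq.out.one_lt
    (hq.out.coprime_iff_not_dvd.mpr h.not_dvd) (isLevelMap_up (H := H) (q := q))
    (isLevelMap_scaleUp (H := H) (q := q))
    (goodFor_up (h.family q (List.mem_cons_self ..)))
    (goodFor_scaleUp (h.family q (List.mem_cons_self ..))) (zero_mem _) y.1.val.2
  have hψ : psi H h.not_dvd x = (y.1.val : Homs O (GammaH M H)) := by rw [psi_eq_tr, hx₂]
  have hψw : psi H h.not_dvd (wq H h.not_dvd x) = 0 := by rw [psi_wq_eq_tr, hx₁, map_zero]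
  refine ⟨(2 : O) • (symEnd m ε (hD.up q) v (q :: J) h.family).rangeRestrict ⟨⟨x, hx⟩⟩, ?_⟩
  refine Subtype.ext (DiamondQuot.LocMod.ext_val ?_)
  rw [← algebraMap_smul (MonoidAlgebra O Δ) (2 : O), map_smul, algebraMap_smul]
  change (2 : O) • psi H h.not_dvd (symProj (hD.up q).lvl v ε (q :: J) x) = _
  have hsp : ∀ φ, psi H h.not_dvd (symProj (hD.up q).lvl v ε J φ)
      = symProj hD.lvl v ε J (psi H h.not_dvd φ) := fun φ =>
    symProj_comm (hD.up q).lvl hD.lvl (psi H h.not_dvd) (fun s hs ψ => hD.wAll_psi h hs ψ) φ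
  have hw : psi H h.not_dvd (wAll (hD.up q).lvl v q (symProj (hD.up q).lvl v ε J x)) = 0 := by
    rw [wAll_symProj, hsp, wAll_eq _ (h.upper.wprime q (List.mem_cons_self ..))]
    simp only [wTw, Module.End.mul_apply]
    rw [psi_diaOp h.not_dvd hD.lvl, ← wq_eq_wOp h.not_dvd hD.lvl, hψw, map_zero, map_zero]
  have hproj : symProj hD.lvl v ε J (y.1.val : Homs O (GammaH M H)) = y.1.val :=
    hD.symProj_eq_self h.lower (List.Subset.refl J)
      ((mem_symMod_iff hD h.lower h.family_tail _).mp y.2)
  simp only [symProj, List.map_cons, List.prod_cons, Module.End.mul_apply] at hw hsp hproj ⊢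
  rw [halfProj_apply, map_smul, map_add, map_smul, hw, hsp, hψ, hproj, smul_zero, add_zero,
    smul_smul, Ring.mul_inverse_cancel _ h.lower.two, one_smul]

end CharZero

/-- **The injection splits.** At a non-Eisenstein ideal `alphaSym` has a left inverse linear over
the group ring. -/
theorem exists_leftInverse_alphaSym {pp : ℕ} [Fact pp.Prime]
    (hpm : (pp : O) ∈ IsLocalRing.maximalIdeal O) [Finite Δ] (hΔ : IsPGroup pp Δ)
    (hD : LevelChar χ₀ D) (h : StepData χ₀ p v ε M q J) (hΓ₀ : GoodLevel O (GammaH M ⊤))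
    (hΓ : GoodLevel O (GammaH M H)) (hΓ₀' : GoodLevel O (GammaH (M * q) ⊤))
    (hΓ' : GoodLevel O (GammaH (M * q) (upH H q))) [m.IsMaximal] (hne : NonEisenstein p m) :
    ∃ g, g ∘ₗ alphaSym m hD h = LinearMap.id := by
  have := finite_homs (O := O) hΓ
  have := finite_homs (O := O) hΓ'
  have := (free_symMod hpm hΔ hΓ₀ hΓ hne hD h.lower h.family_tail).1
  have := (free_symMod hpm hΔ hΓ₀ hΓ hne hD h.lower h.family_tail).2
  have := (free_symMod hpm hΔ hΓ₀' hΓ' hne (hD.up q) h.upper h.family).1
  have := (free_symMod hpm hΔ hΓ₀' hΓ' hne (hD.up q) h.upper h.family).2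
  refine exists_leftInverse_of_inj_mod hpm hΔ (alphaSym m hD h) fun x hx => ?_
  set 𝔪 := IsLocalRing.maximalIdeal O
  -- the coercion to homomorphisms and the projection back
  let c' : symMod m ε (hD.up q) v (q :: J) h.family →ₗ[O] Homs O (GammaH (M * q) (upH H q)) :=
    { toFun := fun z => z.1.val
      map_add' := fun _ _ => rfl
      map_smul' := fun a z => by
        rw [RingHom.id_apply]
        rfl }
  let π : Homs O (GammaH M H) →ₗ[O] symMod m ε hD v J h.family_tail :=
    { toFun := fun z => (symEnd m ε hD v J h.family_tail).rangeRestrict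
        ⟨toLoc m (heckeAct O O M H p) z⟩
      map_add' := fun a b => by
        rw [← map_add]
        congr 1
        exact DiamondQuot.LocMod.ext_val (by simp)
      map_smul' := fun a z => by
        refine Subtype.ext (DiamondQuot.LocMod.ext_val ?_)
        change symProj hD.lvl v ε J (toLoc m (heckeAct O O M H p) (a • z) : Homs O _)
          = a • symProj hD.lvl v ε J (toLoc m (heckeAct O O M H p) z : Homs O _)
        rw [map_smul, SetLike.val_smul, map_smul] }
  have hπ : π (x.1.val : Homs O (GammaH M H)) = x := Subtype.ext (DiamondQuot.LocMod.ext_val (by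
    change symProj hD.lvl v ε J (toLoc m (heckeAct O O M H p) (x.1.val : Homs O _) : Homs O _) = _
    rw [toLoc_coe]
    exact hD.symProj_eq_self h.lower (List.Subset.refl J)
      ((mem_symMod_iff hD h.lower h.family_tail _).mp x.2)))
  have h1 : c' (alphaSym m hD h x) ∈ 𝔪 • (⊤ : Submodule O _) := by
    have : c' (alphaSym m hD h x) ∈ (𝔪 • (⊤ : Submodule O _)).map c' := ⟨_, hx, rfl⟩
    rw [Submodule.map_smul''] at this
    exact Submodule.smul_mono le_rfl le_top this
  -- Ihara's lemma modulo `𝔪`: the raising map is injective.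
  have h2 : mapCoeffL (red (O := O)) (x.1.val : Homs O (GammaH M H)) = 0 := by
    refine raiseMap_eq_zero h.not_dvd hD.lvl (v q) ((red (O := O)).toRingHom (ε q))
      (hΓ.map (red (O := O)).toRingHom) (hΓ'.map (red (O := O)).toRingHom) hne
      (h.family q (List.mem_cons_self ..))
      (apply_mem_locPart (f := mapCoeffL red) (fun a y => mapCoeff_heckeAct red a y) x.1.val.2) ?_
    rw [mapCoeffL_apply, ← mapCoeff_raiseMap, ← coe_alphaSym m hD h x, ← mapCoeffL_apply]
    exact DiamondQuot.red_eq_zero_of_mem_smul h1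
  have h3 : π (x.1.val : Homs O (GammaH M H)) ∈
      (𝔪 • (⊤ : Submodule O _)).map π := ⟨_, mem_smul_top_of_red_eq_zero h2, rfl⟩
  rw [Submodule.map_smul'', hπ] at h3
  exact Submodule.smul_mono le_rfl le_top h3

/-- The module special at `q`. -/
abbrev newMod (hD : LevelChar χ₀ D) (h : StepData χ₀ p v ε M q J) : Type :=
  symMod m ε (hD.up q) v (q :: J) h.family ⧸ LinearMap.range (alphaSym m hD h)

/-- **The module special at `q` is free.** The quotient `newMod` is finite free over the diamond
group ring. -/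
theorem free_newMod {pp : ℕ} [Fact pp.Prime] (hpm : (pp : O) ∈ IsLocalRing.maximalIdeal O)
    [Finite Δ] (hΔ : IsPGroup pp Δ) (hD : LevelChar χ₀ D) (h : StepData χ₀ p v ε M q J)
    (hΓ₀ : GoodLevel O (GammaH M ⊤)) (hΓ : GoodLevel O (GammaH M H))
    (hΓ₀' : GoodLevel O (GammaH (M * q) ⊤))
    (hΓ' : GoodLevel O (GammaH (M * q) (upH H q))) [m.IsMaximal] (hne : NonEisenstein p m) :
    Module.Free (MonoidAlgebra O Δ) (newMod m hD h) ∧
      Module.Finite (MonoidAlgebra O Δ) (newMod m hD h) := by
  obtain ⟨g, hg⟩ := exists_leftInverse_alphaSym m hpm hΔ hD h hΓ₀ hΓ hΓ₀' hΓ' hne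
  have := isLocalRing_monoidAlgebra hpm hΔ
  have := (free_symMod hpm hΔ hΓ₀' hΓ' hne (hD.up q) h.upper h.family).1
  have := (free_symMod hpm hΔ hΓ₀' hΓ' hne (hD.up q) h.upper h.family).2
  set r := LinearMap.range (alphaSym m hD h)
  let sec : newMod m hD h →ₗ[MonoidAlgebra O Δ] symMod m ε (hD.up q) v (q :: J) h.family :=
    r.liftQ (LinearMap.id - alphaSym m hD h ∘ₗ g) (by
      rintro _ ⟨z, rfl⟩
      have e : g (alphaSym m hD h z) = z := LinearMap.congr_fun hg z
      simp [LinearMap.mem_ker, e])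
  have : Module.Projective (MonoidAlgebra O Δ) (newMod m hD h) :=
    Module.Projective.of_split sec r.mkQ (Submodule.linearMap_qext r (LinearMap.ext fun z => by
      change r.mkQ (z - alphaSym m hD h (g z)) = r.mkQ z
      rw [map_sub, sub_eq_self]
      exact (Submodule.Quotient.mk_eq_zero r).mpr ⟨g z, rfl⟩))
  exact ⟨Module.free_of_flat_of_isLocalRing, inferInstance⟩

/-- The surjection from the module special at `q` to the quotient by `tSym`. -/
noncomputable def newToOld [CharZero O] (hD : LevelChar χ₀ D) (h : StepData χ₀ p v ε M q J) :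
    newMod m hD h →ₗ[MonoidAlgebra O Δ]
      symMod m ε hD v J h.family_tail ⧸ LinearMap.range (tSym m hD h) :=
  Submodule.mapQ _ _ (psiSym m hD h) (by
    rintro _ ⟨z, rfl⟩
    rw [Submodule.mem_comap, psiSym_alphaSym]
    exact ⟨MonoidAlgebra.of O Δ (χ₀ (v q))⁻¹ • z, map_smul _ _ _⟩)

/-- The map to the quotient by `tSym` is surjective. -/
theorem newToOld_surjective [CharZero O] (hD : LevelChar χ₀ D) (h : StepData χ₀ p v ε M q J)
    (hΓ : GoodLevel O (GammaH M H)) (hΓ' : GoodLevel O (GammaH (M * q) (upH H q)))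
    [m.IsMaximal] (hne : NonEisenstein p m) :
    Function.Surjective (newToOld m hD h) := by
  intro y
  obtain ⟨y, rfl⟩ := Submodule.Quotient.mk_surjective _ y
  obtain ⟨x, rfl⟩ := psiSym_surjective m hD h hΓ hΓ' hne y
  exact ⟨Submodule.Quotient.mk x, rfl⟩

end Fermat.HM
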