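import Fermat.Agent.HM.AtkinLehner
import Fermat.Agent.MC.Lvl.LevelH
import Fermat.Agent.HM.Push

/-!
# The two traces from level `N q` to level `N`

`psi` is the trace along `diag(q, 1)`, and `psi ∘ w` is the plain trace followed by the diamond
operator of the Atkin-Lehner element.
-/

namespace Fermat.HM

open scoped MatrixGroups
open CongruenceSubgroup Matrix Fermat.MC.Lvl

namespace Reps

variable {Γ Γ' : Subgroup SL(2, ℤ)} {ι ι' : Type} [Fintype ι] [Fintype ι'] {R : Type*} [CommRing R]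

/-- Two families agreeing up to a central factor give the same operator. -/
theorem homMap_congr_scalar (P : Reps Γ Γ' ι) (Q : Reps Γ Γ' ι') (c : GL (Fin 2) ℚ)
    (hc : ∀ Y, c * Y = Y * c) (hdet : 0 < (c : Matrix (Fin 2) (Fin 2) ℚ).det)
    (hPQ : ∀ i, ∃ k, ∃ d ∈ Γ, P.B i = c * (gq d * Q.B k))
    (hQP : ∀ k, ∃ i, ∃ d ∈ Γ, c * Q.B k = gq d * P.B i) (φ : Homs R Γ) :
    P.homMap φ = Q.homMap φ := by
  have hcd : ∀ (d : SL(2, ℤ)) (B : GL (Fin 2) ℚ), c * (gq d * B) = gq d * (c * B) := fun d B => by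
    rw [← mul_assoc, hc, mul_assoc]
  let Qc : Reps Γ Γ' ι' :=
    { B := fun k => c * Q.B k
      det_B := fun k => by rw [Units.val_mul, det_mul]; exact mul_pos hdet (Q.det_B k)
      rperm := fun γ hγ k => by
        obtain ⟨l, d, hd, e⟩ := Q.rperm γ hγ k
        exact ⟨l, d, hd, by rw [mul_assoc, e, hcd]⟩
      uniqB := fun i k d hd e => Q.uniqB i k d hd (mul_left_cancel (a := c)
        (by rw [hcd]; exact e)) }
  have hQ : Qc.homMap φ = Q.homMap φ := by
    refine AddMonoidHom.ext fun γ => ?_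
    obtain ⟨γ, rfl⟩ := Additive.ofMul.surjective γ
    rw [homMap_apply, homMap_apply]
    refine Finset.sum_congr rfl fun i _ => ?_
    congr 2
    refine (Qc.eq_of_decomp (γ := γ) (i := i) (k := Q.perm γ i) (d := Q.elt γ i) ?_).2.symm
    change c * Q.B i * gq (γ : SL(2, ℤ)) = gq (Q.elt γ i : SL(2, ℤ)) * (c * Q.B (Q.perm γ i))
    rw [mul_assoc, Q.mul_gq, hcd]
  rw [← hQ]
  refine homMap_congr P Qc (fun i => ?_) ?_ φ
  · obtain ⟨k, d, hd, e⟩ := hPQ i
    exact ⟨k, d, hd, e.trans (hcd d _)⟩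
  · choose f d hd hf using hQP
    refine Fintype.card_le_of_injective f fun k k' h => ?_
    refine (Qc.uniqB k k' ((d k') * (d k)⁻¹) (mul_mem (hd k') (inv_mem (hd k))) ?_)
    change gq _ * (c * Q.B k) = c * Q.B k'
    rw [hf k, hf k', h, map_mul, map_inv, mul_assoc, inv_mul_cancel_left]

end Reps

variable {N q : ℕ} [NeZero N] [hq : Fact q.Prime] [NeZero (N * q)] {H : Subgroup (ZMod N)ˣ}
  {R : Type} [CommRing R]

/-- The scalar matrix `q`. -/
noncomputable def scalarGL (q : ℕ) [NeZero q] : GL (Fin 2) ℚ :=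
  GeneralLinearGroup.mkOfDetNeZero !![(q : ℚ), 0; 0, (q : ℚ)]
    (by simp [det_fin_two_of, NeZero.ne q])

/-- The scalar matrix is central. -/
theorem scalarGL_comm (q : ℕ) [NeZero q] (Y : GL (Fin 2) ℚ) : scalarGL q * Y = Y * scalarGL q := by
  apply Units.ext
  rw [Units.val_mul, Units.val_mul]
  ext a b
  fin_cases a <;> fin_cases b <;> simp [scalarGL, Matrix.mul_apply, Fin.sum_univ_two, mul_comm]

/-- The scalar matrix has positive determinant. -/
theorem det_scalarGL_pos (q : ℕ) [NeZero q] :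
    0 < (scalarGL q : Matrix (Fin 2) (Fin 2) ℚ).det := by
  have : (0 : ℚ) < q := by exact_mod_cast Nat.pos_of_ne_zero (NeZero.ne q)
  simp only [scalarGL, GeneralLinearGroup.val_mkOfDetNeZero, det_fin_two_of]
  nlinarith

omit [NeZero N] [NeZero (N * q)] in
/-- Each standard representative is `q diag(q, 1)⁻¹` times an element of the level. -/
theorem exists_stdGL_eq (hqN : ¬ q ∣ N) (k : HeckeIdx q N) :
    ∃ u ∈ GammaH N H, stdGL q N k = scalarGL q * ((scaleGL q)⁻¹ * gq u) := by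
  have main : ∀ u : SL(2, ℤ), u ∈ GammaH N H →
      (scaleGL q : Matrix (Fin 2) (Fin 2) ℚ) * (stdGL q N k : Matrix (Fin 2) (Fin 2) ℚ)
        = (scalarGL q : Matrix (Fin 2) (Fin 2) ℚ) * (gq u : Matrix (Fin 2) (Fin 2) ℚ) →
      stdGL q N k = scalarGL q * ((scaleGL q)⁻¹ * gq u) := fun u _ e => by
    rw [← mul_assoc, scalarGL_comm, mul_assoc, eq_inv_mul_iff_mul_eq]
    exact Units.ext (by rw [Units.val_mul, Units.val_mul]; exact e)
  obtain ⟨k, hk⟩ := k
  rcases k with _ | j
  · let u : SL(2, ℤ) := ⟨!![Int.gcdA q N * q, -Int.gcdB q N; (N : ℤ), 1], by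
      rw [det_fin_two_of]; linear_combination bezout hqN⟩
    have hu : u ∈ GammaH N H := by
      refine mem_GammaH_iff_upper.mpr ⟨Gamma0_mem.mpr (by simp [u]), 1, one_mem H, ?_⟩
      have e := congrArg (fun x : ℤ => (x : ZMod N)) (bezout hqN)
      simp at e
      simp [u]
      linear_combination -e
    refine ⟨u, hu, main u hu ?_⟩
    rw [coe_stdGL, coe_gq]
    ext a b
    fin_cases a <;> fin_cases b <;>
      simp [u, scalarGL, scaleGL, heckeMat, Matrix.mul_apply, Fin.sum_univ_two]; ring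
  · have hu : ModularGroup.T ^ ((j : ℕ) : ℤ) ∈ GammaH N H :=
      zpow_mem T_mem_GammaH _
    refine ⟨_, hu, main _ hu ?_⟩
    rw [coe_stdGL, coe_gq]
    ext a b
    fin_cases a <;> fin_cases b <;>
      simp [scalarGL, scaleGL, heckeMat, Matrix.mul_apply, Fin.sum_univ_two,
        ModularGroup.coe_T_zpow, -map_zpow, -zpow_natCast]

omit [NeZero N] [NeZero (N * q)] in
/-- Scaling by `q` maps level `N` to level `N q`. -/
theorem isLevelMap_scaleUp : IsLevelMap H (upH H q) q (scaleGL q) :=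
  isLevelMap_scale dvd_rfl (Subgroup.map_comap_le _ _)

/-- The index `0`. -/
def zeroIdx (q N : ℕ) [hq : Fact q.Prime] : HeckeIdx q N :=
  ⟨Option.some ⟨0, hq.out.pos⟩, fun h => (Option.some_ne_none _ h).elim⟩

/-- `psi` is the trace along `diag(q, 1)`. -/
theorem psi_eq_tr (hqN : ¬ q ∣ N) (φ : Homs R (GammaH (N * q) (upH H q))) :
    psi H hqN φ = (isLevelMap_scaleUp (H := H) (q := q)).tr φ := by
  set h := isLevelMap_scaleUp (H := H) (q := q)
  have hkey : ∀ u ∈ GammaH N H, ∃ i, ∃ d ∈ GammaH (N * q) (upH H q),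
      (scaleGL q)⁻¹ * gq u = gq d * h.push.toReps.B i := by
    intro u hu
    obtain ⟨i, e, he, hi⟩ := h.exists_traceRep_eq ⟨u, hu⟩
    obtain ⟨-, γ', hγ', he'⟩ := mem_traceSub.mp he
    refine ⟨i, γ', hγ', ?_⟩
    change _ = gq γ' * ((scaleGL q)⁻¹ * gq (h.traceRep i : SL(2, ℤ)))
    rw [show u = e * (h.traceRep i : SL(2, ℤ)) from hi, map_mul, ← he']
    group
  refine Reps.homMap_congr_scalar (downReps H hqN) h.push.toReps (scalarGL q) (scalarGL_comm q)
    (det_scalarGL_pos q) (fun k => ?_) (fun i => ?_) φ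
  · obtain ⟨u, hu, e⟩ := exists_stdGL_eq (H := H) hqN k
    obtain ⟨i, d, hd, e'⟩ := hkey u hu
    exact ⟨i, d, hd, by rw [← e', ← e]; rfl⟩
  · obtain ⟨k, d, hd, e⟩ := (downReps H hqN).rperm (h.traceRep i : SL(2, ℤ)) (h.traceRep i).2
      (zeroIdx q N)
    refine ⟨k, d, hd, ?_⟩
    rw [← e]
    change scalarGL q * ((scaleGL q)⁻¹ * gq (h.traceRep i : SL(2, ℤ)))
      = stdGL q N (zeroIdx q N) * gq (h.traceRep i : SL(2, ℤ))
    rw [← mul_assoc]
    congr 1
    rw [scalarGL_comm, inv_mul_eq_iff_eq_mul]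
    apply Units.ext
    rw [Units.val_mul, coe_stdGL]
    ext a b
    fin_cases a <;> fin_cases b <;>
      simp [zeroIdx, scalarGL, scaleGL, heckeMat, Matrix.mul_apply, Fin.sum_univ_two]

/-- `psi ∘ w` is the plain trace followed by the diamond operator of `σ₀`. -/
theorem psi_wq_eq_tr (hqN : ¬ q ∣ N) (φ : Homs R (GammaH (N * q) (upH H q))) :
    psi H hqN (wq H hqN φ)
      = (isLevelMap_gamma0 (le_refl H) (sigma0_mem hqN)).pull
          ((isLevelMap_up (H := H) (q := q)).tr φ) := by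
  set h := isLevelMap_up (H := H) (q := q)
  set σ := sigma0 N q hqN with hσdef
  have hσ : σ ∈ Gamma0 N := sigma0_mem hqN
  set W : Reps (GammaH (N * q) (upH H q)) (GammaH (N * q) (upH H q)) Unit :=
    Reps.single (stdGL q N (inftyIdx hqN)) (det_stdGL _) fun _ hγ => exists_conj_infty hqN hγ
  set S := (isLevelMap_gamma0 (le_refl H) hσ).reps
  -- Both composites have pairwise distinct cosets, so each is a single sum over representatives.
  have hu₁ : ∀ i k : Unit × HeckeIdx q N, ∀ d ∈ GammaH (N * q) (upH H q),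
      gq d * (W.B i.1 * (downReps H hqN).B i.2) = W.B k.1 * (downReps H hqN).B k.2 → i = k := by
    intro i k d hd e
    obtain ⟨d', hd', e'⟩ : ∃ d' ∈ GammaH (N * q) (upH H q),
        gq d * stdGL q N (inftyIdx hqN) = stdGL q N (inftyIdx hqN) * gq d' := by
      obtain ⟨t, hct, ht⟩ := stdGL_infty_mul_self (q := q) hqN
      obtain ⟨a, ha, ea⟩ := exists_conj_infty (H := H) hqN hd
      have hτ := tauElt_mem (q := q) hqN
      refine ⟨(tauElt N q hqN)⁻¹ * a * tauElt N q hqN, ?_, ?_⟩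
      · have := conj_mem_GammaH (inv_mem hτ) ha
        rwa [inv_inv] at this
      refine mul_left_cancel (a := stdGL q N (inftyIdx hqN)) ?_
      rw [← mul_assoc, ea, mul_assoc, ht, ← mul_assoc, ← mul_assoc, ht, map_mul, map_mul, map_inv,
        ← hct]
      group
    refine Prod.ext rfl ((downReps H hqN).uniqB i.2 k.2 d' hd'
      (mul_left_cancel (a := stdGL q N (inftyIdx hqN)) ?_))
    rw [← mul_assoc, ← e', mul_assoc]
    exact e
  have hu₂ : ∀ i k : TraceIdx H (upH H q) (1 : GL (Fin 2) ℚ) × Unit,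
      ∀ d ∈ GammaH (N * q) (upH H q),
        gq d * (h.push.toReps.B i.1 * S.B i.2) = h.push.toReps.B k.1 * S.B k.2 → i = k := by
    intro i k d hd e
    rw [← mul_assoc] at e
    exact Prod.ext (h.push.toReps.uniqB i.1 k.1 d hd (mul_right_cancel e)) rfl
  -- both sides are composed representative systems
  change (downReps H hqN).homMap (W.homMap φ) = S.homMap (h.push.toReps.homMap φ)
  rw [← Reps.homMap_comp W (downReps H hqN) hu₁, ← Reps.homMap_comp h.push.toReps S hu₂]
  have hσinf : stdGL q N (inftyIdx hqN) = gq σ * scaleGL q := stdGL_infty hqN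
  have hnorm : ∀ u ∈ GammaH N H, σ * u * σ⁻¹ ∈ GammaH N H := fun u hu =>
    conj_mem_GammaH hσ hu
  -- which agree up to `scalarGL q` and a change of representatives
  refine Reps.homMap_congr_scalar _ _ (scalarGL q) (scalarGL_comm q) (det_scalarGL_pos q)
    (fun k => ?_) (fun i => ?_) φ
  · obtain ⟨u, hu, e⟩ := exists_stdGL_eq (H := H) hqN k.2
    obtain ⟨i, t, ht, hi⟩ := h.exists_traceRep_eq ⟨_, hnorm u hu⟩
    obtain ⟨-, γ', hγ', ht'⟩ := mem_traceSub.mp ht
    rw [one_mul, inv_one, mul_one] at ht'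
    refine ⟨(i, ()), γ', hγ', ?_⟩
    change stdGL q N (inftyIdx hqN) * stdGL q N k.2
      = scalarGL q * (gq γ' * ((1 : GL (Fin 2) ℚ)⁻¹ * gq (h.traceRep i : SL(2, ℤ)) * gq σ))
    rw [e, hσinf, inv_one, one_mul, ht', ← mul_assoc (gq t) (gq _), ← map_mul,
      ← show σ * u * σ⁻¹ = t * (h.traceRep i : SL(2, ℤ)) from hi, map_mul, map_mul, map_inv,
      inv_mul_cancel_right, ← mul_assoc, ← scalarGL_comm]
    group
  · obtain ⟨i, hi'⟩ := i
    set v := σ⁻¹ * (h.traceRep i : SL(2, ℤ)) * σ with hv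
    have hvm : v ∈ GammaH N H := by
      have := conj_mem_GammaH (inv_mem hσ) (h.traceRep i).2
      rwa [inv_inv] at this
    obtain ⟨k, d, hd, e⟩ := (downReps H hqN).rperm v hvm (zeroIdx q N)
    obtain ⟨a, ha, ea⟩ := exists_conj_infty (H := H) hqN hd
    refine ⟨((), k), a, ha, ?_⟩
    change scalarGL q * ((1 : GL (Fin 2) ℚ)⁻¹ * gq (h.traceRep i : SL(2, ℤ)) * gq σ)
      = gq a * (stdGL q N (inftyIdx hqN) * stdGL q N k)
    have e' : stdGL q N (zeroIdx q N) * gq v = gq d * stdGL q N k := e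
    rw [← mul_assoc (gq a), ← ea, mul_assoc (stdGL q N (inftyIdx hqN)), ← e', hσinf]
    have h0 : scaleGL q * stdGL q N (zeroIdx q N) = scalarGL q := by
      apply Units.ext
      rw [Units.val_mul, coe_stdGL]
      ext a b
      fin_cases a <;> fin_cases b <;>
        simp [zeroIdx, scalarGL, scaleGL, heckeMat, Matrix.mul_apply, Fin.sum_univ_two]
    change _ = gq σ * scaleGL q * (stdGL q N (zeroIdx q N) * gq v)
    rw [mul_assoc (gq σ), ← mul_assoc (scaleGL q), h0, hv, map_mul, map_mul, map_inv, inv_one,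
      one_mul, ← mul_assoc (gq σ), ← scalarGL_comm]
    group

end Fermat.HM
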