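import Fermat.Agent.HM.Raise.WOp
import Fermat.Agent.HM.Raise.Trace
import Fermat.Agent.HM.Degeneracy

/-!
# Raising the level at one prime: the symmetrised degeneracy map and the trace

For a diamond label `v` and a scalar `c` the map `raiseMap` is `res + c • wOp ∘ res ∘ diaOp v`.
With `diaOp (v * v * u) = 1` and `c = ±1` it lands in an eigenspace of the symmetrised
Atkin-Lehner operator `wTw = diaOp v ∘ wOp`, and `psi ∘ raiseMap = T + c (q + 1) diaOp (v * u)`.
-/

namespace Fermat.HM

open scoped MatrixGroups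
open CongruenceSubgroup Matrix Fermat.MC.Lvl

variable {M₀ M q : ℕ} [NeZero M] [hq : Fact q.Prime] [NeZero (M * q)] {H : Subgroup (ZMod M)ˣ}
  {R : Type} [CommRing R]

omit [NeZero M] hq [NeZero (M * q)] in
/-- A level over `M₀` stays so with a prime added. -/
theorem LevelOver.up (hH : LevelOver M₀ M H) (q : ℕ) : LevelOver M₀ (M * q) (upH H q) :=
  ⟨hH.dvd.mul_right q, fun x hx => Subgroup.mem_comap.mpr (hH.ker_le _ (by
    rw [← MonoidHom.comp_apply, ZMod.unitsMap_comp]
    exact hx))⟩

omit [NeZero M] [NeZero (M * q)] in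
/-- The added prime has an Atkin-Lehner matrix. -/
theorem WPrime.self (hqM : ¬ q ∣ M) (h₀ : M₀ ∣ M) : WPrime M₀ (M * q) q :=
  ⟨hq.out, mul_dvd_mul_right h₀ q, _, isWMat_stdGL hqM⟩

omit [NeZero M] [NeZero (M * q)] in
/-- The second degeneracy map is the first followed by the Atkin-Lehner operator. -/
theorem pull_infty_eq (hqM : ¬ q ∣ M) (hH : LevelOver M₀ M H)
    (φ : Homs R (GammaH M H)) :
    (isLevelMap_infty (H := H) hqM).pull φ
      = wOp (hH.up q) (WPrime.self hqM hH.dvd) ((isLevelMap_up (H := H) (q := q)).pull φ) := by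
  have hl := (isWMat_stdGL (M₀ := M₀) hqM).isLevelMap (mul_dvd_mul_right hH.dvd q) (hH.up q)
  rw [← pull_eq_wOp (hH.up q) (WPrime.self hqM hH.dvd) (isWMat_stdGL hqM) hl,
    ← IsLevelMap.pull_comp]
  exact IsLevelMap.pull_congr _ _ (one_mem _) (by rw [map_one, one_mul, one_mul]) φ

omit [NeZero (M * q)] in
/-- The involution at the added prime is the Atkin-Lehner operator. -/
theorem wq_eq_wOp (hqM : ¬ q ∣ M) (hH : LevelOver M₀ M H)
    (φ : Homs R (GammaH (M * q) (upH H q))) :
    wq H hqM φ = wOp (hH.up q) (WPrime.self hqM hH.dvd) φ := by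
  have hl := (isWMat_stdGL (M₀ := M₀) hqM).isLevelMap (mul_dvd_mul_right hH.dvd q) (hH.up q)
  rw [← pull_eq_wOp (hH.up q) (WPrime.self hqM hH.dvd) (isWMat_stdGL hqM) hl]
  refine AddMonoidHom.ext fun γ => ?_
  obtain ⟨γ, rfl⟩ := Additive.ofMul.surjective γ
  obtain ⟨d, hd, e⟩ := exists_conj_infty hqM γ.2
  rw [wq_apply hqM φ γ ⟨d, hd⟩ e, IsLevelMap.pull_apply hl φ γ ⟨d, hd⟩ e]

omit [NeZero (M * q)] in
/-- The diamond operator of the added prime is that of its inverse modulo `M₀`. -/
theorem diaQ_eq_diaOp (hqM : ¬ q ∣ M) (hH : LevelOver M₀ M H) {u : (ZMod M₀)ˣ}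
    (hu : (u : ZMod M₀) * q = 1) (φ : Homs R (GammaH M H)) :
    diaQ H hqM φ = diaOp hH u φ := by
  refine pull_eq_diaOp hH (tauElt_mem_base hqM)
    (left_inv_eq_right_inv ?_ (by rw [mul_comm]; exact hu)) φ
  have e := congrArg (fun x : ℤ => (x : ZMod M₀)) (bezout (ℓ := q) hqM)
  have hM : (M : ZMod M₀) = 0 := (ZMod.natCast_eq_zero_iff _ _).mpr hH.dvd
  simp [hM] at e
  simp [upperMod, tauElt, hM]
  linear_combination ((Int.gcdA q M : ℤ) * (q : ZMod M₀) + 1) * e

section TorsionFree

variable [IsDomain R] [CharZero R]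

/-- The trace of the second degeneracy map is `(q + 1)` times a diamond operator. -/
theorem psi_infty (hqM : ¬ q ∣ M) (hH : LevelOver M₀ M H) {u : (ZMod M₀)ˣ}
    (hu : (u : ZMod M₀) * q = 1) (x : Homs R (GammaH M H)) :
    psi H hqM ((isLevelMap_infty hqM).pull x) = (q + 1) • diaOp hH u x := by
  refine pull_one_injective (isLevelMap_up (q := q)) ?_
  rw [res_psi, heckeT_infty, ← wq_res, wq_wq, diaQUp_res, map_nsmul, diaQ_eq_diaOp hqM hH hu,
    succ_nsmul]

/-- The trace commutes with the diamond operators. -/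
theorem psi_diaOp (hqM : ¬ q ∣ M) (hH : LevelOver M₀ M H) (v : (ZMod M₀)ˣ)
    (φ : Homs R (GammaH (M * q) (upH H q))) :
    psi H hqM (diaOp (hH.up q) v φ) = diaOp hH v (psi H hqM φ) := by
  refine pull_one_injective (isLevelMap_up (q := q)) ?_
  rw [res_psi, ← pull_one_diaOp (dvd_mul_right M q) hH (hH.up q), res_psi, map_add,
    diaOp_heckeT, wq_eq_wOp hqM hH, wq_eq_wOp hqM hH, wOp_diaOp]

/-- The trace commutes with the Atkin-Lehner operators of the other primes. -/
theorem psi_wOp {s : ℕ} (hqM : ¬ q ∣ M) (hH : LevelOver M₀ M H) (hw : WPrime M₀ M s)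
    (hw' : WPrime M₀ (M * q) s) (hne : s ≠ q) (φ : Homs R (GammaH (M * q) (upH H q))) :
    psi H hqM (wOp (hH.up q) hw' φ) = wOp hH hw (psi H hqM φ) := by
  refine pull_one_injective (isLevelMap_up (q := q)) ?_
  rw [res_psi, ← wOp_pull_one (hH.up q) hH hw' hw (dvd_mul_right M q), res_psi, map_add,
    wOp_heckeT _ _ hne.symm, wq_eq_wOp hqM hH, wq_eq_wOp hqM hH, wOp_comm]

/-- The trace commutes with the Hecke operators of the other primes. -/
theorem psi_heckeT (hqM : ¬ q ∣ M) (hH : LevelOver M₀ M H) {ℓ : ℕ} [hℓ : Fact ℓ.Prime]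
    (hne : ℓ ≠ q) (φ : Homs R (GammaH (M * q) (upH H q))) :
    psi H hqM (heckeT R (M * q) (upH H q) ℓ φ) = heckeT R M H ℓ (psi H hqM φ) := by
  refine pull_one_injective (isLevelMap_up (q := q)) ?_
  rw [res_psi, ← IsLevelMap.pull_heckeT isLevelMap_up hℓ.out.not_dvd_one
    ⟨fun h => (hℓ.out.dvd_mul.mp h).resolve_right fun h' =>
      hne ((Nat.prime_dvd_prime_iff_eq hℓ.out hq.out).mp h'), fun h => h.mul_right q⟩,
    res_psi, map_add, wq_eq_wOp hqM hH, wq_eq_wOp hqM hH, wOp_heckeT _ _ hne, heckeT_comm]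

/-- The trace commutes with the Hecke action away from the prime. -/
theorem psi_heckeAct {O : Type} [CommRing O] [Algebra O R] {σ : Type} {p : σ → ℕ}
    [∀ i, Fact (p i).Prime] (hqM : ¬ q ∣ M) (hH : LevelOver M₀ M H) (hp : ∀ i, p i ≠ q)
    (a : MvPolynomial σ O) (φ : Homs R (GammaH (M * q) (upH H q))) :
    psi H hqM (heckeAct O R (M * q) (upH H q) p a φ) = heckeAct O R M H p a (psi H hqM φ) :=
  intertwine_of_X ((psi H hqM (R := R)).restrictScalars O) (fun i x => by
    rw [LinearMap.restrictScalars_apply, LinearMap.restrictScalars_apply, heckeAct_X, heckeAct_X,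
      psi_heckeT hqM hH (hp i)]) a φ

end TorsionFree

variable (hqM : ¬ q ∣ M) (hH : LevelOver M₀ M H) (v : (ZMod M₀)ˣ) (c : R)

/-- The symmetrised Atkin-Lehner operator. -/
noncomputable def wTw {N s : ℕ} [NeZero N] {H' : Subgroup (ZMod N)ˣ} (hH' : LevelOver M₀ N H')
    (hw : WPrime M₀ N s) (v : (ZMod M₀)ˣ) : Module.End R (Homs R (GammaH N H')) :=
  diaOp hH' v * wOp hH' hw

/-- The symmetrised operator squares to a diamond operator. -/
theorem wTw_wTw {N s : ℕ} [NeZero N] {H' : Subgroup (ZMod N)ˣ} (hH' : LevelOver M₀ N H')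
    (hw : WPrime M₀ N s) {v u : (ZMod M₀)ˣ} (hu : (u : ZMod M₀) * s = 1)
    (φ : Homs R (GammaH N H')) :
    wTw hH' hw v (wTw hH' hw v φ) = diaOp hH' (v * v * u) φ := by
  simp only [wTw, Module.End.mul_apply]
  rw [wOp_diaOp, wOp_wOp hH' hw hu, diaOp_mul, diaOp_mul]

/-- The symmetrised degeneracy map. -/
noncomputable def raiseMap : Homs R (GammaH M H) →ₗ[R] Homs R (GammaH (M * q) (upH H q)) :=
  (isLevelMap_up (H := H) (q := q)).pull
    + c • ((isLevelMap_infty (H := H) hqM).pull ∘ₗ diaOp hH v)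

/-- The symmetrised degeneracy map is restriction plus `c` times its image under `wTw`. -/
theorem raiseMap_eq (x : Homs R (GammaH M H)) :
    raiseMap hqM hH v c x = (isLevelMap_up (H := H) (q := q)).pull x
      + c • wTw (hH.up q) (WPrime.self hqM hH.dvd) v
        ((isLevelMap_up (H := H) (q := q)).pull x) := by
  rw [raiseMap, LinearMap.add_apply, LinearMap.smul_apply, LinearMap.comp_apply,
    pull_infty_eq hqM hH]
  rw [← pull_one_diaOp (dvd_mul_right M q) hH (hH.up q), wOp_diaOp]
  rfl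

/-- The symmetrised degeneracy map lands in the `c`-eigenspace of `wTw`. -/
theorem wTw_raiseMap {u : (ZMod M₀)ˣ} (hu : (u : ZMod M₀) * q = 1) (hc : c * c = 1)
    (hv : ∀ φ : Homs R (GammaH (M * q) (upH H q)), diaOp (hH.up q) (v * v * u) φ = φ)
    (x : Homs R (GammaH M H)) :
    wTw (hH.up q) (WPrime.self hqM hH.dvd) v (raiseMap hqM hH v c x)
      = c • raiseMap hqM hH v c x := by
  rw [raiseMap_eq, map_add, map_smul, wTw_wTw _ _ hu, hv, smul_add, smul_smul, hc, one_smul,
    add_comm]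

/-- The symmetrised degeneracy map commutes with the diamond operators. -/
theorem raiseMap_diaOp (w : (ZMod M₀)ˣ) (x : Homs R (GammaH M H)) :
    raiseMap hqM hH v c (diaOp hH w x) = diaOp (hH.up q) w (raiseMap hqM hH v c x) := by
  rw [raiseMap_eq, raiseMap_eq, ← pull_one_diaOp (dvd_mul_right M q) hH (hH.up q), map_add,
    map_smul]
  simp only [wTw, Module.End.mul_apply]
  rw [wOp_diaOp, diaOp_mul, diaOp_mul, mul_comm v]

/-- The symmetrised degeneracy map commutes with the other Atkin-Lehner operators. -/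
theorem raiseMap_wOp {s : ℕ} (hw : WPrime M₀ M s) (hw' : WPrime M₀ (M * q) s)
    (x : Homs R (GammaH M H)) :
    raiseMap hqM hH v c (wOp hH hw x) = wOp (hH.up q) hw' (raiseMap hqM hH v c x) := by
  rw [raiseMap_eq, raiseMap_eq, ← wOp_pull_one (hH.up q) hH hw' hw (dvd_mul_right M q), map_add,
    map_smul]
  simp only [wTw, Module.End.mul_apply]
  rw [wOp_comm _ (WPrime.self hqM hH.dvd) hw', wOp_diaOp]

/-- The symmetrised degeneracy map commutes with the Hecke operators of the other primes. -/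
theorem raiseMap_heckeT {ℓ : ℕ} [hℓ : Fact ℓ.Prime] (hne : ℓ ≠ q) (x : Homs R (GammaH M H)) :
    raiseMap hqM hH v c (heckeT R M H ℓ x)
      = heckeT R (M * q) (upH H q) ℓ (raiseMap hqM hH v c x) := by
  rw [raiseMap_eq, raiseMap_eq, map_add, map_smul, ← IsLevelMap.pull_heckeT isLevelMap_up
    hℓ.out.not_dvd_one ⟨fun h => (hℓ.out.dvd_mul.mp h).resolve_right fun h' =>
      hne ((Nat.prime_dvd_prime_iff_eq hℓ.out hq.out).mp h'), fun h => h.mul_right q⟩]
  simp only [wTw, Module.End.mul_apply]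
  rw [← wOp_heckeT _ _ hne, diaOp_heckeT]

/-- The symmetrised degeneracy map commutes with the Hecke action away from the prime. -/
theorem raiseMap_heckeAct {O : Type} [CommRing O] [Algebra O R] {σ : Type} {p : σ → ℕ}
    [∀ i, Fact (p i).Prime] (hp : ∀ i, p i ≠ q) (a : MvPolynomial σ O)
    (x : Homs R (GammaH M H)) :
    raiseMap hqM hH v c (heckeAct O R M H p a x)
      = heckeAct O R (M * q) (upH H q) p a (raiseMap hqM hH v c x) :=
  intertwine_of_X ((raiseMap hqM hH v c).restrictScalars O) (fun i x => by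
    rw [LinearMap.restrictScalars_apply, LinearMap.restrictScalars_apply, heckeAct_X, heckeAct_X,
      raiseMap_heckeT hqM hH v c (hp i)]) a x

omit [NeZero (M * q)] in
/-- The symmetrised degeneracy map commutes with a change of coefficients. -/
theorem mapCoeff_raiseMap {R' : Type} [CommRing R'] (f : R →+* R') (x : Homs R (GammaH M H)) :
    mapCoeff f (raiseMap hqM hH v c x) = raiseMap hqM hH v (f c) (mapCoeff f x) := by
  refine AddMonoidHom.ext fun γ => ?_
  rw [raiseMap, raiseMap]
  simp only [LinearMap.add_apply, LinearMap.smul_apply, LinearMap.comp_apply, diaOp,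
    ← IsLevelMap.mapCoeff_pull]
  exact (map_add f _ _).trans (congrArg _ (map_mul f c _))

/-- The trace of the symmetrised degeneracy map is `T q` plus `c (q + 1)` times the diamond
operator of `v u`. -/
theorem psi_raiseMap [IsDomain R] [CharZero R] {u : (ZMod M₀)ˣ} (hu : (u : ZMod M₀) * q = 1)
    (x : Homs R (GammaH M H)) :
    psi H hqM (raiseMap hqM hH v c x)
      = heckeT R M H q x + (c * (q + 1 : ℕ)) • diaOp hH (v * u) x := by
  rw [raiseMap, LinearMap.add_apply, LinearMap.smul_apply, LinearMap.comp_apply, map_add, map_smul,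
    psi_res, psi_infty hqM hH hu, diaOp_mul, mul_comm u, mul_smul, Nat.cast_smul_eq_nsmul]

section Modulo

variable {O : Type} [CommRing O] [Algebra O R] {σ : Type} {p : σ → ℕ}
  [∀ i, Fact (p i).Prime] [IsLocalRing O] [IsNoetherianRing O]
  [IsAdicComplete (IsLocalRing.maximalIdeal O) O] {m : Ideal (MvPolynomial σ O)} [m.IsMaximal]

/-- The symmetrised degeneracy map is injective at a non-Eisenstein ideal, over principal domains of
coefficients finite over `O` at which both levels are good. -/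
theorem raiseMap_eq_zero [IsDomain R] [IsPrincipalIdealRing R] [Module.Finite O R]
    (hΓ : GoodLevel R (GammaH M H)) (hΓ' : GoodLevel R (GammaH (M * q) (upH H q)))
    (hne : NonEisenstein p m) (hpq : ∀ i, p i ≠ q) {x : Homs R (GammaH M H)}
    (hx : x ∈ locPart m (heckeAct O R M H p)) (h : raiseMap hqM hH v c x = 0) : x = 0 := by
  have hσ : sigma0 M q hqM ∈ Gamma0 M := sigma0_mem hqM
  have hg : ∀ {g : SL(2, ℤ)} (hg : g ∈ Gamma0 M) {y : Homs R (GammaH M H)},
      y ∈ locPart m (heckeAct O R M H p) →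
        (isLevelMap_gamma0 (le_refl H) hg).pull y ∈ locPart m (heckeAct O R M H p) :=
    fun hg _ hy => apply_mem_locPart
      (f := ((isLevelMap_gamma0 (le_refl H) hg).pull (R := R)).restrictScalars O)
      (pull_heckeAct _ (goodFor_gamma0 hg)) hy
  have hdia := hg (exists_diaLift hH.dvd v).choose_spec.1 hx
  refine (pair_eq_zero hΓ hΓ' hne hq.out.one_lt (hq.out.coprime_iff_not_dvd.mpr hqM) isLevelMap_up
    (isLevelMap_scaleUp (H := H) (q := q)) (goodFor_up hpq) (goodFor_scaleUp hpq) hx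
    (φ₂ := (isLevelMap_gamma0 (le_refl H) hσ).pull (c • diaOp hH v x)) ?_ ?_).1
  · refine hg hσ ?_
    exact apply_mem_locPart (f :=
      ((c • LinearMap.id : Homs R (GammaH M H) →ₗ[R] _)).restrictScalars O)
      (fun a y => intertwine_of_X (ρ := heckeAct O R M H p) (ρ' := heckeAct O R M H p) _
        (fun i x => by simp [heckeAct_X]) a y) hdia
  · refine Eq.trans ?_ h
    rw [raiseMap, LinearMap.add_apply, LinearMap.smul_apply, LinearMap.comp_apply,
      map_smul, map_smul,
      ← IsLevelMap.pull_comp (isLevelMap_gamma0 (le_refl H) hσ)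
        (isLevelMap_scaleUp (H := H) (q := q))]
    refine congrArg₂ (· + ·) rfl ?_
    refine congrArg (c • ·) ?_
    exact IsLevelMap.pull_congr _ _ (one_mem _) (by rw [map_one, one_mul, stdGL_infty]) _

end Modulo

end Fermat.HM
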