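import Fermat.Agent.HM.Raise.Act

/-!
# Separation of points on the symmetrised modules and on the modules special at one prime

Along a chain an operator kills the symmetrised module if it vanishes, for every set `T` of raised
primes, at the eigenforms of level `M ∏ T` with `v U + ε = 0` on `T`; it kills the module special
at `q` if it does so for the sets containing `q`. `Package` restates both as the separation
properties of its modules.
-/

set_option linter.overlappingInstances false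

namespace Fermat.HM

open scoped MatrixGroups
open MvPolynomial Fermat.MC.Lvl

section Algebra

/-- For an endomorphism of a finite module whose square has the same kernel, a nonzero multiple of
every element is in the sum of the kernel and the image. -/
theorem exists_smul_eq_ker_add_range {O : Type} [CommRing O] [IsDomain O] {X : Type}
    [AddCommGroup X] [Module O X] [Module.Finite O X] (f : Module.End O X)
    (hf : ∀ x, f (f x) = 0 → f x = 0) :
    ∃ c : O, c ≠ 0 ∧ ∀ y, ∃ k z, f k = 0 ∧ c • y = k + f z := by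
  obtain ⟨Q, hmon, hQ⟩ := LinearMap.exists_monic_and_aeval_eq_zero O f
  obtain ⟨Q₁, hQ₁, hnd⟩ := Polynomial.exists_eq_pow_rootMultiplicity_mul_and_not_dvd
    Q hmon.ne_zero 0
  rw [map_zero, sub_zero] at hQ₁ hnd
  generalize Q.rootMultiplicity 0 = j at hQ₁
  have hpow : ∀ j x, (f ^ j) x = 0 → f x = 0 := by
    intro j
    induction j with
    | zero =>
      intro x hx
      rw [pow_zero, Module.End.one_apply] at hx
      rw [hx, map_zero]
    | succ j ih =>
      intro x hx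
      rw [pow_succ, Module.End.mul_apply] at hx
      exact hf x (ih (f x) hx)
  have hc : Q₁.coeff 0 ≠ 0 := fun h => hnd (Polynomial.X_dvd_iff.mpr h)
  refine ⟨Q₁.coeff 0, hc, fun y => ?_⟩
  have hk : f (Polynomial.aeval f Q₁ y) = 0 := by
    refine hpow j _ ?_
    rw [← Module.End.mul_apply]
    have : Polynomial.aeval f (Polynomial.X ^ j * Q₁) = 0 := by rw [← hQ₁, hQ]
    rw [map_mul, map_pow, Polynomial.aeval_X] at this
    rw [this, LinearMap.zero_apply]
  refine ⟨Polynomial.aeval f Q₁ y, -(Polynomial.aeval f Q₁.divX y), hk, ?_⟩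
  conv_rhs => arg 1; rw [← Polynomial.X_mul_divX_add Q₁]
  rw [map_add, map_mul, Polynomial.aeval_X, Polynomial.aeval_C, LinearMap.add_apply,
    Module.End.mul_apply, map_neg, Module.algebraMap_end_apply]
  abel

end Algebra

variable {O : Type} [CommRing O] [IsLocalRing O] [IsDomain O] [IsDiscreteValuationRing O]
  [IsAdicComplete (IsLocalRing.maximalIdeal O) O] [CharZero O] {σ : Type} {p : σ → ℕ}
  [hp' : ∀ i, Fact (p i).Prime] (m : Ideal (MvPolynomial σ O))
  {M₀ : ℕ} {Δ : Type} [CommGroup Δ] {χ₀ : (ZMod M₀)ˣ →* Δ}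
  {H₀ : Subgroup (ZMod M₀)ˣ} {v : ℕ → (ZMod M₀)ˣ} {ε : ℕ → O} {JF : Finset Nat.Primes}
  {ι : Type} (fam : ι → Op M₀)

section General

variable {K : ℕ} [NeZero K] {H : Subgroup (ZMod K)ˣ} {D : DiamondQuot K ⊤ H Δ} {J : List ℕ}

/-- Separation on an element of a level `M₀ ∏ JF`. -/
theorem famAct_eq_zero_of_killsPoints (hD : LevelChar χ₀ D) (hd : M₀ ∣ K)
    (hH : H = lvlH H₀ hd) (hdata : RaisedData H₀ v ε JF) (hm : NonEisenstein p m)
    (hpJ : ∀ s ∈ JF, ∀ i, p i ≠ (s : ℕ))
    (hfam : ∀ i (l : Nat.Primes), fam i = .hecke l → ¬ (l : ℕ) ∣ M₀ ∧ l ∉ JF)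
    {u : O →+* ℂ} (hu : Function.Injective u) (hK : K = M₀ * ∏ s ∈ JF, (s : ℕ))
    {T : Finset Nat.Primes} (hT : T ⊆ JF) (h : MvPolynomial ι O)
    (hh : ∀ T', T ⊆ T' → T' ⊆ JF → KillsPoints H₀ v ε fam T' h) (x : D.LocMod p m)
    (hw : ∀ s ∈ JF, wAll hD.lvl v s (x.val : Homs O (GammaH K H))
      = ε s • (x.val : Homs O (GammaH K H)))
    (hP : ∀ t ∈ T, opsAct O O hD.lvl id (tPoly v ε t) (x.val : Homs O (GammaH K H)) = 0) :
    famAct m hD fam h x = 0 := by
  subst hH
  refine DiamondQuot.LocMod.ext_val ?_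
  rw [coe_famAct]
  exact opsAct_eq_zero_of_raised hdata hm hpJ fam hfam hu hT h hh hd hK x.val.2 hw hP

variable (hD : LevelChar χ₀ D) (hp : ∀ s ∈ J, ∀ i, p i ≠ s)
  (hfamJ : ∀ i (l : Nat.Primes), fam i = .hecke l → ∀ s ∈ J, (l : ℕ) ≠ s)

/-- **Separation on the symmetrised module.** -/
theorem symAct_eq_zero_of_killsPoints (hd : M₀ ∣ K) (hH : H = lvlH H₀ hd)
    (hdata : RaisedData H₀ v ε JF) (hm : NonEisenstein p m)
    (hmem : ∀ s : Nat.Primes, s ∈ JF ↔ (s : ℕ) ∈ J)
    (hfam : ∀ i (l : Nat.Primes), fam i = .hecke l → ¬ (l : ℕ) ∣ M₀ ∧ l ∉ JF)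
    {u : O →+* ℂ} (hu : Function.Injective u) (hK : K = M₀ * ∏ s ∈ JF, (s : ℕ))
    (hJ : SymData χ₀ v ε K J) (h : MvPolynomial ι O)
    (hh : ∀ T ⊆ JF, KillsPoints H₀ v ε fam T h) :
    symAct (ε := ε) (v := v) m hD hp fam hfamJ h = 0 := by
  refine LinearMap.ext fun x => Subtype.ext ?_
  rw [coe_symAct]
  exact famAct_eq_zero_of_killsPoints m fam hD hd hH hdata hm
    (fun s hs => hp s ((hmem s).mp hs)) hfam hu hK (Finset.empty_subset JF) h
    (fun T' _ hT' => hh T' hT') x.1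
    (fun s hs => (mem_symMod_iff hD hJ hp x.1).mp x.2 s ((hmem s).mp hs))
    (fun t ht => absurd ht (Finset.notMem_empty t))

end General

section Step

variable {K q : ℕ} [NeZero K] [hq : Fact q.Prime] [NeZero (K * q)] {H : Subgroup (ZMod K)ˣ}
  {D : DiamondQuot K ⊤ H Δ} {J : List ℕ} (hD : LevelChar χ₀ D) (hs : StepData χ₀ p v ε K q J)
  (hfamJ : ∀ i (l : Nat.Primes), fam i = .hecke l → ∀ s ∈ q :: J, (l : ℕ) ≠ s)

/-- Separation on the kernel of `psiSym`. -/
theorem symAct_eq_zero_of_psiSym (hd : M₀ ∣ K * q) (hH : upH H q = lvlH H₀ hd)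
    (hdata : RaisedData H₀ v ε JF) (hm : NonEisenstein p m)
    (hmem : ∀ s : Nat.Primes, s ∈ JF ↔ (s : ℕ) ∈ q :: J)
    (hfam : ∀ i (l : Nat.Primes), fam i = .hecke l → ¬ (l : ℕ) ∣ M₀ ∧ l ∉ JF)
    {u : O →+* ℂ} (hu : Function.Injective u) (hK : K * q = M₀ * ∏ s ∈ JF, (s : ℕ))
    (h : MvPolynomial ι O)
    (hh : ∀ T ⊆ JF, (⟨q, hq.out⟩ : Nat.Primes) ∈ T → KillsPoints H₀ v ε fam T h)
    {x : symMod m ε (hD.up q) v (q :: J) hs.family} (hx : psiSym m hD hs x = 0) :
    symAct m (hD.up q) hs.family fam hfamJ h x = 0 := by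
  refine Subtype.ext ?_
  rw [coe_symAct]
  have hqJ : (⟨q, hq.out⟩ : Nat.Primes) ∈ JF := (hmem _).mpr (List.mem_cons_self ..)
  refine famAct_eq_zero_of_killsPoints m fam (hD.up q) hd hH hdata hm
    (fun s hs' => hs.family s ((hmem s).mp hs')) hfam hu hK
    (Finset.singleton_subset_iff.mpr hqJ) h
    (fun T' h1 h2 => hh T' h2 (Finset.singleton_subset_iff.mp h1)) x.1
    (fun s hs' => (mem_symMod_iff (hD.up q) hs.upper hs.family x.1).mp x.2 s ((hmem s).mp hs'))
    fun t ht => ?_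
  obtain rfl := Finset.mem_singleton.mp ht
  exact tPoly_eq_zero_of_psi hs.not_dvd hD.lvl
    ((mem_symMod_iff (hD.up q) hs.upper hs.family x.1).mp x.2 q (List.mem_cons_self ..))
    (congrArg (fun z : symMod m ε hD v J hs.family_tail => (z.1.val : Homs O (GammaH K H))) hx)

/-- **Separation on the module special at `q`.** -/
theorem newAct_eq_zero_of_killsPoints {pp : ℕ} [Fact pp.Prime]
    (hpm : (pp : O) ∈ IsLocalRing.maximalIdeal O) [Finite Δ] (hΔ : IsPGroup pp Δ)
    [m.IsMaximal] (hΓ₀ : GoodLevel O (GammaH K ⊤)) (hΓ : GoodLevel O (GammaH K H))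
    (hΓ₀' : GoodLevel O (GammaH (K * q) ⊤)) (hΓ' : GoodLevel O (GammaH (K * q) (upH H q)))
    (hd₀ : M₀ ∣ K) (hH₀ : H = lvlH H₀ hd₀) (hd : M₀ ∣ K * q)
    (hdata : RaisedData H₀ v ε JF) (hm : NonEisenstein p m)
    (hmem : ∀ s : Nat.Primes, s ∈ JF ↔ (s : ℕ) ∈ q :: J)
    (hfam : ∀ i (l : Nat.Primes), fam i = .hecke l → ¬ (l : ℕ) ∣ M₀ ∧ l ∉ JF)
    {u : O →+* ℂ} (hu : Function.Injective u) (hK : K * q = M₀ * ∏ s ∈ JF, (s : ℕ))
    (h : MvPolynomial ι O)
    (hh : ∀ T ⊆ JF, (⟨q, hq.out⟩ : Nat.Primes) ∈ T → KillsPoints H₀ v ε fam T h) :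
    newAct m hD hs fam hfamJ h = 0 := by
  have hH : upH H q = lvlH H₀ hd := by rw [hH₀, upH_lvlH]
  have : NegMem H := hH₀ ▸ negMem_lvlH hdata.neg_mem hd₀
  obtain ⟨g, hg⟩ := exists_leftInverse_alphaSym m hpm hΔ hD hs hΓ₀ hΓ hΓ₀' hΓ' hm
  obtain ⟨_, _⟩ := free_symMod hpm hΔ hΓ₀ hΓ hm hD hs.lower hs.family_tail
  obtain ⟨_, _⟩ := free_newMod m hpm hΔ hD hs hΓ₀ hΓ hΓ₀' hΓ' hm
  have : Module.Finite O (symMod m ε hD v J hs.family_tail) :=
    Module.Finite.trans (MonoidAlgebra O Δ) _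
  have : Module.Free O (newMod m hD hs) := Module.Free.trans (S := MonoidAlgebra O Δ)
  -- the square of `t` has the same kernel as `t`
  let famT : Bool → Op M₀ := fun b => if b then .hecke ⟨q, hq.out⟩ else .dia (v q)
  have ht : ∀ z : symMod m ε hD v J hs.family_tail, ((tSym m hD hs z).1.val : Homs O (GammaH K H))
      = opsAct O O hD.lvl famT (X false * X true + C (ε q * (q + 1 : ℕ)))
        (z.1.val : Homs O (GammaH K H)) := fun z => by
    rw [map_add, map_mul, LinearMap.add_apply, Module.End.mul_apply, ← MvPolynomial.algebraMap_eq,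
      AlgHom.commutes, Module.algebraMap_end_apply, opsAct_X, opsAct_X]
    rfl
  have hsq : ∀ z, tSym m hD hs (tSym m hD hs z) = 0 → tSym m hD hs z = 0 := by
    intro z hz
    refine Subtype.ext (DiamondQuot.LocMod.ext_val ?_)
    rw [ht]
    refine opsAct_eq_zero_of_sq famT (hH₀ ▸ hdata.semisimple K hd₀) hD.lvl
      (fun b l hb => ?_) hm hu _ z.1.val.2 ?_
    · cases b with
      | false => cases hb
      | true =>
        simp only [famT, if_true] at hb
        cases hb
        exact hs.not_dvd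
    · rw [← ht, ← ht, hz]
      rfl
  obtain ⟨c, hc, hdec⟩ := exists_smul_eq_ker_add_range
    ((tSym m hD hs).restrictScalars O) hsq
  refine Submodule.linearMap_qext _ (LinearMap.ext fun z => ?_)
  change newAct m hD hs fam hfamJ h (Submodule.Quotient.mk z) = 0
  obtain ⟨k, y, hk, hy⟩ := hdec (psiSym m hD hs z)
  change tSym m hD hs k = 0 at hk
  change c • psiSym m hD hs z = k + tSym m hD hs y at hy
  set δ := MonoidAlgebra.of O Δ (χ₀ (v q))
  have hδ : ∀ w, psiSym m hD hs (alphaSym m hD hs (δ • w)) = tSym m hD hs w := fun w => by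
    rw [psiSym_alphaSym, map_smul, smul_smul, ← map_mul, inv_mul_cancel, map_one, one_smul]
  -- `h` kills the kernel of `t`
  have hk' : symAct m hD hs.family_tail fam (avoids_tail fam hfamJ) h k = 0 := by
    have h1 : symAct m (hD.up q) hs.family fam hfamJ h (alphaSym m hD hs k) = 0 :=
      symAct_eq_zero_of_psiSym m fam hD hs hfamJ hd hH hdata hm hmem hfam hu hK h hh
        (by rw [psiSym_alphaSym, hk, smul_zero])
    rw [← alphaSym_symAct] at h1
    exact (LinearMap.congr_fun hg _).symm.trans ((congrArg g h1).trans (map_zero g))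
  -- `h` kills `c z` up to the image
  set z' := algebraMap O (MonoidAlgebra O Δ) c • z - alphaSym m hD hs (δ • y)
  have hz' : psiSym m hD hs z' = k := by
    rw [map_sub, map_smul, hδ, algebraMap_smul, hy, add_sub_cancel_right]
  have hz'' : symAct m (hD.up q) hs.family fam hfamJ h z' = 0 := by
    refine Subtype.ext (DiamondQuot.LocMod.ext_val ?_)
    rw [coe_coe_symAct]
    have : NegMem (upH H q) := hH ▸ negMem_lvlH hdata.neg_mem hd
    refine opsAct_eq_zero_of_sq fam (hH ▸ hdata.semisimple (K * q) hd) (hD.up q).lvl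
      (fun i l hi hl => ?_) hm hu h z'.1.val.2 ?_
    · obtain ⟨h1, h2⟩ := hfam i l hi
      rw [hK] at hl
      rcases l.2.dvd_mul.mp hl with h3 | h3
      · exact h1 h3
      · obtain ⟨t, ht, hlt⟩ := (Prime.dvd_finsetProd_iff l.2.prime _).mp h3
        exact h2 (Subtype.ext ((Nat.prime_dvd_prime_iff_eq l.2 t.2).mp hlt) ▸ ht)
    · rw [← coe_coe_symAct m (hD.up q) hs.family fam hfamJ h z',
        ← coe_coe_symAct m (hD.up q) hs.family fam hfamJ h,
        symAct_eq_zero_of_psiSym m fam hD hs hfamJ hd hH hdata hm hmem hfam hu hK h hh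
          (by rw [psiSym_symAct, hz', hk'])]
      rfl
  rw [map_sub, ← alphaSym_symAct, sub_eq_zero, map_smul] at hz''
  have h2 : c • newAct m hD hs fam hfamJ h (Submodule.Quotient.mk z) = 0 := by
    rw [newAct_mk, ← algebraMap_smul (MonoidAlgebra O Δ) c, ← Submodule.Quotient.mk_smul, hz'']
    exact (Submodule.Quotient.mk_eq_zero _).mpr ⟨_, rfl⟩
  exact (smul_eq_zero.mp h2).resolve_left hc

end Step

end Fermat.HM
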