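import Fermat.Agent.HM.Ops
import Fermat.Agent.HM.AtkinLehner

/-!
# Atkin-Lehner matrices at a prime, valid at all intermediate levels

`IsWMat M M₀ s g`: an integral matrix of determinant `s` of the shape `(s *, *; M *, s *)` whose
lower right entry is congruent to `s` modulo `M₀`, the modulus through which the level structure is
defined.  Such matrices are unique up to the level, so all constructions are independent of the
choice.
-/

namespace Fermat.HM

open scoped MatrixGroups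
open CongruenceSubgroup Matrix Fermat.MC.Lvl

/-- An Atkin-Lehner matrix of `s` at level `M`, normalised modulo `M₀`. -/
def IsWMat (M M₀ s : ℕ) (g : GL (Fin 2) ℚ) : Prop :=
  ∃ a b c d : ℤ, (s : ℤ) * a * d * s - b * (M * c) = s ∧ ((s : ℤ) * d : ZMod M₀) = s ∧
    (g : Matrix (Fin 2) (Fin 2) ℚ)
      = (!![(s : ℤ) * a, b; (M : ℤ) * c, (s : ℤ) * d]).map (fun x : ℤ => (x : ℚ))

variable {M M₀ s : ℕ} {g : GL (Fin 2) ℚ}

/-- The same matrix works at a smaller level. -/
theorem IsWMat.mono {M' : ℕ} (h : IsWMat M M₀ s g) (hd : M' ∣ M) : IsWMat M' M₀ s g := by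
  obtain ⟨a, b, c, d, h1, h2, h3⟩ := h
  obtain ⟨t, rfl⟩ := hd
  exact ⟨a, b, t * c, d, by push_cast at h1 ⊢; linear_combination h1, h2,
    by rw [h3]; push_cast; rw [mul_assoc]⟩

/-- Atkin-Lehner matrices exist. -/
theorem exists_isWMat [hs : Fact s.Prime] {M' : ℕ} (hM : M = s * M') (hcop : ¬ s ∣ M') :
    ∃ g, IsWMat M M₀ s g := by
  have hb := bezout (ℓ := s) hcop
  refine ⟨GeneralLinearGroup.mkOfDetNeZero
    ((!![(s : ℤ) * Int.gcdA s M', -Int.gcdB s M'; (M : ℤ) * 1, (s : ℤ) * 1]).map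
      (fun x : ℤ => (x : ℚ))) ?_, Int.gcdA s M', -Int.gcdB s M', 1, 1, ?_, by simp, rfl⟩
  · subst hM
    rw [Matrix.det_fin_two]
    have hb' : (s : ℚ) * (Int.gcdA s M' : ℚ) + (M' : ℚ) * (Int.gcdB s M' : ℚ) = 1 := by
      exact_mod_cast hb
    simp
    intro h0
    refine hs.out.ne_zero ?_
    have : (s : ℚ) = 0 := by linear_combination h0 - (s : ℚ) * hb'
    exact_mod_cast this
  · subst hM
    push_cast
    linear_combination (s : ℤ) * hb

/-- Conjugation: it keeps the diagonal modulo `M / s` and swaps it modulo `s`. -/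
theorem IsWMat.exists_conj {M' : ℕ} (h : IsWMat M M₀ s g) (hs0 : s ≠ 0) (hM : M = s * M')
    (A : Matrix (Fin 2) (Fin 2) ℤ) (hA : (M : ℤ) ∣ A 1 0) :
    ∃ X : Matrix (Fin 2) (Fin 2) ℤ,
      (g : Matrix (Fin 2) (Fin 2) ℚ) * A.map (fun x : ℤ => (x : ℚ))
        = X.map (fun x : ℤ => (x : ℚ)) * (g : Matrix (Fin 2) (Fin 2) ℚ) ∧
      X.det = A.det ∧ (M : ℤ) ∣ X 1 0 ∧
      (M' : ℤ) ∣ X 0 0 - A 0 0 ∧ (M' : ℤ) ∣ X 1 1 - A 1 1 ∧
      (s : ℤ) ∣ X 0 0 - A 1 1 ∧ (s : ℤ) ∣ X 1 1 - A 0 0 := by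
  obtain ⟨a, b, c, d, h1, -, h3⟩ := h
  have hs : (s : ℤ) ≠ 0 := by exact_mod_cast hs0
  subst hM
  have hdet : (s : ℤ) * a * d - b * M' * c = 1 := by
    refine mul_left_cancel₀ hs ?_
    push_cast at h1
    linear_combination h1
  obtain ⟨γ, hγ⟩ := hA
  push_cast at hγ
  set α := A 0 0
  set β := A 0 1
  set δ := A 1 1
  -- `X = g A g⁻¹`, written out.
  set X : Matrix (Fin 2) (Fin 2) ℤ :=
    !![((s : ℤ) * a * α + b * (s * M') * γ) * d - ((s : ℤ) * a * β + b * δ) * M' * c,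
      -a * α * b - b * b * M' * γ + ((s : ℤ) * a * β + b * δ) * a;
      ((s : ℤ) * M') * ((c * α + s * d * γ) * d - (M' * c * β + d * δ) * c),
      -(M' : ℤ) * (c * α + s * d * γ) * b + ((s : ℤ) * M' * c * β + s * d * δ) * a] with hX
  have key : !![(s : ℤ) * a, b; ((s * M' : ℕ) : ℤ) * c, (s : ℤ) * d] * A
      = X * !![(s : ℤ) * a, b; ((s * M' : ℕ) : ℤ) * c, (s : ℤ) * d] := by
    ext i j
    fin_cases i <;> fin_cases j <;>
      simp [hX, Matrix.mul_apply, Fin.sum_univ_two, hγ]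
    · linear_combination (-((s : ℤ) * a * α + b * s * M' * γ)) * hdet
    · linear_combination (-((s : ℤ) * a * β + b * δ)) * hdet
    · linear_combination (-((s : ℤ) * M' * (c * α + s * d * γ))) * hdet
    · linear_combination (-((s : ℤ) * M' * c * β + s * d * δ)) * hdet
  refine ⟨X, ?_, ?_, ?_, ⟨b * s * γ * d - (s * a * β + b * δ) * c + α * b * c, ?_⟩,
    ⟨-(c * α + s * d * γ) * b + s * c * β * a + δ * b * c, ?_⟩,
    ⟨a * α * d + b * M' * γ * d - a * β * M' * c - a * d * δ, ?_⟩,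
    ⟨-(M' : ℤ) * d * γ * b + M' * c * β * a + d * δ * a - a * d * α, ?_⟩⟩
  · rw [h3, ← Matrix.map_mul_intCast, key, Matrix.map_mul_intCast]
  · have e := congrArg Matrix.det key
    rw [det_mul, det_mul, Matrix.det_fin_two_of] at e
    refine mul_left_cancel₀ hs ?_
    push_cast at e
    linear_combination -e + (s : ℤ) * (A.det - X.det) * hdet
  · simp [hX]
  · simp [hX]
    linear_combination α * hdet
  · simp [hX]
    linear_combination δ * hdet
  · simp [hX]
    linear_combination δ * hdet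
  · simp [hX]
    linear_combination α * hdet

variable {H : Subgroup (ZMod M)ˣ}

/-- An element of `Γ₀(M)` with upper left entry one modulo `M₀` lies in a level over `M₀`. -/
theorem mem_gammaH_of_upper (hH : LevelOver M₀ M H) {σ : SL(2, ℤ)} (hσ : σ ∈ Gamma0 M)
    (h : ((σ 0 0 : ℤ) : ZMod M₀) = 1) : σ ∈ GammaH M H := by
  refine mem_GammaH_iff_upper.mpr
    ⟨hσ, Units.mkOfMulEqOne _ _ (Gamma0_entries hσ), hH.ker_le _ (Units.ext ?_), rfl⟩
  rw [ZMod.unitsMap_def, Units.coe_map]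
  simpa using h

/-- **Uniqueness.** Two Atkin–Lehner matrices of one prime differ by an element of the level
group. -/
theorem IsWMat.exists_eq {g' : GL (Fin 2) ℚ} (h : IsWMat M M₀ s g) (h' : IsWMat M M₀ s g')
    (hs0 : s ≠ 0) (hM : M₀ * s ∣ M) (hH : LevelOver M₀ M H) :
    ∃ σ ∈ GammaH M H, g' = gq σ * g := by
  obtain ⟨a, b, c, d, h1, h2, h3⟩ := h
  obtain ⟨a', b', c', d', h1', h2', h3'⟩ := h'
  obtain ⟨t, ht⟩ := hM
  subst ht
  have hs : (s : ℤ) ≠ 0 := by exact_mod_cast hs0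
  -- both determinant equations, divided by `s`
  have hdet : (s : ℤ) * a * d - b * (M₀ * t) * c = 1 := by
    refine mul_left_cancel₀ hs ?_
    push_cast at h1
    linear_combination h1
  have hdet' : (s : ℤ) * a' * d' - b' * (M₀ * t) * c' = 1 := by
    refine mul_left_cancel₀ hs ?_
    push_cast at h1'
    linear_combination h1'
  -- the quotient of the two matrices is integral of determinant one
  let σ : SL(2, ℤ) := ⟨!![(s : ℤ) * a' * d - b' * (M₀ * t) * c, -a' * b + b' * a;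
    ((M₀ : ℤ) * s * t) * (c' * d - d' * c), -((M₀ : ℤ) * t) * c' * b + s * d' * a], by
    rw [det_fin_two_of]
    linear_combination ((s : ℤ) * a' * d' - b' * (M₀ * t) * c') * hdet + hdet'⟩
  have hσ0 : σ ∈ Gamma0 (M₀ * s * t) := Gamma0_mem.mpr
    ((ZMod.intCast_zmod_eq_zero_iff_dvd _ _).mpr ⟨c' * d - d' * c, by simp [σ]⟩)
  -- it lies in the level group, by the congruence modulo `M₀`, and takes `g` to `g'`
  refine ⟨σ, mem_gammaH_of_upper hH hσ0 ?_, Units.ext ?_⟩
  · have e' := congrArg (fun x : ℤ => (x : ZMod M₀)) hdet'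
    simp only [Int.cast_sub, Int.cast_mul, Int.cast_natCast, ZMod.natCast_self, zero_mul, mul_zero,
      sub_zero, Int.cast_one] at e'
    simp [σ]
    rw [show (s : ZMod M₀) * a' * d = a' * ((s : ℤ) * d : ZMod M₀) by push_cast; ring, h2,
      ← h2']
    push_cast
    linear_combination e'
  · rw [Units.val_mul, coe_gq, h3, h3', ← Matrix.map_mul_intCast]
    congr 1
    ext i j
    fin_cases i <;> fin_cases j <;> simp [σ, Matrix.mul_apply, Fin.sum_univ_two]
    · linear_combination (-((s : ℤ) * a')) * hdet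
    · linear_combination (-b') * hdet
    · linear_combination (-((M₀ : ℤ) * s * t * c')) * hdet
    · linear_combination (-((s : ℤ) * d')) * hdet

/-- Atkin-Lehner matrices are level maps. -/
theorem IsWMat.isLevelMap [hs : Fact s.Prime] (h : IsWMat M M₀ s g) (hM : M₀ * s ∣ M)
    (hH : LevelOver M₀ M H) : IsLevelMap H H s g := by
  obtain ⟨t, ht⟩ := hM
  refine ⟨hs.out.pos, ?_, fun m hm Q hQ => ?_⟩
  · obtain ⟨a, b, c, d, h1, -, h3⟩ := h
    exact ⟨_, by rw [det_fin_two_of]; linear_combination h1, h3⟩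
  obtain ⟨A, ⟨hAd, hA10, x, hx, hx'⟩, eA⟩ := hQ
  -- conjugate `A` by the operator
  obtain ⟨X, e, hXd, hX10, hX00, -, hs00, -⟩ := h.exists_conj (M' := M₀ * t) hs.out.ne_zero
    (by rw [ht]; ring) A ((ZMod.intCast_zmod_eq_zero_iff_dvd _ _).mp hA10)
  refine ⟨X, ⟨hXd.trans hAd, (ZMod.intCast_zmod_eq_zero_iff_dvd _ _).mpr hX10, ?_⟩, ?_⟩
  -- the new diagonal entry is a unit, congruent to the old one modulo `M₀`
  · have hcA : IsCoprime (A 0 0) (M : ℤ) := by
      obtain ⟨y, hy⟩ : (M : ℤ) ∣ A 0 0 * (((x⁻¹ : (ZMod M)ˣ) : ZMod M).cast : ℤ) - 1 := by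
        rw [← ZMod.intCast_zmod_eq_zero_iff_dvd]
        push_cast
        rw [← hx', Units.mul_inv, sub_self]
      exact ⟨((x⁻¹ : (ZMod M)ˣ) : ZMod M).cast, -y, by linear_combination hy⟩
    have hc1 : IsCoprime (X 0 0) ((M₀ * t : ℕ) : ℤ) := by
      obtain ⟨y, hy⟩ := hX00
      rw [show X 0 0 = A 0 0 + ((M₀ * t : ℕ) : ℤ) * y by linear_combination hy]
      refine IsCoprime.add_mul_left_left (hcA.of_isCoprime_of_dvd_right ?_) y
      exact ⟨(s : ℤ), by rw [ht]; push_cast; ring⟩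
    have hc2 : IsCoprime (X 0 0) (s : ℤ) := by
      obtain ⟨y, hy⟩ := hs00
      rw [show X 0 0 = A 1 1 + (s : ℤ) * y by linear_combination hy]
      refine IsCoprime.add_mul_left_left ?_ y
      obtain ⟨z, hz⟩ := (ZMod.intCast_zmod_eq_zero_iff_dvd _ _).mp hA10
      rw [det_fin_two, hz, ht] at hAd
      push_cast at hAd
      have e : A 0 0 * A 1 1 = m + (s : ℤ) * (A 0 1 * (M₀ * t * z)) := by linear_combination hAd
      exact (e ▸ hm.add_mul_left_left _ : IsCoprime (A 0 0 * A 1 1) (s : ℤ)).of_mul_left_right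
    have hc : IsCoprime (X 0 0) (M : ℤ) := by
      rw [ht, show ((M₀ * s * t : ℕ) : ℤ) = ((M₀ * t : ℕ) : ℤ) * (s : ℤ) by push_cast; ring]
      exact hc1.mul_right hc2
    obtain ⟨u, v, huv⟩ := hc
    have hu : ((X 0 0 : ℤ) : ZMod M) * (u : ZMod M) = 1 := by
      have := congrArg (fun z : ℤ => (z : ZMod M)) huv
      push_cast at this
      rw [ZMod.natCast_self, mul_zero, add_zero, mul_comm] at this
      exact this
    refine ⟨Units.mkOfMulEqOne _ _ hu, ?_, rfl⟩
    have hk : ZMod.unitsMap hH.dvd (Units.mkOfMulEqOne _ _ hu * x⁻¹) = 1 := by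
      rw [map_mul, map_inv, mul_inv_eq_one]
      refine Units.ext ?_
      rw [ZMod.unitsMap_def, Units.coe_map, Units.coe_map]
      change ZMod.castHom hH.dvd (ZMod M₀) ((X 0 0 : ℤ) : ZMod M)
        = ZMod.castHom hH.dvd (ZMod M₀) (x : ZMod M)
      rw [hx', map_intCast, map_intCast, ← sub_eq_zero, ← Int.cast_sub,
        ZMod.intCast_zmod_eq_zero_iff_dvd]
      exact (dvd_trans ⟨(t : ℤ), by push_cast; ring⟩ hX00)
    simpa using mul_mem (hH.ker_le _ hk) hx
  · rw [Units.val_mul, Units.val_mul, eA, e, mul_assoc, ← Units.val_mul, mul_inv_cancel,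
      Units.val_one, mul_one]

/-- A conjugate by an Atkin-Lehner matrix of another prime is one of the same prime. -/
theorem IsWMat.conj_other [hs : Fact s.Prime] {q : ℕ} [hq : Fact q.Prime] {g' : GL (Fin 2) ℚ}
    (h : IsWMat M M₀ s g) (h' : IsWMat M M₀ q g') (hne : q ≠ s) (hM : M₀ * s ∣ M)
    (hMq : M₀ * q ∣ M) : IsWMat M M₀ s (g' * g * g'⁻¹) := by
  obtain ⟨a, b, c, d, h1, h2, h3⟩ := h
  obtain ⟨t, ht⟩ := hMq
  obtain ⟨X, e, hXd, hX10, hX00, hX11, -, -⟩ := h'.exists_conj (M' := M₀ * t) hq.out.ne_zero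
    (by rw [ht]; ring) !![(s : ℤ) * a, b; (M : ℤ) * c, (s : ℤ) * d] ⟨c, by simp⟩
  have hsM : (s : ℤ) ∣ ((M₀ * t : ℕ) : ℤ) := by
    have hd : s ∣ q * (M₀ * t) := by
      rw [show q * (M₀ * t) = M by rw [ht]; ring]
      exact (dvd_mul_left s M₀).trans hM
    exact_mod_cast ((Nat.coprime_primes hs.out hq.out).mpr hne.symm).dvd_of_dvd_mul_left hd
  obtain ⟨A', hA'⟩ : (s : ℤ) ∣ X 0 0 := by
    have := dvd_add (hsM.trans hX00) (dvd_mul_right (s : ℤ) a)
    simpa using this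
  obtain ⟨D', hD'⟩ : (s : ℤ) ∣ X 1 1 := by
    have := dvd_add (hsM.trans hX11) (dvd_mul_right (s : ℤ) d)
    simpa using this
  obtain ⟨C', hC'⟩ := hX10
  refine ⟨A', X 0 1, C', D', ?_, ?_, ?_⟩
  · rw [det_fin_two, det_fin_two_of, hA', hD', hC'] at hXd
    linear_combination hXd + h1
  · have hd : (M₀ : ℤ) ∣ X 1 1 - (s : ℤ) * d := by
      refine dvd_trans (b := ((M₀ * t : ℕ) : ℤ)) ⟨(t : ℤ), by push_cast; ring⟩ ?_
      simpa using hX11
    rw [← h2, ← sub_eq_zero]
    rw [hD', ← ZMod.intCast_zmod_eq_zero_iff_dvd] at hd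
    push_cast at hd
    simpa using hd
  · have hX : X = !![(s : ℤ) * A', X 0 1; (M : ℤ) * C', (s : ℤ) * D'] := by
      rw [← hA', ← hD', ← hC']; exact Matrix.eta_fin_two X
    rw [Units.val_mul, Units.val_mul, h3, e, mul_assoc, ← Units.val_mul, mul_inv_cancel,
      Units.val_one, mul_one, ← hX]

/-- A conjugate by an element of `Γ₀(M)` is an Atkin-Lehner matrix of the same prime. -/
theorem IsWMat.conj_gamma0 (h : IsWMat M M₀ s g) (hM : M₀ * s ∣ M) {σ : SL(2, ℤ)}
    (hσ : σ ∈ Gamma0 M) : IsWMat M M₀ s (gq σ * g * (gq σ)⁻¹) := by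
  obtain ⟨a, b, c, d, h1, h2, h3⟩ := h
  obtain ⟨z, hz⟩ := (ZMod.intCast_zmod_eq_zero_iff_dvd _ _).mp (Gamma0_mem.mp hσ)
  obtain ⟨t, rfl⟩ := hM
  set p := σ 0 0
  set r := σ 0 1
  set w := σ 1 1
  have hdet : p * w - r * ((M₀ * s * t : ℕ) * z) = 1 := by
    have := σ.2
    rw [det_fin_two, hz] at this
    linear_combination this
  push_cast at hdet h1
  refine ⟨p * w * a + r * (M₀ * t) * c * w - p * b * (M₀ * t) * z - r * d * (M₀ * s * t) * z,
    -p * r * s * a - r * r * (M₀ * s * t) * c + p * p * b + r * p * s * d,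
    z * w * s * a + w * w * c - (M₀ * s * t) * z * z * b - w * z * s * d,
    -(M₀ * s * t) * z * a * r - w * (M₀ * t) * c * r + p * (M₀ * t) * z * b + p * w * d, ?_, ?_, ?_⟩
  · push_cast
    linear_combination
      ((s : ℤ) * a * d * s - b * (M₀ * s * t) * c) *
        (p * w - r * (M₀ * s * t) * z + 1) * hdet + h1
  · have e1 := congrArg (fun x : ℤ => (x : ZMod M₀)) hdet
    simp at e1
    simp
    simp at h2
    linear_combination ((p : ZMod M₀) * w) * h2 + (s : ZMod M₀) * e1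
  · rw [← map_inv, Units.val_mul, Units.val_mul, coe_gq, coe_gq, h3, ← Matrix.map_mul_intCast,
      ← Matrix.map_mul_intCast]
    congr 1
    ext i j
    fin_cases i <;> fin_cases j <;>
      simp [Matrix.mul_apply, Fin.sum_univ_two, adjugate_fin_two, hz] <;> ring

/-- The square is a scalar times an element of `Γ₀(M)` of class `1 / s`. -/
theorem IsWMat.sq (h : IsWMat M M₀ s g) (hs0 : s ≠ 0) (hM : M₀ * s ∣ M) :
    ∃ c : GL (Fin 2) ℚ, (∀ Y, c * Y = Y * c) ∧ ∃ τ ∈ Gamma0 M, g * g = c * gq τ ∧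
      ((τ 0 0 : ℤ) : ZMod M₀) * (s : ZMod M₀) = 1 := by
  obtain ⟨a, b, c, d, h1, h2, h3⟩ := h
  obtain ⟨t, rfl⟩ := hM
  have hs : (s : ℤ) ≠ 0 := by exact_mod_cast hs0
  have hdet : (s : ℤ) * a * d - b * (M₀ * t) * c = 1 := by
    refine mul_left_cancel₀ hs ?_
    push_cast at h1
    linear_combination h1
  let τ : SL(2, ℤ) := ⟨!![(s : ℤ) * a * a + b * (M₀ * t) * c, b * (a + d);
    ((M₀ : ℤ) * s * t) * c * (a + d), (M₀ : ℤ) * t * c * b + s * d * d], by
    rw [det_fin_two_of]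
    linear_combination ((s : ℤ) * a * d - b * (M₀ * t) * c + 1) * hdet⟩
  let cs : GL (Fin 2) ℚ := GeneralLinearGroup.mkOfDetNeZero !![(s : ℚ), 0; 0, (s : ℚ)]
    (by simp [det_fin_two_of, hs0])
  refine ⟨cs, fun Y => Units.ext ?_, τ,
    Gamma0_mem.mpr ((ZMod.intCast_zmod_eq_zero_iff_dvd _ _).mpr ⟨c * (a + d), by simp [τ]; ring⟩),
    Units.ext ?_, ?_⟩
  · rw [Units.val_mul, Units.val_mul]
    ext i j
    fin_cases i <;> fin_cases j <;> simp [cs, Matrix.mul_apply, Fin.sum_univ_two, mul_comm]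
  · rw [Units.val_mul, Units.val_mul, coe_gq, h3]
    ext i j
    fin_cases i <;> fin_cases j <;>
      simp [cs, τ, Matrix.mul_apply, Fin.sum_univ_two] <;> ring
  · have e := congrArg (fun x : ℤ => (x : ZMod M₀)) hdet
    simp at e
    simp [τ]
    simp at h2
    have hsa : (a : ZMod M₀) * s = 1 := by linear_combination e - (a : ZMod M₀) * h2
    linear_combination ((a : ZMod M₀) * s + 1) * hsa

/-- The standard matrix is an Atkin-Lehner matrix. -/
theorem isWMat_stdGL {N q : ℕ} [Fact q.Prime] (hqN : ¬ q ∣ N) :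
    IsWMat (N * q) M₀ q (stdGL q N (inftyIdx hqN)) := by
  refine ⟨Int.gcdA q N, -Int.gcdB q N, 1, 1, ?_, by simp, ?_⟩
  · push_cast
    linear_combination (q : ℤ) * bezout hqN
  · rw [coe_stdGL]
    ext i j
    fin_cases i <;> fin_cases j <;> simp [inftyIdx, heckeMat, mul_comm]

end Fermat.HM
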