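import Fermat.Agent.HM.Raise.WMat
import Fermat.Agent.HM.Equivariance

/-!
# Atkin-Lehner operators at several primes

Such a prime is a `WPrime`; the operators commute with each other and with the others (`wOp_comm`,
`wOp_heckeT`).
-/

namespace Fermat.HM

open scoped MatrixGroups
open CongruenceSubgroup Matrix Fermat.MC.Lvl

/-- A prime with Atkin-Lehner matrices at level `M`, relative to the modulus `M₀`. -/
structure WPrime (M₀ M s : ℕ) : Prop where
  /-- `s` is a prime. -/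
  prime : s.Prime
  /-- `M₀ * s` divides the level. -/
  dvd : M₀ * s ∣ M
  /-- An Atkin-Lehner matrix at `s` exists. -/
  exists_mat : ∃ g, IsWMat M M₀ s g

variable {M M₀ s : ℕ} {H : Subgroup (ZMod M)ˣ}

/-- A prime exactly dividing the level is admissible. -/
theorem WPrime.of_eq_mul [Fact s.Prime] {M' : ℕ} (hM : M = s * M') (hcop : ¬ s ∣ M')
    (h₀ : M₀ ∣ M') :
    WPrime M₀ M s :=
  ⟨Fact.out, by subst hM; rw [mul_comm]; exact mul_dvd_mul_left s h₀, exists_isWMat hM hcop⟩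

/-- Admissibility descends to a divisor of the level still divisible by `M₀ s`. -/
theorem WPrime.mono {M' : ℕ} (h : WPrime M₀ M s) (hd : M' ∣ M) (hdvd : M₀ * s ∣ M') :
    WPrime M₀ M' s := by
  obtain ⟨g, hg⟩ := h.exists_mat
  exact ⟨h.prime, hdvd, g, hg.mono hd⟩

/-- Pullbacks along matrices differing by a central factor agree. -/
theorem IsLevelMap.pull_congr_central {N N' : ℕ} {H : Subgroup (ZMod N)ˣ}
    {H' : Subgroup (ZMod N')ˣ} {n n' : ℕ} {g g' c : GL (Fin 2) ℚ} {R : Type*} [CommRing R]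
    (h : IsLevelMap H H' n g) (h' : IsLevelMap H H' n' g') (hc : ∀ Y, c * Y = Y * c)
    (e : g = c * g') (φ : Homs R (GammaH N H)) : h.pull φ = h'.pull φ := by
  refine AddMonoidHom.ext fun γ => ?_
  obtain ⟨γ, rfl⟩ := Additive.ofMul.surjective γ
  obtain ⟨d, hd, ed⟩ := h'.exists_conj γ γ.2
  rw [IsLevelMap.pull_apply h φ γ ⟨d, hd⟩ (by rw [e, mul_assoc, ed, ← mul_assoc, hc, mul_assoc]),
    IsLevelMap.pull_apply h' φ γ ⟨d, hd⟩ ed]

variable {R : Type} [CommRing R]

/-- The Atkin-Lehner operator. -/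
noncomputable def wOp (hH : LevelOver M₀ M H) (hw : WPrime M₀ M s) :
    Module.End R (Homs R (GammaH M H)) :=
  haveI : Fact s.Prime := ⟨hw.prime⟩
  (hw.exists_mat.choose_spec.isLevelMap hw.dvd hH).pull

/-- Every Atkin-Lehner matrix gives the same operator. -/
theorem pull_eq_wOp (hH : LevelOver M₀ M H) (hw : WPrime M₀ M s) {g : GL (Fin 2) ℚ}
    (hg : IsWMat M M₀ s g) {n : ℕ} (hl : IsLevelMap H H n g) (φ : Homs R (GammaH M H)) :
    hl.pull φ = wOp hH hw φ := by
  obtain ⟨σ, hσ, e⟩ := hw.exists_mat.choose_spec.exists_eq hg hw.prime.ne_zero hw.dvd hH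
  exact IsLevelMap.pull_congr _ _ hσ e φ

/-- The operator squares to the diamond operator of the inverse of the prime. -/
theorem wOp_wOp [NeZero M] (hH : LevelOver M₀ M H) (hw : WPrime M₀ M s) {u : (ZMod M₀)ˣ}
    (hu : (u : ZMod M₀) * s = 1) (φ : Homs R (GammaH M H)) :
    wOp hH hw (wOp hH hw φ) = diaOp hH u φ := by
  have : Fact s.Prime := ⟨hw.prime⟩
  obtain ⟨c, hc, τ, hτ, e, hτs⟩ := hw.exists_mat.choose_spec.sq hw.prime.ne_zero hw.dvd
  rw [← pull_eq_diaOp hH (u := u) hτ (left_inv_eq_right_inv hτs (by rw [mul_comm]; exact hu)),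
    wOp, ← IsLevelMap.pull_comp]
  exact IsLevelMap.pull_congr_central _ _ hc e φ

/-- The operators of two primes commute. -/
theorem wOp_comm (hH : LevelOver M₀ M H) {q : ℕ} (hw : WPrime M₀ M s) (hwq : WPrime M₀ M q)
    (φ : Homs R (GammaH M H)) : wOp hH hw (wOp hH hwq φ) = wOp hH hwq (wOp hH hw φ) := by
  obtain rfl | hne := eq_or_ne q s
  · rfl
  have : Fact s.Prime := ⟨hw.prime⟩
  have : Fact q.Prime := ⟨hwq.prime⟩
  have h' := hw.exists_mat.choose_spec.conj_other hwq.exists_mat.choose_spec hne hw.dvd hwq.dvd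
  obtain ⟨σ, hσ, e⟩ := hw.exists_mat.choose_spec.exists_eq h' hw.prime.ne_zero hw.dvd hH
  rw [wOp, wOp, ← IsLevelMap.pull_comp, ← IsLevelMap.pull_comp]
  refine IsLevelMap.pull_congr _ _ hσ ?_ φ
  rw [← mul_assoc, ← e, inv_mul_cancel_right]

/-- The operator commutes with the elements of `Γ₀(M)`. -/
theorem wOp_pull_gamma0 (hH : LevelOver M₀ M H) (hw : WPrime M₀ M s) {τ : SL(2, ℤ)}
    (hτ : τ ∈ Gamma0 M) (φ : Homs R (GammaH M H)) :
    wOp hH hw ((isLevelMap_gamma0 (le_refl H) hτ).pull φ)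
      = (isLevelMap_gamma0 (le_refl H) hτ).pull (wOp hH hw φ) := by
  have : Fact s.Prime := ⟨hw.prime⟩
  obtain ⟨σ, hσ, e⟩ := hw.exists_mat.choose_spec.exists_eq
    (hw.exists_mat.choose_spec.conj_gamma0 hw.dvd hτ) hw.prime.ne_zero hw.dvd hH
  rw [wOp, ← IsLevelMap.pull_comp, ← IsLevelMap.pull_comp]
  refine IsLevelMap.pull_congr _ _ hσ ?_ φ
  rw [← mul_assoc, ← e, inv_mul_cancel_right]

/-- The operator commutes with the diamond operators. -/
theorem wOp_diaOp [NeZero M] (hH : LevelOver M₀ M H) (hw : WPrime M₀ M s) (u : (ZMod M₀)ˣ)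
    (φ : Homs R (GammaH M H)) : wOp hH hw (diaOp hH u φ) = diaOp hH u (wOp hH hw φ) :=
  wOp_pull_gamma0 hH hw (exists_diaLift hH.dvd u).choose_spec.1 φ

/-- The operator commutes with the Hecke operators of other primes. -/
theorem wOp_heckeT [NeZero M] (hH : LevelOver M₀ M H) (hw : WPrime M₀ M s) {ℓ : ℕ}
    [hℓ : Fact ℓ.Prime] (hne : ℓ ≠ s) (φ : Homs R (GammaH M H)) :
    heckeT R M H ℓ (wOp hH hw φ) = wOp hH hw (heckeT R M H ℓ φ) :=
  IsLevelMap.pull_heckeT _ (fun h => hne ((Nat.prime_dvd_prime_iff_eq hℓ.out hw.prime).mp h))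
    Iff.rfl φ

/-- Restriction commutes with the operators. -/
theorem wOp_pull_one {M' : ℕ} {H' : Subgroup (ZMod M')ˣ} (hH : LevelOver M₀ M H)
    (hH' : LevelOver M₀ M' H') (hw : WPrime M₀ M s) (hw' : WPrime M₀ M' s) (hd : M' ∣ M)
    (hres : IsLevelMap H' H 1 1) (φ : Homs R (GammaH M' H')) :
    wOp hH hw (hres.pull φ) = hres.pull (wOp hH' hw' φ) := by
  have : Fact s.Prime := ⟨hw.prime⟩
  obtain ⟨σ, hσ, e⟩ := hw'.exists_mat.choose_spec.exists_eq
    (hw.exists_mat.choose_spec.mono hd) hw.prime.ne_zero hw'.dvd hH'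
  rw [wOp, wOp, ← IsLevelMap.pull_comp, ← IsLevelMap.pull_comp]
  exact IsLevelMap.pull_congr _ _ hσ (by rw [one_mul, mul_one, e]) φ

end Fermat.HM
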